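import Fermat.Prelude.Def_LanglandsTunnell_WeightOneRealizationCarriers
import Fermat.Prelude.Def_GaloisRep_ModThreeCyclotomic
import Fermat.Prelude.Def_FLTPrelim_Ramification

/-!
# Weight one forms of nebentypus `χ₋₃`

Definitions shared by the weight one wiring modules behind S46, S47 and S50: the character
`chiInt` on the integers, the Euler factor `weightOneEuler`, and the predicates
`IsWeightOneExpansion` (a cusp form with given `ℤ√-2`-valued coefficients) and `IsWeightOneSystem`
(moreover a Hecke eigensystem).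
-/

set_option autoImplicit false

noncomputable section

open CongruenceSubgroup EisensteinWeightOne FLT.ExplicitLift WeierstrassCurve
open scoped MatrixGroups ModularForm

namespace FLTAgent.WeightOneWiring

/-- `χ₋₃` on the integers. -/
def chiInt (d : ℤ) : ℤ := chiNegThree (d % 3).toNat

/-- The coefficient eigensystem of weight one, nebentypus `χ₋₃`, level `N`. -/
def weightOneEuler (R : Type*) [CommRing R] (N ℓ : ℕ) : R :=
  if ℓ ∣ N then 0 else ((chiNegThree ℓ : ℤ) : R)

/-- `f` is a weight one cusp form on `Γ₀(N)` with nebentypus `χ₋₃` and coefficient sequence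
`ι ∘ b`. -/
structure IsWeightOneExpansion (N : ℕ) (ι : ℤ√(-2) →+* ℂ) (b : ℕ → ℤ√(-2))
    (f : CuspForm (Gamma1 N) 1) : Prop where
  three_dvd : 3 ∣ N
  nebentypus : ∀ γ : SL(2, ℤ), γ ∈ Gamma0 N →
    (⇑f : UpperHalfPlane → ℂ) ∣[(1 : ℤ)] γ = (chiInt (γ 1 1) : ℂ) • (⇑f : UpperHalfPlane → ℂ)
  qCoeff : ∀ n : ℕ, ModularFormClass.qCoeff f n = ι (b n)

/-- Moreover the coefficient sequence is a normalised Hecke eigensystem. -/
structure IsWeightOneSystem (N : ℕ) (ι : ℤ√(-2) →+* ℂ) (b : ℕ → ℤ√(-2))
    (f : CuspForm (Gamma1 N) 1) : Prop extends IsWeightOneExpansion N ι b f where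
  eigensystem : FormalHecke.IsEigensystem (weightOneEuler (ℤ√(-2)) N) b

end FLTAgent.WeightOneWiring
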