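import Fermat.Agent.WeightOneWiring.Realise
import Fermat.Agent.DeligneSerre.Diamond
import Fermat.Agent.DeligneSerre.Systems

/-!
# Descent to coefficients in `ℤ[√-2]`

Descent of a weight one eigenspace with eigenvalues in `ℤ[√-2]` to coefficients in `ℤ[√-2]`.
Main result: `exists_expansion`.
-/

set_option autoImplicit false

noncomputable section

open UpperHalfPlane CongruenceSubgroup EisensteinWeightOne FLT.ExplicitLift
open scoped MatrixGroups ModularForm

namespace FLTAgent.WeightOneWiring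

open FLTAgent.MFIntegral
open FLTAgent.DeligneSerre (cfSpace T_mem_Gamma1)

variable {L : ℕ} [NeZero L]

/-- `ℚ`-linear functionals preserve the coefficient space. -/
theorem functional_mem (hL : 3 ≤ L) (φ : ℂ →ₗ[ℚ] ℚ) {a : ℕ → ℂ} (ha : a ∈ cfSpace L) :
    ((fun n ↦ (φ (a n) : ℂ)) ∈ cfSpace L) ∧
      ∃ D : ℤ, D ≠ 0 ∧ ∀ n, ∃ m : ℤ, (D : ℚ) * φ (a n) = m := by
  classical
  obtain ⟨B, hB⟩ := FLTAgent.DeligneSerre.exists_coeff_bound L
  have hspan := span_rational_eq_top (cfSpace L).subtype B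
    (fun f hf ↦ Subtype.ext (hB f f.2 hf))
    (fun σ f ↦ ⟨⟨_, FLTAgent.DeligneSerre.conj_mem_cfSpace hL f.2 σ⟩, fun n ↦ rfl⟩)
  suffices H : ∀ v : cfSpace L, ∀ c : ℂ, (fun n ↦ (φ (c * (v : ℕ → ℂ) n) : ℂ)) ∈ cfSpace L ∧
      ∃ D : ℤ, D ≠ 0 ∧ ∀ n, ∃ m : ℤ, (D : ℚ) * φ (c * (v : ℕ → ℂ) n) = m by
    simpa using H ⟨a, ha⟩ 1
  intro v
  have hv : v ∈ Submodule.span ℂ {f : cfSpace L | ∀ n, ∃ r : ℚ, (cfSpace L).subtype f n = r} := by
    rw [hspan]; trivial
  induction hv using Submodule.span_induction with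
  | mem x hx =>
    intro c
    obtain ⟨g, hg, hgx⟩ := x.2
    obtain ⟨d, hd, hint⟩ := isBD_of_rational T_mem_Gamma1
      (FLTAgent.DeligneSerre.isSeparating_divForm hL) hg.1
      (fun n ↦ by obtain ⟨r, hr⟩ := hx n; exact ⟨r, (hgx n).trans hr⟩)
    have hlin : ∀ n, (φ (c * (x : ℕ → ℂ) n) : ℂ) = (φ c : ℂ) * (x : ℕ → ℂ) n := fun n ↦ by
      obtain ⟨r, hr⟩ := hx n
      rw [show (x : ℕ → ℂ) n = (r : ℂ) from hr, mul_comm c,
        show (r : ℂ) * c = r • c from (Rat.smul_def r c).symm, map_smul, smul_eq_mul,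
        Rat.cast_mul, mul_comm]
    refine ⟨?_, d * (φ c).den, mul_ne_zero hd (by exact_mod_cast (φ c).den_nz), fun n ↦ ?_⟩
    · rw [show (fun n ↦ (φ (c * (x : ℕ → ℂ) n) : ℂ)) = (φ c : ℂ) • (x : ℕ → ℂ) from funext hlin]
      exact Submodule.smul_mem _ _ x.2
    · obtain ⟨m, hm⟩ := mem_intSeries_iff.mp hint n
      rw [PowerSeries.coeff_C_mul, hgx] at hm
      obtain ⟨r, hr⟩ := hx n
      refine ⟨(φ c).num * m, ?_⟩
      have hr' : (d : ℚ) * r = m := by
        rw [show (x : ℕ → ℂ) n = (r : ℂ) from hr] at hm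
        exact_mod_cast hm
      have hc : φ (c * (x : ℕ → ℂ) n) = φ c * r := by
        have := hlin n
        rw [show (x : ℕ → ℂ) n = (r : ℂ) from hr] at this ⊢
        exact_mod_cast this
      rw [hc]
      push_cast
      rw [← hr', show (d : ℚ) * (φ c).den * (φ c * r) = (φ c * (φ c).den) * ((d : ℚ) * r) by ring,
        Rat.mul_den_eq_num]
  | zero =>
    intro c
    refine ⟨?_, 1, one_ne_zero, fun n ↦ ⟨0, by simp⟩⟩
    simp only [Submodule.coe_zero, Pi.zero_apply, mul_zero, map_zero, Rat.cast_zero]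
    exact (cfSpace L).zero_mem
  | add x y _ _ ihx ihy =>
    intro c
    obtain ⟨hx, D, hD, hDx⟩ := ihx c
    obtain ⟨hy, D', hD', hDy⟩ := ihy c
    refine ⟨?_, D * D', mul_ne_zero hD hD', fun n ↦ ?_⟩
    · have := add_mem hx hy
      convert this using 1
      funext n
      simp [mul_add]
    · obtain ⟨m, hm⟩ := hDx n
      obtain ⟨m', hm'⟩ := hDy n
      refine ⟨D' * m + D * m', ?_⟩
      simp only [Submodule.coe_add, Pi.add_apply, mul_add, map_add]
      push_cast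
      rw [← hm, ← hm']
      ring
  | smul d x _ ih =>
    intro c
    simpa [mul_assoc] using ih (c * d)

/-- `χ₋₃` as a Dirichlet character. -/
def chiThree : DirichletCharacter ℂ 3 :=
  (quadraticChar (ZMod 3)).ringHomComp (Int.castRingHom ℂ)

theorem quadraticChar_three : ∀ x : ZMod 3,
    quadraticChar (ZMod 3) x = if x = 1 then 1 else if x = 2 then -1 else 0 := by
  decide +kernel

theorem chiThree_intCast {d : ℤ} (h : ¬ (3 : ℤ) ∣ d) : chiThree (d : ZMod 3) = chiInt d := by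
  have h1 : d % 3 = 1 ∨ d % 3 = 2 := by omega
  have e : (d : ZMod 3) = ((d % 3 : ℤ) : ZMod 3) := by
    rw [ZMod.intCast_eq_intCast_iff']
    simp
  rw [chiThree, MulChar.ringHomComp_apply, eq_intCast, chiInt_of_emod h1, quadraticChar_three]
  rcases h1 with h1 | h1 <;> rw [e, h1] <;> simp +decide

omit [NeZero L] in
theorem changeLevel_chiThree (h3 : 3 ∣ L) {d : ℤ} (hd : IsUnit ((d : ℤ) : ZMod L)) :
    DirichletCharacter.changeLevel h3 chiThree ((d : ℤ) : ZMod L) = chiInt d := by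
  obtain ⟨u, hu⟩ := hd
  rw [← hu, DirichletCharacter.changeLevel_eq_cast_of_dvd _ h3, hu, ZMod.cast_intCast h3]
  refine chiThree_intCast fun hdvd => ?_
  have h := u.isUnit.map (ZMod.castHom h3 (ZMod 3))
  rw [hu, map_intCast, (ZMod.intCast_zmod_eq_zero_iff_dvd d 3).mpr hdvd] at h
  exact absurd h (by decide)

/-- The good Hecke relations of a coefficient sequence with eigenvalues `ev`. -/
def GoodRel {R : Type*} [CommRing R] (L : ℕ) (ev : ℕ → R) (a : ℕ → R) : Prop :=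
  ∀ q : ℕ, q.Prime → ¬ q ∣ L → ∀ n : ℕ,
    a (q * n) + ((chiNegThree q : ℤ) : R) * (if q ∣ n then a (n / q) else 0) = ev q * a n

/-- Good relations force the nebentypus. -/
theorem slash_of_goodRel (h3 : 3 ∣ L) {g : ℍ → ℂ} (hg : IsCF 1 (Gamma1 L) g) {ev : ℕ → ℂ}
    (hrel : GoodRel L ev (ModularFormClass.qCoeff g)) {γ : SL(2, ℤ)} (hγ : γ ∈ Gamma0 L) :
    g ∣[(1 : ℤ)] γ = (chiInt (γ 1 1) : ℂ) • g := by
  have h := FLTAgent.DeligneSerre.slash_eq_char_of_relations
    (DirichletCharacter.changeLevel h3 chiThree) (a := ev) hg (fun q hq hqL n => ?_) hγ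
  · rw [h, changeLevel_chiThree h3]
    have := congrArg (Int.cast : ℤ → ZMod L) ((Matrix.det_fin_two γ.1).symm.trans γ.2)
    push_cast at this
    rw [Gamma0_mem.mp hγ, mul_zero, sub_zero] at this
    exact isUnit_iff_exists_inv.mpr ⟨_, (mul_comm _ _).trans this⟩
  · have hu : IsUnit ((q : ℕ) : ZMod L) := (ZMod.isUnit_prime_iff_not_dvd hq).mpr hqL
    rw [← Int.cast_natCast (R := ZMod L), changeLevel_chiThree h3 (by rwa [Int.cast_natCast]),
      show chiInt (q : ℤ) = chiNegThree q by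
        rw [chiInt, show ((q : ℤ) % 3).toNat = q % 3 by omega]; simp [chiNegThree]]
    exact hrel q hq hqL n

theorem iota_injective (ι : ℤ√(-2) →+* ℂ) : Function.Injective ι :=
  (injective_iff_map_eq_zero ι).mpr fun _ h => iota_eq_zero ι h

theorem eq_pi_mul {z : ℤ√(-2)} (h : red z = 0) : ∃ z' : ℤ√(-2), z = ⟨1, 1⟩ * z' := by
  rw [red_eq_redVal, redVal, sub_eq_zero, ZMod.intCast_eq_intCast_iff_dvd_sub] at h
  obtain ⟨k, hk⟩ := h
  push_cast at hk
  refine ⟨⟨z.im - k, k⟩, ?_⟩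
  ext <;> simp [Zsqrtd.re_mul, Zsqrtd.im_mul]
  linarith

/-- An eigenspace with eigenvalues `ι ∘ β` contains a form with coefficients in `ι(ℤ[√-2])`,
nonzero modulo `(1 + √-2)`. -/
theorem exists_expansion (hL : 3 ≤ L) (h3 : 3 ∣ L) {a : ℕ → ℂ} (ha : a ∈ cfSpace L) (ha1 : a 1 = 1)
    (ι : ℤ√(-2) →+* ℂ) (β : ℕ → ℤ√(-2)) (hrel : GoodRel L (fun q => ι (β q)) a) :
    ∃ (z : ℕ → ℤ√(-2)) (g : CuspForm (Gamma1 L) 1),
      IsWeightOneExpansion L ι z g ∧ GoodRel L β z ∧ ∃ n, red (z n) ≠ 0 := by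
  classical
  set w := ι Zsqrtd.sqrtd with hw
  have hww := iota_sqrtd_sq ι
  -- the functional
  obtain ⟨φ₀, hφ1, hφw⟩ : ∃ φ : ℂ →ₗ[ℚ] ℚ, φ 1 = 1 ∧ φ w = 0 := by
    have h1 : (1 : ℂ) ∉ Submodule.span ℚ ({w} : Set ℂ) := by
      intro h
      obtain ⟨r, hr⟩ := Submodule.mem_span_singleton.mp h
      rw [Rat.smul_def] at hr
      have hc := congrArg (starRingEnd ℂ) hr
      rw [map_mul, map_ratCast, map_one, hw, conj_iota_sqrtd] at hc
      rw [← hw] at hc
      exact one_ne_zero (α := ℂ) (by linear_combination -(hc + hr) / 2)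
    obtain ⟨f, hf, hfp⟩ := Submodule.exists_dual_map_eq_bot_of_notMem h1 inferInstance
    refine ⟨(f 1)⁻¹ • f, by simp [hf], ?_⟩
    have : f w ∈ (Submodule.span ℚ ({w} : Set ℂ)).map f :=
      ⟨w, Submodule.mem_span_singleton_self w, rfl⟩
    rw [hfp, Submodule.mem_bot] at this
    simp [this]
  obtain ⟨h1m, D1, hD1, hD1'⟩ := functional_mem hL φ₀ ha
  obtain ⟨h2m, D2, hD2, hD2'⟩ := functional_mem hL φ₀ (Submodule.smul_mem (cfSpace L) w ha)
  choose m1 hm1 using hD1'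
  choose m2 hm2 using hD2'
  let z : ℕ → ℤ√(-2) := fun n => ⟨2 * D2 * m1 n, -(D1 * m2 n)⟩
  have hzre : ∀ n, ((z n).re : ℚ) = 2 * D1 * D2 * φ₀ (a n) := fun n => by
    simp only [z]; push_cast; rw [← hm1 n]; ring
  have hzim : ∀ n, ((z n).im : ℚ) = -(D1 * D2 * φ₀ (w * a n)) := fun n => by
    simp only [z]; push_cast; rw [← hm2 n]; simp only [Pi.smul_apply, smul_eq_mul]; ring
  have hzmem : (fun n => ι (z n)) ∈ cfSpace L := by
    have := add_mem (Submodule.smul_mem (cfSpace L) ((2 * D1 * D2 : ℤ) : ℂ) h1m)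
      (Submodule.smul_mem (cfSpace L) (-w * (D1 * D2 : ℤ)) h2m)
    convert this using 1
    funext n
    simp only [Pi.add_apply, Pi.smul_apply, smul_eq_mul]
    rw [iota_apply, ← hw,
      show ((z n).re : ℂ) = (((z n).re : ℚ) : ℂ) by push_cast; rfl,
      show ((z n).im : ℂ) = (((z n).im : ℚ) : ℂ) by push_cast; rfl, hzre, hzim]
    push_cast
    ring
  have hz1 : z 1 ≠ 0 := fun h => by
    have h' := hzre 1
    rw [h, ha1, hφ1] at h'
    simp [hD1, hD2] at h'
  have hzrel : GoodRel L β z := by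
    intro q hq hqL n
    have key : ∀ x : ℂ, φ₀ (ι (β q) * x) = (β q).re * φ₀ x + (β q).im * φ₀ (w * x) := fun x => by
      rw [iota_apply, ← hw, add_mul, map_add, mul_comm w, mul_assoc,
        show (((β q).re : ℂ)) * x = ((β q).re : ℚ) • x by rw [Rat.smul_def]; push_cast; rfl,
        show (((β q).im : ℂ)) * (w * x) = ((β q).im : ℚ) • (w * x) by
          rw [Rat.smul_def]; push_cast; rfl, map_smul, map_smul, smul_eq_mul, smul_eq_mul]
    have hint : ∀ (c : ℤ) (x : ℂ), φ₀ ((c : ℂ) * x) = c * φ₀ x := fun c x => by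
      rw [show (c : ℂ) * x = (c : ℚ) • x by rw [Rat.smul_def]; push_cast; rfl,
        map_smul, smul_eq_mul]
    have h := hrel q hq hqL n
    have e1 := congrArg φ₀ h
    have e2 := congrArg (fun x => φ₀ (w * x)) h
    simp only [map_add, mul_add] at e1 e2
    rw [key, hint] at e1
    rw [show w * (ι (β q) * a n) = ι (β q) * (w * a n) by ring, key,
      show w * (((chiNegThree q : ℤ) : ℂ) * (if q ∣ n then a (n / q) else 0)) =
        ((chiNegThree q : ℤ) : ℂ) * (w * (if q ∣ n then a (n / q) else 0)) by ring, hint,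
      show w * (w * a n) = ((-2 : ℤ) : ℂ) * a n by rw [← mul_assoc, hww]; norm_num, hint] at e2
    push_cast at e2
    refine Zsqrtd.ext ?_ ?_
    · refine Int.cast_injective (α := ℚ) ?_
      simp only [Zsqrtd.re_add, Zsqrtd.re_mul, Zsqrtd.re_intCast, Zsqrtd.im_intCast]
      push_cast
      split_ifs at e1 ⊢ with hd <;> simp only [map_zero, mul_zero, Zsqrtd.re_zero, Zsqrtd.im_zero,
        add_zero, Int.cast_zero, hzre, hzim] at e1 ⊢ <;>
        linear_combination (2 * (D1 : ℚ) * D2) * e1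
    · refine Int.cast_injective (α := ℚ) ?_
      simp only [Zsqrtd.im_add, Zsqrtd.im_mul, Zsqrtd.re_intCast, Zsqrtd.im_intCast]
      push_cast
      split_ifs at e2 ⊢ with hd <;> simp only [map_zero, mul_zero, Zsqrtd.re_zero, Zsqrtd.im_zero,
        add_zero, Int.cast_zero, hzre, hzim] at e2 ⊢ <;>
        linear_combination (-((D1 : ℚ) * D2)) * e2
  -- divide by `1 + √-2`
  suffices H : ∀ (k : ℕ) (z : ℕ → ℤ√(-2)), (z 1).norm.natAbs = k → z 1 ≠ 0 →
      (fun n => ι (z n)) ∈ cfSpace L → GoodRel L β z →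
      ∃ z' : ℕ → ℤ√(-2), (fun n => ι (z' n)) ∈ cfSpace L ∧ GoodRel L β z' ∧
        ∃ n, red (z' n) ≠ 0 by
    obtain ⟨z', hmem, hrel', hn⟩ := H _ z rfl hz1 hzmem hzrel
    obtain ⟨g, hg, hgq⟩ := hmem
    refine ⟨z', hg.toCF, ⟨h3, fun γ hγ => ?_, fun n => ?_⟩, hrel', hn⟩
    · rw [IsCF.coe_toCF]
      refine slash_of_goodRel h3 hg (ev := fun q => ι (β q)) (fun q hq hqL n => ?_) hγ
      simp only [qCoeff_eq, hgq]
      rw [← map_mul, ← hrel' q hq hqL n, map_add, map_mul, map_intCast]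
      split_ifs <;> simp
    · rw [qCoeff_eq, IsCF.coe_toCF]; exact hgq n
  intro k
  induction k using Nat.strong_induction_on with
  | _ k IH =>
    intro z hk hz1 hmem hrel
    by_cases hn : ∃ n, red (z n) ≠ 0
    · exact ⟨z, hmem, hrel, hn⟩
    push Not at hn
    choose z' hz' using fun n => eq_pi_mul (hn n)
    have hπ0 : (⟨1, 1⟩ : ℤ√(-2)) ≠ 0 := by decide
    have hπ : ι ⟨1, 1⟩ ≠ 0 := fun h => hπ0 (iota_eq_zero ι h)
    refine IH _ ?_ z' rfl (fun h => hz1 (by rw [hz', h, mul_zero])) ?_ ?_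
    · rw [← hk, hz' 1, Zsqrtd.norm_mul, Int.natAbs_mul,
        show (⟨1, 1⟩ : ℤ√(-2)).norm.natAbs = 3 from by decide]
      have : (z' 1).norm ≠ 0 := fun h => hz1 (by
        rw [hz', (Zsqrtd.norm_eq_zero_iff (by norm_num : (-2 : ℤ) < 0) _).mp h, mul_zero])
      have : 0 < (z' 1).norm.natAbs := Int.natAbs_pos.mpr this
      omega
    · rw [show (fun n => ι (z' n)) = (ι ⟨1, 1⟩)⁻¹ • fun n => ι (z n) from funext fun n => by
        rw [Pi.smul_apply, smul_eq_mul, hz', map_mul, inv_mul_cancel_left₀ hπ]]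
      exact Submodule.smul_mem _ _ hmem
    · intro q hq hqL n
      have h := congrArg ι (hrel q hq hqL n)
      refine iota_injective ι (mul_left_cancel₀ hπ ?_)
      rw [← map_mul, ← map_mul]
      rw [hz' n, hz' (q * n), hz' (n / q)] at h
      convert h using 2
      · split_ifs <;> ring
      · ring

end FLTAgent.WeightOneWiring
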