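import Fermat.Agent.GaloisImage.Monomial

/-!
# A surjectivity criterion for `GL₂(𝔽₃)`

A representation into `GL₂(𝔽₃)` with nontrivial determinant that has no stable line over `𝔽̄₃` on
any subgroup of index at most two is surjective.
Main result: `surjective_of_noStableLine`.
-/

set_option autoImplicit false

open Matrix
open scoped MatrixGroups

namespace FLTAgent.WeightOneWiring

open FLTAgent.GaloisImage

local notation "M₃" => Matrix (Fin 2) (Fin 2) (ZMod 3)
local notation "G₃" => GL (Fin 2) (ZMod 3)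

/-- The upper unipotent matrix, as a unit. -/
def upperUni (x : ZMod 3) : G₃ :=
  ⟨!![1, x; 0, 1], !![1, -x; 0, 1], by simp [Matrix.one_fin_two], by simp [Matrix.one_fin_two]⟩

/-- The lower unipotent matrix, as a unit. -/
def lowerUni (x : ZMod 3) : G₃ :=
  ⟨!![1, 0; x, 1], !![1, 0; -x, 1], by simp [Matrix.one_fin_two], by simp [Matrix.one_fin_two]⟩

theorem exists_word : ∀ a b c d : ZMod 3, a * d - b * c = 1 → ∃ i j k l : ZMod 3,
    !![a, b; c, d] =
      (upperUni i : M₃) * (lowerUni j : M₃) * (upperUni k : M₃) * (lowerUni l : M₃) := by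
  decide +kernel

theorem exists_npow_upperUni : ∀ x i : ZMod 3, x ≠ 0 →
    (upperUni i : M₃) = (upperUni x : M₃) ^ (i * x).val := by
  decide +kernel

theorem exists_npow_lowerUni : ∀ x i : ZMod 3, x ≠ 0 →
    (lowerUni i : M₃) = (lowerUni x : M₃) ^ (i * x).val := by
  decide +kernel

theorem shape_upper : ∀ a b c d : ZMod 3,
    (!![a, b; c, d] - 1) * (!![a, b; c, d] - 1) = (0 : M₃) → a = 1 → c = 0 →
      (!![a, b; c, d] : M₃) ≠ 1 → b ≠ 0 ∧ d = 1 := by
  decide +kernel

theorem shape_lower : ∀ a b c d : ZMod 3,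
    (!![a, b; c, d] - 1) * (!![a, b; c, d] - 1) = (0 : M₃) → b = 0 → d = 1 →
      (!![a, b; c, d] : M₃) ≠ 1 → c ≠ 0 ∧ a = 1 := by
  decide +kernel

theorem unipotent_of_cube : ∀ a b c d : ZMod 3,
    (!![a, b; c, d] : M₃) * !![a, b; c, d] * !![a, b; c, d] = 1 →
    (!![a, b; c, d] - 1) * (!![a, b; c, d] - 1) = (0 : M₃) := by
  decide +kernel

theorem center_eq_or : ∀ a b c d : ZMod 3,
    (!![a, b; c, d] : M₃) * !![1, 1; 0, 1] = !![1, 1; 0, 1] * !![a, b; c, d] →
    (!![a, b; c, d] : M₃) * !![1, 0; 1, 1] = !![1, 0; 1, 1] * !![a, b; c, d] →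
    a * d - b * c ≠ 0 → (!![a, b; c, d] : M₃) = 1 ∨ (!![a, b; c, d] : M₃) = -1 := by
  decide +kernel

/-- A subgroup containing both unipotent subgroups and an element of determinant `-1` is full. -/
theorem eq_top_of_unipotents {H : Subgroup G₃} {x y : ZMod 3} (hx : x ≠ 0) (hy : y ≠ 0)
    (hu : upperUni x ∈ H) (hl : lowerUni y ∈ H) {g₀ : G₃} (hg₀ : g₀ ∈ H)
    (hd : (g₀ : M₃).det = -1) : H = ⊤ := by
  have hU : ∀ i, upperUni i ∈ H := fun i => by
    have : upperUni i = upperUni x ^ (i * x).val :=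
      Units.ext (by rw [Units.val_pow_eq_pow_val]; exact exists_npow_upperUni x i hx)
    exact this ▸ pow_mem hu _
  have hL : ∀ i, lowerUni i ∈ H := fun i => by
    have : lowerUni i = lowerUni y ^ (i * y).val :=
      Units.ext (by rw [Units.val_pow_eq_pow_val]; exact exists_npow_lowerUni y i hy)
    exact this ▸ pow_mem hl _
  have hSL : ∀ g : G₃, (g : M₃).det = 1 → g ∈ H := fun g hg => by
    rw [det_fin_two] at hg
    obtain ⟨i, j, k, l, h⟩ := exists_word _ _ _ _ hg
    have : g = upperUni i * lowerUni j * upperUni k * lowerUni l := by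
      refine Units.ext ?_
      rw [Units.val_mul, Units.val_mul, Units.val_mul, ← h, ← eta_fin_two (g : M₃)]
    rw [this]
    exact mul_mem (mul_mem (mul_mem (hU i) (hL j)) (hU k)) (hL l)
  refine eq_top_iff.mpr fun g _ => ?_
  have hne : (g : M₃).det ≠ 0 := (Matrix.GeneralLinearGroup.det g).ne_zero
  rcases zmod_three (g : M₃).det hne with h | h
  · exact hSL g h
  · have hh : g * g₀ ∈ H := hSL _ (by rw [Units.val_mul, det_mul, h, hd]; decide)
    simpa using mul_mem hh (inv_mem hg₀)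
where
  zmod_three : ∀ a : ZMod 3, a ≠ 0 → a = 1 ∨ a = -1 := by decide

theorem exists_eq_smul_of_det_eq_zero {K : Type} [Field K] {v w : Fin 2 → K} (hv : v ≠ 0)
    (h : v 0 * w 1 - w 0 * v 1 = 0) : ∃ c : K, w = c • v := by
  by_cases h0 : v 0 = 0
  · have h1 : v 1 ≠ 0 := fun h1 => hv (funext fun i => by fin_cases i <;> assumption)
    rw [h0, zero_mul, zero_sub, neg_eq_zero, mul_eq_zero] at h
    exact ⟨w 1 / v 1, funext fun i => by fin_cases i <;> simp [h0, h.resolve_right h1, h1]⟩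
  · refine ⟨w 0 / v 0, funext fun i => ?_⟩
    fin_cases i
    · simp [h0]
    · simp only [Fin.mk_one, Pi.smul_apply, smul_eq_mul]
      field_simp
      linear_combination h

variable {Γ : Type} [Group Γ] {R : Γ →* G₃}

/-- The matrices of a `GL₂(𝔽₃)`-valued representation. -/
abbrev matOf (R : Γ →* G₃) : Γ →* M₃ := (Units.coeHom M₃).comp R

/-- If the image contains an element of order three, it is full. -/
theorem surjective_of_order_three (hdet : ∃ g, (matOf R g).det = -1)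
    (hirr : NoStableLine (matOf R)) (h3 : 3 ∣ Nat.card R.range) : Function.Surjective R := by
  obtain ⟨⟨_, g₁, rfl⟩, hu⟩ := exists_prime_orderOf_dvd_card' (G := R.range) 3 h3
  have hu' : orderOf (R g₁) = 3 := (Subgroup.orderOf_mk _ _).symm.trans hu
  set u : M₃ := matOf R g₁ with hu_def
  have hu1 : u ≠ 1 := fun h => by
    rw [show R g₁ = 1 from Units.ext h, orderOf_one] at hu'
    omega
  have hsq : (u - 1) * (u - 1) = 0 := by
    rw [eta_fin_two u]
    refine unipotent_of_cube _ _ _ _ ?_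
    rw [← eta_fin_two u, hu_def]
    have h := congrArg (fun x : G₃ => (x : M₃)) (pow_orderOf_eq_one (R g₁))
    rw [hu'] at h
    simpa [pow_succ] using h
  obtain ⟨j, hj⟩ : ∃ j, (fun i => (u - 1) i j) ≠ 0 := by
    by_contra hc
    push Not at hc
    exact hu1 (sub_eq_zero.mp (Matrix.ext fun i j => congrFun (hc j) i))
  set w : Fin 2 → ZMod 3 := fun i => (u - 1) i j with hw
  have huw : u *ᵥ w = w := by
    funext i
    have h := congrFun (congrFun hsq i) j
    simp only [Matrix.mul_apply, Matrix.zero_apply] at h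
    have h2 : ((u - 1) *ᵥ w) i = 0 := h
    rw [Matrix.sub_mulVec, Matrix.one_mulVec, Pi.sub_apply, sub_eq_zero] at h2
    exact h2
  obtain ⟨g, hg⟩ : ∃ g, ∀ c : ZMod 3, matOf R g *ᵥ w ≠ c • w := by
    by_contra hc
    push Not at hc
    exact hirr w ⟨hj, fun g _ => hc g⟩
  set z := matOf R g *ᵥ w with hz
  have hdne : (!![w 0, z 0; w 1, z 1] : M₃).det ≠ 0 := fun h0 => by
    obtain ⟨c, hc⟩ := exists_eq_smul_of_det_eq_zero hj (v := w) (w := z)
      (by rw [det_fin_two_of] at h0; exact h0)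
    exact hg c hc
  obtain ⟨P, hP⟩ : ∃ P : G₃, (P : M₃) = !![w 0, z 0; w 1, z 1] :=
    ⟨((Matrix.isUnit_iff_isUnit_det _).mpr (isUnit_iff_ne_zero.mpr hdne)).unit, IsUnit.unit_spec _⟩
  have hP0 : (P : M₃) *ᵥ ![1, 0] = w := by
    rw [hP]; funext i; fin_cases i <;> simp [mulVec, dotProduct]
  have hP1 : (P : M₃) *ᵥ ![0, 1] = z := by
    rw [hP]; funext i; fin_cases i <;> simp [mulVec, dotProduct]
  set U : G₃ := P⁻¹ * R g₁ * P with hU
  set L : G₃ := P⁻¹ * (R g * R g₁ * (R g)⁻¹) * P with hL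
  have hcancel : ∀ v, (↑P⁻¹ : M₃) *ᵥ ((P : M₃) *ᵥ v) = v := fun v => by
    rw [mulVec_mulVec, Units.inv_mul, one_mulVec]
  have hU0 : (U : M₃) *ᵥ ![1, 0] = ![1, 0] := by
    rw [hU, Units.val_mul, Units.val_mul, ← mulVec_mulVec, hP0, ← mulVec_mulVec]
    show _ *ᵥ (u *ᵥ w) = _
    rw [huw, ← hP0, hcancel]
  have hL1 : (L : M₃) *ᵥ ![0, 1] = ![0, 1] := by
    rw [hL, Units.val_mul, Units.val_mul, Units.val_mul, Units.val_mul, ← mulVec_mulVec, hP1,
      ← mulVec_mulVec, ← mulVec_mulVec, ← mulVec_mulVec, hz]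
    show _ *ᵥ ((R g : M₃) *ᵥ (u *ᵥ ((↑(R g)⁻¹ : M₃) *ᵥ ((R g : M₃) *ᵥ w)))) = _
    rw [mulVec_mulVec _ (↑(R g)⁻¹ : M₃), Units.inv_mul, one_mulVec, huw]
    show (↑P⁻¹ : M₃) *ᵥ z = _
    rw [← hP1, hcancel]
  have hUu : ((U : M₃) - 1) * ((U : M₃) - 1) = 0 ∧ (U : M₃) ≠ 1 := by
    have e : (U : M₃) - 1 = (↑P⁻¹ : M₃) * (u - 1) * (P : M₃) := by
      rw [mul_sub, sub_mul, mul_one, Units.inv_mul]; rfl
    refine ⟨?_, fun h => ?_⟩
    · rw [e, show (↑P⁻¹ : M₃) * (u - 1) * (P : M₃) * ((↑P⁻¹ : M₃) * (u - 1) * (P : M₃)) =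
        (↑P⁻¹ : M₃) * ((u - 1) * ((P : M₃) * (↑P⁻¹ : M₃)) * (u - 1)) * (P : M₃) by
          simp only [mul_assoc], Units.mul_inv, mul_one, hsq, mul_zero, zero_mul]
    · have h' : U = 1 := Units.ext h
      rw [hU, mul_eq_one_iff_eq_inv, mul_eq_left] at h'
      exact hu1 (congrArg Units.val h')
  have hLu : ((L : M₃) - 1) * ((L : M₃) - 1) = 0 ∧ (L : M₃) ≠ 1 := by
    set C : G₃ := P⁻¹ * R g with hC
    have eL : L = C * R g₁ * C⁻¹ := by rw [hL, hC]; group
    have e : (L : M₃) - 1 = (C : M₃) * (u - 1) * (↑C⁻¹ : M₃) := by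
      rw [mul_sub, sub_mul, mul_one, Units.mul_inv, eL]; rfl
    refine ⟨?_, fun h => ?_⟩
    · rw [e, show (C : M₃) * (u - 1) * (↑C⁻¹ : M₃) * ((C : M₃) * (u - 1) * (↑C⁻¹ : M₃)) =
        (C : M₃) * ((u - 1) * ((↑C⁻¹ : M₃) * (C : M₃)) * (u - 1)) * (↑C⁻¹ : M₃) by
          simp only [mul_assoc], Units.inv_mul, mul_one, hsq, mul_zero, zero_mul]
    · have h' : C * R g₁ * C⁻¹ = 1 := eL ▸ Units.ext h
      rw [mul_inv_eq_one, mul_eq_left] at h'
      exact hu1 (congrArg Units.val h')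
  have hu00 := congrFun hU0 0
  have hu10 := congrFun hU0 1
  have hl01 := congrFun hL1 0
  have hl11 := congrFun hL1 1
  simp [mulVec, dotProduct, Fin.sum_univ_two] at hu00 hu10 hl01 hl11
  obtain ⟨hUa, hUb⟩ := hUu
  obtain ⟨hLa, hLb⟩ := hLu
  rw [eta_fin_two (U : M₃)] at hUa hUb
  rw [eta_fin_two (L : M₃)] at hLa hLb
  obtain ⟨hx, hU11⟩ := shape_upper _ _ _ _ hUa hu00 hu10 hUb
  obtain ⟨hy, hL00⟩ := shape_lower _ _ _ _ hLa hl01 hl11 hLb
  obtain ⟨g₂, hg₂⟩ := hdet
  let H : Subgroup G₃ := R.range.map (MulAut.conj P⁻¹).toMonoidHom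
  have hmem : ∀ γ, P⁻¹ * R γ * P ∈ H := fun γ =>
    ⟨R γ, ⟨γ, rfl⟩, by simp⟩
  have htop : H = ⊤ := by
    refine eq_top_of_unipotents hx hy ?_ ?_ (hmem g₂) ?_
    · have : upperUni ((U : M₃) 0 1) = U := Units.ext (by
        rw [eta_fin_two (U : M₃), hu00, hu10, hU11]; simp [upperUni])
      rw [this]
      exact hmem g₁
    · have : lowerUni ((L : M₃) 1 0) = L := Units.ext (by
        rw [eta_fin_two (L : M₃), hl01, hl11, hL00]; simp [lowerUni])
      rw [this, hL, ← map_inv, ← map_mul, ← map_mul]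
      exact hmem _
    · rw [Units.val_mul, Units.val_mul, det_units_conj']
      exact hg₂
  intro x
  obtain ⟨_, ⟨γ, rfl⟩, hγ⟩ : P⁻¹ * x * P ∈ H := htop ▸ Subgroup.mem_top _
  refine ⟨γ, ?_⟩
  simp at hγ
  exact hγ

/-- If the image is a `2`-group there is a stable line on a subgroup of index at most two. -/
theorem exists_stableVec_of_not_three {K : Type} [Field K] [IsAlgClosed K] [Algebra (ZMod 3) K]
    (hdet : ∃ g, (matOf R g).det = -1) (h3 : ¬ 3 ∣ Nat.card R.range) :
    ∃ (G : Subgroup Γ) (v : Fin 2 → K), G.index ∣ 2 ∧ StableVec (extRep K (matOf R)) G v := by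
  classical
  have : Fact (Nat.Prime 2) := ⟨Nat.prime_two⟩
  have hcard : Nat.card G₃ = 48 := by
    rw [Matrix.card_GL_field]; simp [Fin.prod_univ_two, ZMod.card]
  have h16 : Nat.card R.range ∣ 2 ^ 4 := by
    have h48 := Subgroup.card_subgroup_dvd_card R.range
    rw [hcard] at h48
    exact (Nat.Coprime.dvd_of_dvd_mul_left
      ((Nat.prime_three.coprime_iff_not_dvd.mpr h3).symm) (by simpa using h48))
  obtain ⟨k, -, hk⟩ := (Nat.dvd_prime_pow Nat.prime_two).mp h16
  have hp : IsPGroup 2 R.range := IsPGroup.of_card hk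
  set H' := R.range.map (QuotientGroup.mk' (Subgroup.center G₃)) with hH'
  have hp' : IsPGroup 2 H' := hp.map _
  have hcen : ∀ x : G₃, x ∈ Subgroup.center G₃ → (x : M₃) = 1 ∨ (x : M₃) = -1 := fun x hx => by
    rw [Subgroup.mem_center_iff] at hx
    have h1 := congrArg Units.val (hx (upperUni 1))
    have h2 := congrArg Units.val (hx (lowerUni 1))
    rw [Units.val_mul, Units.val_mul] at h1 h2
    have hne : (x : M₃).det ≠ 0 := (Matrix.GeneralLinearGroup.det x).ne_zero
    rw [det_fin_two] at hne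
    have := center_eq_or _ _ _ _ (by rw [← eta_fin_two (x : M₃)]; exact h1.symm)
      (by rw [← eta_fin_two (x : M₃)]; exact h2.symm) hne
    rwa [← eta_fin_two (x : M₃)] at this
  obtain ⟨g₀, hg₀⟩ := hdet
  have : Nontrivial H' := by
    refine ⟨⟨⟨_, R g₀, ⟨g₀, rfl⟩, rfl⟩, 1, fun h => ?_⟩⟩
    have h' : R g₀ ∈ Subgroup.center G₃ :=
      (QuotientGroup.eq_one_iff _).mp (congrArg Subtype.val h)
    have hd : ((R g₀ : G₃) : M₃).det = -1 := hg₀
    rcases hcen _ h' with e | e <;> rw [e] at hd <;>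
      simp [det_neg] at hd <;> exact absurd hd (by decide)
  have := hp'.center_nontrivial
  obtain ⟨⟨⟨y, hy⟩, hac⟩, hane⟩ := exists_ne (1 : Subgroup.center H')
  obtain ⟨x, ⟨γa, rfl⟩, rfl⟩ := hy
  have ha : R γa ∉ Subgroup.center G₃ := fun h =>
    hane (Subtype.ext (Subtype.ext ((QuotientGroup.eq_one_iff _).mpr h)))
  set A : M₃ := matOf R γa with hA
  have hpm : ∀ g, matOf R g * A = A * matOf R g ∨ matOf R g * A = -(A * matOf R g) := fun g => by
    have h := congrArg Subtype.val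
      (Subgroup.mem_center_iff.mp hac ⟨_, R g, ⟨g, rfl⟩, rfl⟩)
    change ((R g : G₃) : G₃ ⧸ Subgroup.center G₃) * (R γa : G₃ ⧸ Subgroup.center G₃) =
      (R γa : G₃ ⧸ Subgroup.center G₃) * (R g : G₃ ⧸ Subgroup.center G₃) at h
    rw [← QuotientGroup.mk_mul, ← QuotientGroup.mk_mul, QuotientGroup.eq] at h
    set c := (R g * R γa)⁻¹ * (R γa * R g) with hc
    have e : (R γa * R g : G₃) = R g * R γa * c := by rw [hc]; group
    have e' : A * matOf R g = matOf R g * A * (c : M₃) := by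
      have := congrArg Units.val e
      rw [Units.val_mul, Units.val_mul, Units.val_mul] at this
      exact this
    rcases hcen c h with hc1 | hc1 <;> rw [hc1] at e'
    · left; rw [mul_one] at e'; exact e'.symm
    · right; rw [mul_neg, mul_one] at e'; rw [e', neg_neg]
  let G : Subgroup Γ := (Subgroup.centralizer {R γa}).comap R
  have hmemG : ∀ g, g ∈ G ↔ matOf R g * A = A * matOf R g := fun g => by
    simp only [G, Subgroup.mem_comap, Subgroup.mem_centralizer_singleton_iff]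
    exact Units.ext_iff
  have hindex : G.index ∣ 2 := by
    by_cases htop : G = ⊤
    · rw [htop, Subgroup.index_top]; exact one_dvd 2
    obtain ⟨t, -, ht⟩ := SetLike.not_le_iff_exists.mp (fun h => htop (top_le_iff.mp h))
    have htA : matOf R t * A = -(A * matOf R t) :=
      (hpm t).resolve_left fun h => ht ((hmemG t).mpr h)
    refine dvd_of_eq (Subgroup.index_eq_two_iff.mpr ⟨t, fun b => ?_⟩)
    rcases hpm b with h | h
    · exact Or.inr ⟨(hmemG b).mpr h, fun hbt => ht (by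
        simpa using mul_mem (inv_mem ((hmemG b).mpr h)) hbt)⟩
    · refine Or.inl ⟨(hmemG _).mpr ?_, fun hb => ?_⟩
      · rw [map_mul, mul_assoc, htA, mul_neg, ← mul_assoc, h, neg_mul, neg_neg, mul_assoc]
      · have hAb := (hmemG b).mp hb
        rw [h] at hAb
        have h2 : (2 : ZMod 3) • (A * matOf R b) = 0 := by
          rw [two_smul]; nth_rewrite 1 [← hAb]; exact neg_add_cancel _
        have h0 : A * matOf R b = 0 := (smul_eq_zero.mp h2).resolve_left (by decide)
        have hu : IsUnit (A * matOf R b) := (R γa).isUnit.mul (R b).isUnit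
        rw [h0] at hu
        exact not_isUnit_zero hu
  set AK : Matrix (Fin 2) (Fin 2) K := A.map (algebraMap (ZMod 3) K) with hAK
  obtain ⟨μ, hμ⟩ := Module.End.exists_eigenvalue (Matrix.toLin' AK)
  obtain ⟨v, hv⟩ := hμ.exists_hasEigenvector
  have hAv : AK *ᵥ v = μ • v := by simpa using hv.apply_eq_smul
  refine ⟨G, v, hindex, hv.2, fun g hg => ?_⟩
  set B : Matrix (Fin 2) (Fin 2) K := extRep K (matOf R) g with hB
  have hBA : B * AK = AK * B := by
    have h := congrArg (algebraMap (ZMod 3) K).mapMatrix ((hmemG g).mp hg)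
    rw [map_mul, map_mul] at h
    exact h
  have hABv : AK *ᵥ (B *ᵥ v) = μ • (B *ᵥ v) := by
    rw [mulVec_mulVec, ← hBA, ← mulVec_mulVec, hAv, mulVec_smul]
  generalize B *ᵥ v = z at hABv
  refine exists_eq_smul_of_det_eq_zero hv.2 ?_
  by_contra hd
  -- otherwise `A` would be scalar
  refine ha (Subgroup.mem_center_iff.mpr fun y => Units.ext ?_)
  have hS : IsUnit (!![v 0, z 0; v 1, z 1] : Matrix (Fin 2) (Fin 2) K) :=
    (Matrix.isUnit_iff_isUnit_det _).mpr (isUnit_iff_ne_zero.mpr (by rwa [det_fin_two_of]))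
  have hscal : AK = μ • 1 := by
    refine hS.mul_right_cancel ?_
    rw [smul_mul_assoc, one_mul]
    have a0 := congrFun hAv 0
    have a1 := congrFun hAv 1
    have b0 := congrFun hABv 0
    have b1 := congrFun hABv 1
    simp [mulVec, dotProduct, Fin.sum_univ_two] at a0 a1 b0 b1
    ext i j
    fin_cases i <;> fin_cases j <;>
      simp [Matrix.mul_apply, Fin.sum_univ_two, Matrix.smul_apply, a0, a1, b0, b1]
  refine Matrix.map_injective (algebraMap (ZMod 3) K).injective ?_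
  simp only [Units.val_mul, Matrix.map_mul]
  change _ * AK = AK * _
  rw [hscal, smul_mul_assoc, mul_smul_comm, one_mul, mul_one]

/-- Surjectivity criterion. -/
theorem surjective_of_noStableLine {K : Type} [Field K] [IsAlgClosed K] [Algebra (ZMod 3) K]
    (hdet : ∃ g, (matOf R g).det = -1) (hirr : NoStableLine (extRep K (matOf R)))
    (htwo : ∀ (G : Subgroup Γ), G.index = 2 → ∀ v, ¬ StableVec (extRep K (matOf R)) G v) :
    Function.Surjective R := by
  by_cases h3 : 3 ∣ Nat.card R.range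
  · refine surjective_of_order_three hdet (fun w hw => ?_) h3
    refine hirr (algebraMap (ZMod 3) K ∘ w) ⟨fun h => hw.1 (funext fun i =>
      (algebraMap (ZMod 3) K).injective (by simpa using congrFun h i)), fun g hg => ?_⟩
    obtain ⟨c, hc⟩ := hw.2 g hg
    refine ⟨algebraMap (ZMod 3) K c, funext fun i => ?_⟩
    change ((matOf R g).map (algebraMap (ZMod 3) K) *ᵥ (algebraMap (ZMod 3) K ∘ w)) i = _
    rw [← RingHom.map_mulVec, hc]
    simp
  · obtain ⟨G, v, hG, hv⟩ := exists_stableVec_of_not_three (K := K) hdet h3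
    rcases (Nat.dvd_prime Nat.prime_two).mp hG with h | h
    · rw [Subgroup.index_eq_one] at h
      exact absurd (h ▸ hv) (hirr v)
    · exact absurd hv (htwo G h v)

end FLTAgent.WeightOneWiring
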