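import Fermat.Agent.WeightOneWiring.Places
import Fermat.Agent.WeightOneWiring.Surjective
import Fermat.Agent.LanglandsTunnell.Interfaces
import Fermat.Agent.GaloisImage.AtP
import Fermat.Agent.GaloisImage.IndexTwo
import Fermat.Agent.ECTorsion.Unramified
import Fermat.Agent.TWPrimes.Frame

/-!
# The datum of a curve

The datum of a semistable curve with irreducible `3`-torsion.
Main result: `exists_datum`.
-/

set_option autoImplicit false

noncomputable section

open Matrix WeierstrassCurve WeierstrassCurve.Affine WeierstrassCurve.Affine.Point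
open scoped WeierstrassCurve.Affine Pointwise

namespace FLTAgent.WeightOneWiring

open FLTAgent.LanglandsTunnell FLTAgent.GaloisImage

local notation "M₃" => Matrix (Fin 2) (Fin 2) (ZMod 3)
local notation "G₃" => GL (Fin 2) (ZMod 3)

theorem entries_no_eigen : ∀ a b c d : ZMod 3, a * d - b * c ≠ 0 →
    (∀ x y k : ZMod 3, (x ≠ 0 ∨ y ≠ 0) → ¬ (a * x + b * y = k * x ∧ c * x + d * y = k * y)) →
    (!![a, b; c, d] : M₃) * !![a, b; c, d] ≠ 1 →
    (!![a, b; c, d] : M₃) * !![a, b; c, d] ≠ -1 →
    (!![a, b; c, d] : M₃) * !![a, b; c, d] * (!![a, b; c, d] * !![a, b; c, d]) = -1 := by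
  decide +kernel

theorem entries_inQ8_unipotent : ∀ a b c d : ZMod 3, a * d - b * c = 1 →
    (a + d = 0 ∨ (!![a, b; c, d] : M₃) = 1 ∨ (!![a, b; c, d] : M₃) = -1) →
    ((!![a, b; c, d] : M₃) - 1) * ((!![a, b; c, d] : M₃) - 1) = 0 → (!![a, b; c, d] : M₃) = 1 := by
  decide +kernel

theorem det_inertia_transport {W : WeierstrassCurve ℤ}
    (_b : Module.Basis (Fin 2) (ZMod 3) (Tors W 3)) {A B : ValuationSubring QB} {τ : GQ}
    (hτ : τ • A = B) {σ : GQ} (hσ : σ ∈ B.inertiaSubgroupIn ℚ) :
    τ⁻¹ * σ * τ ∈ A.inertiaSubgroupIn ℚ := by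
  have := FLTAgent.Density.mem_inertiaSubgroupIn_smul hσ τ⁻¹
  rw [← hτ, inv_smul_smul, inv_inv] at this
  exact this

variable {W : WeierstrassCurve ℤ} (hΔ : W.Δ ≠ 0) (hW : W.IsSemistableModel)
  (b : Module.Basis (Fin 2) (ZMod 3) (Tors W 3))

theorem modThree_three_ne_two : (3 : ℕ) ≠ 2 := by norm_num

include hΔ hW

/-- Inertia at every place over `3` contains an element of determinant `-1`. -/
theorem exists_inertia_det_neg_one {A : ValuationSubring QB} (hA : A.LiesOverPrime 3) :
    ∃ σ ∈ A.inertiaSubgroupIn ℚ, (matRep W 3 b σ).det = -1 := by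
  by_contra hc
  push Not at hc
  have hall : ∀ B : ValuationSubring QB, B.LiesOverPrime 3 → ∀ σ ∈ B.inertiaSubgroupIn ℚ,
      (matRep W 3 b σ).det = 1 := by
    intro B hB σ hσ
    obtain ⟨τ, hτ⟩ := FLTAgent.Density.exists_smul_eq_of_liesOverPrime Nat.prime_three hA hB
    have h := hc _ (det_inertia_transport b hτ hσ)
    have hne := ((isUnit_iff_isUnit_det _).mp (isUnit_image (matRep W 3 b) σ)).ne_zero
    have e : (matRep W 3 b (τ⁻¹ * σ * τ)).det = (matRep W 3 b σ).det := by
      rw [map_mul, map_mul, det_mul, det_mul, mul_right_comm, ← det_mul, ← map_mul,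
        inv_mul_cancel, map_one, det_one, one_mul]
    rw [e] at h
    exact (eq_top_of_unipotents.zmod_three _ hne).resolve_right h
  let H : Subgroup GQ := (detMonoidHom.comp (matRep W 3 b)).ker
  have hH : H = ⊤ := by
    refine eq_top_of_inertia b hΔ (fun g hg => ?_) fun q hq B hB σ hσ => ?_
    · simp [H, MonoidHom.mem_ker, hg]
    · show (matRep W 3 b σ).det = 1
      by_cases hq3 : q = 3
      · subst hq3; exact hall B hB σ hσ
      · have hu := unipotent_of_ne b modThree_three_ne_two hW hq hB hq3 hσ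
        revert hu
        rw [eta_fin_two (matRep W 3 b σ)]
        generalize matRep W 3 b σ 0 0 = x
        generalize matRep W 3 b σ 0 1 = y
        generalize matRep W 3 b σ 1 0 = z
        generalize matRep W 3 b σ 1 1 = t
        revert x y z t
        decide +kernel
  have hmem : complexConjugation ∈ H := hH ▸ Subgroup.mem_top _
  have h1 : (matRep W 3 b complexConjugation).det = 1 := hmem
  rw [det_matRep_involution b hΔ complexConjugation_mul_self complexConjugation_ne_one] at h1
  exact absurd h1 (by decide)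

theorem localData :
    LocalData (matRep W 3 b)
      (fun A : {A : ValuationSubring QB // ∃ q : ℕ, q.Prime ∧ A.LiesOverPrime q} =>
        A.1.inertiaSubgroupIn ℚ) {A | A.1.LiesOverPrime 3} where
  gen H hH hI := eq_top_of_inertia b hΔ hH fun q hq A hA => hI ⟨A, q, hq, hA⟩
  unip := by
    rintro ⟨A, q, hq, hA⟩ hbad σ hσ
    exact unipotent_of_ne b modThree_three_ne_two hW hq hA (fun h => hbad (h ▸ hA)) hσ
  atP A hA := localAtP_matRep modThree_three_ne_two hΔ hW hA b
  det A hA a ha := by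
    rcases eq_top_of_unipotents.zmod_three a ha with rfl | rfl
    · exact ⟨1, one_mem _, by rw [map_one, det_one]⟩
    · exact exists_inertia_det_neg_one hΔ hW b hA
  conj A hA B hB := by
    obtain ⟨τ, hτ⟩ := FLTAgent.Density.exists_smul_eq_of_liesOverPrime Nat.prime_three hA hB
    exact ⟨τ, fun σ hσ => det_inertia_transport b hτ hσ⟩

theorem supersingularShape {A : ValuationSubring QB} (hA : A.LiesOverPrime 3)
    (htop : torE1 (p := 3) W A = ⊤) :
    ∃ σ ∈ A.inertiaSubgroupIn ℚ,
      (∀ (u : Fin 2 → ZMod 3), u ≠ 0 → ∀ k : ZMod 3, matRep W 3 b σ *ᵥ u ≠ k • u) ∧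
      matRep W 3 b σ ^ 4 = -1 ∧
      ∀ τ ∈ A.inertiaSubgroupIn ℚ, ∃ j : ℕ, matRep W 3 b τ = matRep W 3 b σ ^ j := by
  have hss := hW 3 Nat.prime_three
  obtain ⟨σ, hσ, hgen, hsq⟩ :=
    exists_generator_of_top modThree_three_ne_two hΔ hss hA htop b
  have hnoline : ∀ u : Fin 2 → ZMod 3, u ≠ 0 → ∀ k : ZMod 3, matRep W 3 b σ *ᵥ u ≠ k • u := by
    intro u hu k hk
    obtain ⟨u', hu'⟩ : ∃ u' : Fin 2 → ZMod 3, ∀ c : ZMod 3, u' ≠ c • u := by
      by_cases h0 : u 0 = 0
      · refine ⟨![1, 0], fun c hc => one_ne_zero (α := ZMod 3) ?_⟩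
        simpa [h0] using congrFun hc 0
      · refine ⟨![0, 1], fun c hc => one_ne_zero (α := ZMod 3) ?_⟩
        have hc0 : c = 0 := by simpa [h0] using (congrFun hc 0).symm
        simpa [hc0] using congrFun hc 1
    set z := b.equivFun.symm u with hz
    set z' := b.equivFun.symm u' with hz'
    have hzu : ⇑(b.repr z) = u := b.equivFun.apply_symm_apply _
    have hzu' : ⇑(b.repr z') = u' := b.equivFun.apply_symm_apply _
    have hpow : ∀ j : ℕ, matRep W 3 b σ ^ j *ᵥ u = k ^ j • u := by
      intro j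
      induction j with
      | zero => simp
      | succ j ih => rw [pow_succ', ← mulVec_mulVec, ih, mulVec_smul, hk, smul_smul, pow_succ]
    obtain ⟨τ, hτ, h⟩ := exists_smul_eq_or_neg_of_top modThree_three_ne_two hΔ hss hA htop
      (z := z) (z' := z') (fun h => hu (by rw [← hzu, h]; simp))
      (fun h => hu' 0 (by rw [← hzu', h]; simp))
    have e := matRep_mulVec b τ z
    rw [hzu] at e
    obtain ⟨j, hj⟩ := hgen τ hτ
    have hline : ∃ c : ZMod 3, matRep W 3 b τ *ᵥ u = c • u := by
      rcases hj with hj | hj <;> rw [hj]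
      · exact ⟨_, hpow j⟩
      · exact ⟨-k ^ j, by rw [neg_mulVec, hpow, neg_smul]⟩
    obtain ⟨c, hc⟩ := hline
    rw [hc] at e
    rcases h with h | h <;> rw [h] at e
    · exact hu' c (by rw [← hzu', ← e])
    · exact hu' (-c) (by rw [← hzu', neg_smul, e, map_neg, Finsupp.coe_neg, neg_neg])
  have hfour : matRep W 3 b σ ^ 4 = -1 := by
    have hd := ((isUnit_iff_isUnit_det _).mp (isUnit_image (matRep W 3 b) σ)).ne_zero
    have h1 : matRep W 3 b σ * matRep W 3 b σ ≠ 1 := by simpa using hsq 1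
    have h2 : matRep W 3 b σ * matRep W 3 b σ ≠ -1 := by simpa using hsq (-1)
    generalize matRep W 3 b σ = M at *
    rw [show M ^ 4 = M * M * (M * M) by simp [pow_succ, mul_assoc]]
    rw [det_fin_two] at hd
    rw [eta_fin_two M] at h1 h2 ⊢
    refine entries_no_eigen _ _ _ _ hd (fun x y k hxy hk => ?_) h1 h2
    refine hnoline ![x, y] (fun h => ?_) k ?_
    · rcases hxy with h' | h'
      · exact h' (by simpa using congrFun h 0)
      · exact h' (by simpa using congrFun h 1)
    · funext i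
      fin_cases i <;> simp [mulVec, dotProduct, Fin.sum_univ_two] <;> [exact hk.1; exact hk.2]
  refine ⟨σ, hσ, hnoline, hfour, fun τ hτ => ?_⟩
  obtain ⟨j, hj | hj⟩ := hgen τ hτ
  · exact ⟨j, hj⟩
  · exact ⟨4 + j, by rw [pow_add, hfour, neg_one_mul, hj]⟩

omit hΔ hW in
/-- The representation on the `3`-torsion. -/
def curveRho : GQ →* G₃ := (matRep W 3 b).toHomUnits

omit hΔ hW in
theorem val_curveRho (σ : GQ) : (curveRho b σ).1 = matRep W 3 b σ := rfl

theorem curveRho_surjective (h3 : W.ModRepIsIrreducible 3) :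
    Function.Surjective (curveRho b) := by
  have hmat : matOf (curveRho b) = matRep W 3 b := rfl
  refine surjective_of_noStableLine (K := AlgebraicClosure (ZMod 3))
    ⟨complexConjugation, ?_⟩ ?_ fun G hG v => ?_
  · rw [hmat]
    exact det_matRep_involution b hΔ complexConjugation_mul_self complexConjugation_ne_one
  · rw [hmat]
    exact noStableLine_extRep_matRep b hΔ modThree_three_ne_two h3 _
  · rw [hmat]
    exact not_stableVec_of_index_two modThree_three_ne_two (localData hΔ hW b)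
      (noStableLine_matRep b h3)
      (noStableLine_extRep_matRep b hΔ modThree_three_ne_two h3 _) hG

theorem card_map_inertia_le_two {A : ValuationSubring QB} (hA : A.LiesOverPrime 3)
    {x : Tors W 3} (hx : ∀ σ ∈ A.inertiaSubgroupIn ℚ, σ • x = x) (hx0 : x ≠ 0) :
    Nat.card ((A.inertiaSubgroupIn ℚ).map (curveRho b)) ≤ 2 := by
  set u : Fin 2 → ZMod 3 := ⇑(b.repr x) with hu
  have hu0 : u ≠ 0 := fun h => hx0 (b.repr.injective (DFunLike.coe_injective (by
    rw [_root_.map_zero]; exact h)))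
  have hfix : ∀ σ ∈ A.inertiaSubgroupIn ℚ, matRep W 3 b σ *ᵥ u = u := fun σ hσ => by
    rw [hu, matRep_mulVec, hx σ hσ]
  by_cases htop : torE1 (p := 3) W A = ⊤
  · obtain ⟨σ, hσ, hno, -, -⟩ := supersingularShape hΔ hW b hA htop
    exact absurd (by rw [hfix σ hσ, one_smul]) (hno u hu0 1)
  obtain ⟨w, hw0, hline⟩ :=
    exists_line_of_ne_top b modThree_three_ne_two hΔ hW Nat.prime_three hA htop
  have hdep : u 0 * w 1 - w 0 * u 1 ≠ 0 := by
    intro h0
    obtain ⟨c, hc⟩ := exists_eq_smul_of_det_eq_zero hu0 h0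
    obtain ⟨σ, hσ, hd⟩ := exists_inertia_det_neg_one hΔ hW b hA
    have h := (hline σ hσ).1
    rw [hd] at h
    have : matRep W 3 b σ *ᵥ w = w := by rw [hc, mulVec_smul, hfix σ hσ]
    rw [this] at h
    obtain ⟨i, hi⟩ := Function.ne_iff.mp hw0
    have := congrFun h i
    simp only [Pi.smul_apply, smul_eq_mul, neg_mul, one_mul] at this
    have h2 : (2 : ZMod 3) * w i = 0 := by linear_combination this
    exact hi ((mul_eq_zero.mp h2).resolve_left (by decide))
  have hS : IsUnit (!![u 0, w 0; u 1, w 1] : M₃) :=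
    (Matrix.isUnit_iff_isUnit_det _).mpr (isUnit_iff_ne_zero.mpr (by rwa [det_fin_two_of]))
  let f : (A.inertiaSubgroupIn ℚ).map (curveRho b) → (ZMod 3)ˣ :=
    fun g => Matrix.GeneralLinearGroup.det g.1
  have hinj : Function.Injective f := by
    rintro ⟨_, σ, hσ, rfl⟩ ⟨_, τ, hτ, rfl⟩ h
    have hd : (matRep W 3 b σ).det = (matRep W 3 b τ).det := congrArg Units.val h
    refine Subtype.ext (Units.ext (hS.mul_right_cancel ?_))
    have a0 := hfix σ hσ
    have b0 := hfix τ hτ
    have a1 := (hline σ hσ).1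
    have b1 := (hline τ hτ).1
    rw [hd] at a1
    change matRep W 3 b σ * _ = matRep W 3 b τ * _
    have e00 := congrFun (a0.trans b0.symm) 0
    have e01 := congrFun (a0.trans b0.symm) 1
    have e10 := congrFun (a1.trans b1.symm) 0
    have e11 := congrFun (a1.trans b1.symm) 1
    simp [mulVec, dotProduct, Fin.sum_univ_two] at e00 e01 e10 e11
    ext i j
    fin_cases i <;> fin_cases j <;> simp [Matrix.mul_apply, Fin.sum_univ_two] <;>
      first | exact e00 | exact e01 | exact e10 | exact e11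
  refine (Nat.card_le_card_of_injective f hinj).trans ?_
  rw [Nat.card_eq_fintype_card]
  decide +kernel

omit hΔ hW in
theorem card_map_inertia_transport {A B : ValuationSubring QB} {τ : GQ} (hτ : τ • A = B) :
    Nat.card ((B.inertiaSubgroupIn ℚ).map (curveRho b)) ≤
      Nat.card ((A.inertiaSubgroupIn ℚ).map (curveRho b)) := by
  refine le_trans (Subgroup.card_le_of_le (K := ((A.inertiaSubgroupIn ℚ).map (curveRho b)).map
    (MulAut.conj (curveRho b τ)).toMonoidHom) ?_)
    (le_of_eq (Subgroup.card_map_of_injective (MulAut.conj (curveRho b τ)).injective))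
  rintro _ ⟨σ, hσ, rfl⟩
  refine ⟨curveRho b (τ⁻¹ * σ * τ), ⟨_, det_inertia_transport b hτ hσ, rfl⟩, ?_⟩
  simp [MulAut.conj_apply, map_mul, map_inv, mul_assoc]

theorem isCyclic_and_card {A : ValuationSubring QB} (hA : A.LiesOverPrime 3)
    (htop : torE1 (p := 3) W A = ⊤) :
    IsCyclic ((A.inertiaSubgroupIn ℚ).map (curveRho b)) ∧
      Nat.card ((A.inertiaSubgroupIn ℚ).map (curveRho b)) = 8 := by
  have : Fact (Nat.Prime 2) := ⟨Nat.prime_two⟩
  obtain ⟨σ, hσ, -, hfour, hpow⟩ := supersingularShape hΔ hW b hA htop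
  set g := curveRho b σ with hg
  have e : (A.inertiaSubgroupIn ℚ).map (curveRho b) = Subgroup.zpowers g := by
    refine le_antisymm ?_ (Subgroup.zpowers_le.mpr ⟨σ, hσ, rfl⟩)
    rintro _ ⟨τ, hτ, rfl⟩
    obtain ⟨j, hj⟩ := hpow τ hτ
    refine Subgroup.mem_zpowers_iff.mpr ⟨j, Units.ext ?_⟩
    rw [zpow_natCast, Units.val_pow_eq_pow_val]
    exact hj.symm
  have hord : orderOf g = 8 := by
    have h4 : g.1 ^ 4 = -1 := hfour
    refine orderOf_eq_prime_pow (p := 2) (n := 2) (fun h => ?_) (Units.ext ?_)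
    · have := congrArg Units.val h
      rw [Units.val_pow_eq_pow_val, show 2 ^ 2 = 4 from rfl, h4] at this
      exact absurd this (by decide +kernel)
    · rw [Units.val_pow_eq_pow_val, show 2 ^ (2 + 1) = 4 + 4 from rfl, pow_add, h4, neg_one_mul,
        neg_neg]
      rfl
  rw [e]
  exact ⟨Subgroup.isCyclic_zpowers g, by rw [Nat.card_zpowers, hord]⟩

omit hΔ hW in
/-- Every curve gives a datum. -/
theorem exists_datum (W : WeierstrassCurve ℤ) (hΔ : W.Δ ≠ 0) (hW : W.IsSemistableModel)
    (h3 : W.ModRepIsIrreducible 3) : ∃ D : Datum, D.BelongsTo W := by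
  obtain ⟨b⟩ := exists_basis (p := 3) hΔ
  have hfac : GaloisFactorsThroughFiniteLevel (curveRho b) := by
    have := isElliptic_qbar hΔ
    have := FLTAgent.ECTorsion.finite_torsionBy (W.map (Int.castRingHom ℚ)).toAffine
      (K := AlgebraicClosure ℚ) (Nat.cast_ne_zero.mpr Nat.prime_three.ne_zero)
    obtain ⟨L, hL, hfix⟩ := FLTAgent.ECTorsion.exists_fixingSubgroup_smul_eq (S := ℚ)
      (K := AlgebraicClosure ℚ) (W.map (Int.castRingHom ℚ)).toAffine (n := 3)
    refine ⟨L, hL, fun σ hσ => Units.ext (ext_of_mulVec_single fun j => ?_)⟩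
    have e : ⇑(b.repr (b j)) = Pi.single j (1 : ZMod 3) := by
      rw [b.repr_self]; exact Finsupp.single_eq_pi_single j 1
    rw [val_curveRho, ← e, matRep_mulVec,
      hfix σ ((IntermediateField.mem_fixingSubgroup_iff _ _).mpr hσ), Units.val_one, one_mulVec]
  let D : Datum :=
    { ρ := curveRho b
      factors := hfac
      surjective := curveRho_surjective hΔ hW b h3
      det := fun σ => Units.ext (by
        rw [Matrix.GeneralLinearGroup.val_det_apply, val_curveRho,
          det_eq_of_apply_eq_pow b hΔ (m := (TWPrimes.cyclo 3 σ : ZMod 3).val)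
            (fun ζ hζ => TWPrimes.cyclo_spec 3 σ hζ), ZMod.natCast_zmod_val]
        rfl)
      odd_inertia := fun q hq _ hq3 A hA => Or.inl fun σ hσ => by
        rw [val_curveRho]; exact unipotent_of_ne b modThree_three_ne_two hW hq hA hq3 hσ
      three := fun A hA => by
        by_cases htop : torE1 (p := 3) W A = ⊤
        · exact Or.inr (isCyclic_and_card hΔ hW b hA htop)
        · exact Or.inl fun σ hσ => by
            rw [val_curveRho]
            exact det_sub_one_of_ne_top b modThree_three_ne_two hW Nat.prime_three hA htop hσ }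
  refine ⟨D, fun ℓ hℓ hgood hℓ3 A hA => ⟨fun σ hσ => ?_, fun σ hσ => ?_⟩, ?_, ?_⟩
  · refine Units.ext (ext_of_mulVec_single fun j => ?_)
    have e : ⇑(b.repr (b j)) = Pi.single j (1 : ZMod 3) := by
      rw [b.repr_self]; exact Finsupp.single_eq_pi_single j 1
    show matRep W 3 b σ *ᵥ _ = _
    rw [← e, matRep_mulVec, FLTAgent.ECTorsion.smul_eq_of_mem_inertia hℓ hgood hℓ3 hA hσ,
      Units.val_one, one_mulVec]
  · show (matRep W 3 b σ).trace = _
    rw [← FLTAgent.ECTorsion.galoisTrace_eq_apOfModel hℓ hgood hℓ3 hA hσ, galoisTrace_def,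
      LinearMap.trace_eq_matrix_trace (ZMod 3) b]
    rfl
  · rintro ⟨A, hA, x, hx, hx0⟩ B hB
    obtain ⟨τ, hτ⟩ := FLTAgent.Density.exists_smul_eq_of_liesOverPrime Nat.prime_three hA hB
    exact (card_map_inertia_transport b hτ).trans (card_map_inertia_le_two hΔ hW b hA hx hx0)
  · rintro q ⟨hq, hq3, A, hA, σ, hσ, hσM, hne⟩
    rw [galM_eq] at hσM
    obtain ⟨hd, ht⟩ : InQ8 (D.ρ σ) := hσM
    have hu : ((D.ρ σ).1 - 1) * ((D.ρ σ).1 - 1) = 0 := by
      show (matRep W 3 b σ - 1) * (matRep W 3 b σ - 1) = 0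
      exact unipotent_of_ne b modThree_three_ne_two hW hq hA hq3 hσ
    refine hne (Units.ext ?_)
    rw [eta_fin_two (D.ρ σ).1] at hd ht hu ⊢
    rw [det_fin_two_of] at hd
    rw [trace_fin_two_of] at ht
    exact entries_inQ8_unipotent _ _ _ _ hd ht hu

end FLTAgent.WeightOneWiring
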