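import Fermat.Agent.WeightOneWiring.Lift
import Fermat.Agent.WeightOneWiring.Surjective
import Fermat.Agent.LanglandsTunnell.Datum

/-!
# Identification of the Deligne–Serre representation

A complex representation of `GL₂(𝔽₃)` with the character of the lift on the quaternion subgroup
is, up to complex conjugation, the lift.
Main result: `exists_embedding_of_quaternion_trace`.
-/

set_option autoImplicit false

noncomputable section

open Matrix
open scoped MatrixGroups

namespace FLTAgent.WeightOneWiring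

open FLTAgent.LanglandsTunnell (InQ8 trLift)

local notation "M₃" => Matrix (Fin 2) (Fin 2) (ZMod 3)
local notation "G₃" => GL (Fin 2) (ZMod 3)
local notation "M₂" => Matrix (Fin 2) (Fin 2) ℂ

/-- The trace of the lift, on entries. -/
def liftTr (a b c d : ZMod 3) : ℤ√(-2) := (liftQuad a b c d).e00 + (liftQuad a b c d).e11

/-- The trace of the lift. -/
def liftTrace (g : G₃) : ℤ√(-2) := liftTr (g.val 0 0) (g.val 0 1) (g.val 1 0) (g.val 1 1)

theorem trace_psiLift (g : G₃) :
    (psiLift g : Matrix (Fin 2) (Fin 2) (ℤ√(-2))).trace = liftTrace g := by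
  show (liftMat g.val).trace = _
  simp [liftMat, Quad.toMatrix, liftTrace, liftTr, Matrix.trace_fin_two]

theorem entries_one : ∀ a b c d : ZMod 3, a * d - b * c = 1 →
    liftTr a b c d = if (!![a, b; c, d] : M₃) = 1 then 2 else if (!![a, b; c, d] : M₃) = -1 then -2
      else if a + d = 0 then 0 else if a + d = 1 then 1 else -1 := by
  decide +kernel

theorem entries_neg_one : ∀ a b c d : ZMod 3, a * d - b * c = -1 →
    liftTr a b c d = if a + d = 0 then 0 else if a + d = 1 then ⟨0, -1⟩ else ⟨0, 1⟩ := by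
  decide +kernel

theorem entries_sl : ∀ a b c d : ZMod 3, a * d - b * c = 1 → a + d ≠ 0 →
    (!![a, b; c, d] : M₃) ≠ 1 → (!![a, b; c, d] : M₃) ≠ -1 →
    ((!![a, b; c, d] : M₃) * !![a, b; c, d] * !![a, b; c, d] = 1 ∧ a + d ≠ 1) ∨
      ((-!![a, b; c, d] : M₃) * -!![a, b; c, d] * -!![a, b; c, d] = 1 ∧ a + d = 1) := by
  decide +kernel

theorem entries_moves : ∀ a b c d : ZMod 3, a * d - b * c ≠ 0 →
    (!![a, b; c, d] : M₃) ≠ 1 → (!![a, b; c, d] : M₃) ≠ -1 →
    ∃ e f g : ZMod 3, e * (-e) - f * g = 1 ∧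
      (!![a, b; c, d] : M₃) * !![e, f; g, -e] ≠ !![e, f; g, -e] * !![a, b; c, d] := by
  decide +kernel

theorem entries_involution : ∀ a b c d : ZMod 3, a * d - b * c = -1 → a + d = 0 →
    (!![a, b; c, d] : M₃) * !![a, b; c, d] = 1 ∧ (!![a, b; c, d] : M₃) ≠ 1 ∧
      (!![a, b; c, d] : M₃) ≠ -1 := by
  decide +kernel

theorem entries_conj : ∀ a b c d : ZMod 3, a * d - b * c = -1 → a + d ≠ 0 →
    ∃ e f g h : ZMod 3, e * h - f * g ≠ 0 ∧
      (a + d = 1 → (!![e, f; g, h] : M₃) * !![a, b; c, d] = !![1, 1; 1, 0] * !![e, f; g, h]) ∧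
      (a + d ≠ 1 → (!![1, 1; 1, 0] : M₃) * (!![e, f; g, h] * !![a, b; c, d]) = !![e, f; g, h]) := by
  decide +kernel

theorem entries_commutator : ∀ x : ZMod 3,
    (!![-1, 0; 0, 1] : M₃) * !![1, x; 0, 1] * !![-1, 0; 0, 1] * !![1, -x; 0, 1] = !![1, x; 0, 1] ∧
    (!![-1, 0; 0, 1] : M₃) * !![1, 0; x, 1] * !![-1, 0; 0, 1] * !![1, 0; -x, 1] =
      !![1, 0; x, 1] := by
  decide +kernel

/-- The order eight element `(1 1; 1 0)`. -/
def octElt : G₃ :=
  ⟨!![1, 1; 1, 0], !![0, 1; 1, -1], by decide +kernel, by decide +kernel⟩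

/-- The involution `(-1 0; 0 1)`. -/
def reflElt : G₃ :=
  ⟨!![-1, 0; 0, 1], !![-1, 0; 0, 1], by decide +kernel, by decide +kernel⟩

theorem sq_eq_trace_smul_sub_det (W : M₂) : W * W = W.trace • W - W.det • (1 : M₂) := by
  ext i j
  fin_cases i <;> fin_cases j <;>
    simp [Matrix.mul_apply, Fin.sum_univ_two, trace_fin_two, det_fin_two] <;> ring

/-- A matrix that is not scalar satisfies no linear relation with `1`. -/
theorem coeff_eq_zero_of_nonscalar {W : M₂} (hW : ∀ c : ℂ, W ≠ c • 1) {a b : ℂ}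
    (h : a • W + b • (1 : M₂) = 0) : a = 0 ∧ b = 0 := by
  by_cases ha : a = 0
  · subst ha
    rw [zero_smul, zero_add] at h
    refine ⟨rfl, ?_⟩
    have := congrFun (congrFun h 0) 0
    simpa using this
  · refine absurd ?_ (hW (-b / a))
    rw [add_eq_zero_iff_eq_neg, ← neg_smul] at h
    rw [← inv_smul_smul₀ ha W, h, smul_smul]
    congr 1
    field_simp

theorem smul_one_of_involution_trace {W : M₂} (h2 : W * W = 1) (ht : W.trace = -2) : W = -1 := by
  by_contra hne
  have hns : ∀ c : ℂ, W ≠ c • 1 := by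
    rintro c rfl
    refine hne ?_
    rw [trace_fin_two] at ht
    simp at ht
    have : c = -1 := by linear_combination ht / 2
    rw [this, neg_one_smul]
  have h := sq_eq_trace_smul_sub_det W
  rw [h2, ht] at h
  obtain ⟨h', -⟩ := coeff_eq_zero_of_nonscalar hns (a := (-2 : ℂ)) (b := -W.det - 1)
    (by linear_combination (norm := module) -h)
  norm_num at h'

variable (R : G₃ →* GL (Fin 2) ℂ) (hQ : ∀ q, InQ8 q → (R q : M₂).trace = trLift q)

include hQ

theorem rep_quat_eq_one {q : G₃} (hq : InQ8 q) (h : R q = 1) : q = 1 := by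
  have ht := hQ q hq
  rw [h] at ht
  by_contra hne
  have hne' : q.1 ≠ 1 := fun e => hne (Units.ext e)
  rw [trLift, if_pos hq.1, if_neg hne'] at ht
  rcases hq.2 with h0 | h0 | h0
  · by_cases hm : q.1 = -1
    · rw [if_pos hm] at ht; norm_num at ht
    · rw [if_neg hm, if_pos h0] at ht; norm_num at ht
  · exact hne' h0
  · rw [if_pos h0] at ht; norm_num at ht

theorem rep_nonscalar {g : G₃} (h1 : g.1 ≠ 1) (h2 : g.1 ≠ -1) (c : ℂ) :
    (R g : M₂) ≠ c • 1 := by
  intro hc
  obtain ⟨e, f, k, hd, hne⟩ := entries_moves (g.1 0 0) (g.1 0 1) (g.1 1 0) (g.1 1 1)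
    (det_val_ne_zero g) (by rwa [← eta_fin_two g.1]) (by rwa [← eta_fin_two g.1])
  let q : G₃ := ⟨!![e, f; k, -e], !![-e, -f; -k, e],
    by ext i j; fin_cases i <;> fin_cases j <;> simp [Matrix.mul_apply, Fin.sum_univ_two] <;>
      first | linear_combination hd | linear_combination -hd | ring1,
    by ext i j; fin_cases i <;> fin_cases j <;> simp [Matrix.mul_apply, Fin.sum_univ_two] <;>
      first | linear_combination hd | linear_combination -hd | ring1⟩
  have hq : InQ8 q := ⟨by show (!![e, f; k, -e] : M₃).det = 1; rw [det_fin_two_of]; exact hd,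
    Or.inl (by show (!![e, f; k, -e] : M₃).trace = 0; rw [trace_fin_two_of]; ring)⟩
  have hcomm : R (g * q) = R (q * g) := by
    refine Units.ext ?_
    rw [map_mul, map_mul, Units.val_mul, Units.val_mul, hc, smul_mul_assoc, mul_smul_comm, one_mul,
      mul_one]
  set u := g * q * g⁻¹ with hu
  have huq : InQ8 (u * q⁻¹) := inQ8_mul (inQ8_conj g hq) (inQ8_inv hq)
  have hone : R (u * q⁻¹) = 1 := by
    rw [hu, map_mul, map_mul, hcomm, ← map_mul, ← map_mul,
      show q * g * g⁻¹ * q⁻¹ = 1 by group, map_one]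
  have := congrArg Units.val (mul_inv_eq_one.mp (rep_quat_eq_one R hQ huq hone))
  refine hne ?_
  rw [← eta_fin_two g.1]
  have e1 : g * q = q * g := by
    rw [hu] at *
    calc g * q = g * q * g⁻¹ * g := by group
      _ = q * g := by rw [Units.ext this]
  exact congrArg Units.val e1
where
  inQ8_conj (g : G₃) {q : G₃} (hq : InQ8 q) : InQ8 (g * q * g⁻¹) := by
    refine ⟨?_, ?_⟩
    · rw [Units.val_mul, Units.val_mul, det_units_conj]; exact hq.1
    · rcases hq.2 with h | h | h
      · left; rw [Units.val_mul, Units.val_mul, trace_units_conj]; exact h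
      · right; left; rw [Units.val_mul, Units.val_mul, h, mul_one, Units.mul_inv]
      · right; right; rw [Units.val_mul, Units.val_mul, h, mul_neg, mul_one, neg_mul, Units.mul_inv]
  inQ8_inv {q : G₃} (hq : InQ8 q) : InQ8 q⁻¹ := by
    have e : (q⁻¹ : G₃).1 = !![q.1 1 1, -q.1 0 1; -q.1 1 0, q.1 0 0] := by
      refine Units.inv_eq_of_mul_eq_one_right ?_
      have hd := hq.1
      rw [det_fin_two] at hd
      ext i j
      fin_cases i <;> fin_cases j <;> simp [Matrix.mul_apply, Fin.sum_univ_two] <;>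
        first | linear_combination hd | linear_combination -hd | ring1
    refine ⟨by
      rw [e, det_fin_two_of]; have hd := hq.1; rw [det_fin_two] at hd; linear_combination hd, ?_⟩
    rcases hq.2 with h | h | h
    · left; rw [e, trace_fin_two_of]; rw [trace_fin_two] at h; linear_combination h
    · right; left; rw [show q = 1 from Units.ext h, inv_one]; rfl
    · right; right
      rw [show q = -1 from Units.ext h, inv_neg, inv_one]
      rfl
  inQ8_mul {p q : G₃} (hp : InQ8 p) (hq : InQ8 q) : InQ8 (p * q) := by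
    obtain ⟨hpd, hp'⟩ := hp
    obtain ⟨hqd, hq'⟩ := hq
    refine ⟨by rw [Units.val_mul, det_mul, hpd, hqd, one_mul], ?_⟩
    rw [Units.val_mul]
    rw [det_fin_two] at hpd hqd
    rw [trace_fin_two] at hp' hq' ⊢
    rw [eta_fin_two p.1] at hp' ⊢
    rw [eta_fin_two q.1] at hq' ⊢
    simp only [Matrix.mul_apply, Fin.sum_univ_two, of_apply, cons_val', cons_val_zero,
      cons_val_one, cons_val_fin_one] at hp' hq' ⊢
    generalize p.1 0 0 = a at *
    generalize p.1 0 1 = b at *
    generalize p.1 1 0 = c at *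
    generalize p.1 1 1 = d at *
    generalize q.1 0 0 = a' at *
    generalize q.1 0 1 = b' at *
    generalize q.1 1 0 = c' at *
    generalize q.1 1 1 = d' at *
    exact closed a b c d hpd hp' a' b' c' d' hqd hq'
  closed : ∀ a b c d : ZMod 3, a * d - b * c = 1 →
      (a + d = 0 ∨ (!![a, b; c, d] : M₃) = 1 ∨ (!![a, b; c, d] : M₃) = -1) →
      ∀ a' b' c' d' : ZMod 3, a' * d' - b' * c' = 1 →
      (a' + d' = 0 ∨ (!![a', b'; c', d'] : M₃) = 1 ∨ (!![a', b'; c', d'] : M₃) = -1) →
      (a * a' + b * c' + (c * b' + d * d') = 0 ∨ (!![a, b; c, d] : M₃) * !![a', b'; c', d'] = 1 ∨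
        (!![a, b; c, d] : M₃) * !![a', b'; c', d'] = -1) := by decide +kernel

theorem rep_neg_one : (R (-1) : M₂) = -1 := by
  have hq : InQ8 (-1 : G₃) := ⟨by simp [det_neg], Or.inr (Or.inr rfl)⟩
  refine smul_one_of_involution_trace ?_ ?_
  · rw [← Units.val_mul, ← map_mul, neg_mul_neg, one_mul, map_one]; rfl
  · rw [hQ _ hq, trLift, if_pos hq.1, Units.val_neg, Units.val_one, if_neg, if_pos rfl]
    decide

theorem rep_refl {g : G₃} (hd : g.1.det = -1) (ht : g.1.trace = 0) :
    (R g : M₂).trace = 0 ∧ (R g : M₂).det = -1 := by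
  rw [det_fin_two] at hd
  rw [trace_fin_two] at ht
  obtain ⟨hsq, h1, h2⟩ := entries_involution _ _ _ _ hd ht
  rw [← eta_fin_two g.1] at hsq h1 h2
  have hns := rep_nonscalar R hQ h1 h2
  have hsq' : (R g : M₂) * (R g : M₂) = 1 := by
    rw [← Units.val_mul, ← map_mul, show g * g = 1 from Units.ext hsq, map_one]; rfl
  have h := sq_eq_trace_smul_sub_det (R g : M₂)
  rw [hsq'] at h
  obtain ⟨ha, hb⟩ := coeff_eq_zero_of_nonscalar hns (a := (R g : M₂).trace)
    (b := -(R g : M₂).det - 1) (by linear_combination (norm := module) -h)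
  exact ⟨ha, by linear_combination -hb⟩

omit hQ in
theorem rep_det_one {g : G₃} (hd : g.1.det = 1) : (R g : M₂).det = 1 := by
  set δ : G₃ →* ℂˣ := Matrix.GeneralLinearGroup.det.comp R with hδ
  have hr : δ reflElt * δ reflElt = 1 := by
    rw [← map_mul, show reflElt * reflElt = 1 from Units.ext (by decide +kernel), map_one]
  have hU : ∀ x, δ (upperUni x) = 1 := fun x => by
    have e : reflElt * upperUni x * reflElt * (upperUni x)⁻¹ = upperUni x :=
      Units.ext (entries_commutator x).1
    rw [← e, map_mul, map_mul, map_mul, map_inv, mul_comm (δ reflElt) (δ (upperUni x)),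
      mul_assoc (δ (upperUni x)), hr, mul_one, mul_inv_cancel]
  have hL : ∀ x, δ (lowerUni x) = 1 := fun x => by
    have e : reflElt * lowerUni x * reflElt * (lowerUni x)⁻¹ = lowerUni x :=
      Units.ext (entries_commutator x).2
    rw [← e, map_mul, map_mul, map_mul, map_inv, mul_comm (δ reflElt) (δ (lowerUni x)),
      mul_assoc (δ (lowerUni x)), hr, mul_one, mul_inv_cancel]
  rw [det_fin_two] at hd
  obtain ⟨i, j, k, l, h⟩ := exists_word _ _ _ _ hd
  have e : g = upperUni i * lowerUni j * upperUni k * lowerUni l := by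
    refine Units.ext ?_
    rw [Units.val_mul, Units.val_mul, Units.val_mul, ← h, ← eta_fin_two g.1]
  have h1 : δ g = 1 := by rw [e, map_mul, map_mul, map_mul, hU, hL, hU, hL,
    one_mul, one_mul, one_mul]
  simpa [hδ, Units.ext_iff, Matrix.GeneralLinearGroup.val_det_apply] using h1

theorem rep_det_neg_one {g : G₃} (hd : g.1.det = -1) : (R g : M₂).det = -1 := by
  have hr := (rep_refl R hQ (g := reflElt) (by decide +kernel) (by decide +kernel)).2
  have h1 := rep_det_one R (g := g * reflElt) (by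
    rw [Units.val_mul, det_mul, hd]; decide +kernel)
  rw [map_mul, Units.val_mul, det_mul, hr] at h1
  linear_combination -h1

theorem rep_order_three {u : G₃} (h3 : u.1 * u.1 * u.1 = 1) (hd : u.1.det = 1) (h1 : u.1 ≠ 1) :
    (R u : M₂).trace = -1 := by
  have h2 : u.1 ≠ -1 := fun e => by
    rw [e] at h3
    exact absurd h3 (by decide +kernel)
  have hns := rep_nonscalar R hQ h1 h2
  have hdR := rep_det_one R hd
  have hcube : (R u : M₂) * (R u : M₂) * (R u : M₂) = 1 := by
    rw [← Units.val_mul, ← map_mul, ← Units.val_mul, ← map_mul,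
      show u * u * u = 1 from Units.ext h3, map_one]; rfl
  have h := sq_eq_trace_smul_sub_det (R u : M₂)
  rw [hdR, one_smul] at h
  rw [h, sub_mul, smul_mul_assoc, h, one_mul, smul_sub, smul_smul] at hcube
  generalize (R u : M₂).trace = t at *
  obtain ⟨ha, hb⟩ := coeff_eq_zero_of_nonscalar hns (a := t * t - 1) (b := -t - 1)
    (by linear_combination (norm := module) hcube)
  linear_combination -hb

/-- Item: the identification with the lift. -/
theorem exists_embedding_of_quaternion_trace :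
    ∃ ι : ℤ√(-2) →+* ℂ, ∀ g : G₃, (R g : M₂).trace = ι (liftTrace g) ∧
      (R g : M₂).det = if g.1.det = 1 then 1 else -1 := by
  set t := (R octElt : M₂).trace with ht
  have hd8 : (R octElt : M₂).det = -1 := rep_det_neg_one R hQ (by decide +kernel)
  have ht2 : t * t = -2 := by
    have hns := rep_nonscalar R hQ (g := octElt) (by decide +kernel) (by decide +kernel)
    have hq : InQ8 (octElt * octElt) := ⟨by decide +kernel, Or.inl (by decide +kernel)⟩
    have h := sq_eq_trace_smul_sub_det (R octElt : M₂)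
    rw [hd8, neg_one_smul, sub_neg_eq_add, ← ht] at h
    have hz : ((R octElt : M₂) * (R octElt : M₂)).trace = 0 := by
      rw [← Units.val_mul, ← map_mul, hQ _ hq, trLift, if_pos hq.1, if_neg, if_neg, if_pos] <;>
        decide +kernel
    rw [h, trace_add, trace_smul, ← ht, smul_eq_mul, trace_one, Fintype.card_fin] at hz
    push_cast at hz
    linear_combination hz
  let ι : ℤ√(-2) →+* ℂ := Zsqrtd.lift ⟨-t, by push_cast; linear_combination ht2⟩
  have hι : ∀ x y : ℤ, ι ⟨x, y⟩ = x + y * (-t) := fun x y => rfl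
  refine ⟨ι, fun g => ?_⟩
  have hdg : g.1.det = 1 ∨ g.1.det = -1 :=
    eq_top_of_unipotents.zmod_three _ (Matrix.GeneralLinearGroup.det g).ne_zero
  rcases hdg with hd | hd
  · refine ⟨?_, by rw [if_pos hd, rep_det_one R hd]⟩
    have hd' : g.1 0 0 * g.1 1 1 - g.1 0 1 * g.1 1 0 = 1 := by rwa [← det_fin_two]
    rw [liftTrace, entries_one _ _ _ _ hd', ← eta_fin_two g.1]
    by_cases hq : InQ8 g
    · rw [hQ g hq, trLift, if_pos hd, ← trace_fin_two]
      by_cases h1 : g.1 = 1
      · rw [if_pos h1, if_pos h1, map_ofNat]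
      by_cases h2 : g.1 = -1
      · rw [if_neg h1, if_neg h1, if_pos h2, if_pos h2, map_neg, map_ofNat]
      have h0 : g.1.trace = 0 := hq.2.resolve_right (not_or.mpr ⟨h1, h2⟩)
      rw [if_neg h1, if_neg h1, if_neg h2, if_neg h2, if_pos h0, if_pos h0, map_zero]
    · obtain ⟨hn0, hn1, hn2⟩ : g.1.trace ≠ 0 ∧ g.1 ≠ 1 ∧ g.1 ≠ -1 :=
        ⟨fun h => hq ⟨hd, Or.inl h⟩, fun h => hq ⟨hd, Or.inr (Or.inl h)⟩,
          fun h => hq ⟨hd, Or.inr (Or.inr h)⟩⟩
      rw [if_neg hn1, if_neg hn2, ← trace_fin_two, if_neg hn0]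
      rw [trace_fin_two] at hn0
      have hs := entries_sl _ _ _ _ hd' hn0 (by rwa [← eta_fin_two g.1])
        (by rwa [← eta_fin_two g.1])
      rw [← eta_fin_two g.1] at hs
      rcases hs with ⟨h3, h1⟩ | ⟨h3, h1⟩
      · rw [trace_fin_two g.1, if_neg h1, rep_order_three R hQ h3 hd hn1, map_neg, map_one]
      · rw [trace_fin_two g.1, if_pos h1, map_one]
        have hu := rep_order_three R hQ (u := -g) h3 (by rw [Units.val_neg, det_neg, hd]; simp)
          (fun e => hn2 (by rw [← e, Units.val_neg, neg_neg]))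
        rw [show (-g) = (-1 : G₃) * g from (neg_one_mul g).symm, map_mul, Units.val_mul,
          rep_neg_one R hQ, neg_one_mul, trace_neg] at hu
        linear_combination -hu
  · refine ⟨?_, by rw [if_neg (by rw [hd]; decide), rep_det_neg_one R hQ hd]⟩
    have hd' : g.1 0 0 * g.1 1 1 - g.1 0 1 * g.1 1 0 = -1 := by rwa [← det_fin_two]
    rw [liftTrace, entries_neg_one _ _ _ _ hd', ← trace_fin_two]
    by_cases h0 : g.1.trace = 0
    · rw [if_pos h0, map_zero, (rep_refl R hQ hd h0).1]
    rw [trace_fin_two] at h0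
    obtain ⟨e, f, k, h, hne, hc1, hc2⟩ := entries_conj _ _ _ _ hd' h0
    obtain ⟨y, hy⟩ : ∃ y : G₃, y.1 = !![e, f; k, h] :=
      ⟨((Matrix.isUnit_iff_isUnit_det _).mpr (by
        rw [det_fin_two_of]; exact isUnit_iff_ne_zero.mpr hne)).unit, IsUnit.unit_spec _⟩
    rw [← hy, ← eta_fin_two g.1] at hc1 hc2
    rw [trace_fin_two g.1, if_neg h0]
    by_cases h1 : g.1 0 0 + g.1 1 1 = 1
    · have eg : g = y⁻¹ * octElt * y := by
        rw [mul_assoc, ← show y * g = octElt * y from Units.ext (hc1 h1), inv_mul_cancel_left]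
      rw [if_pos h1, hι, eg, map_mul, map_mul, map_inv, Units.val_mul, Units.val_mul,
        trace_units_conj']
      push_cast
      rw [← ht]; ring
    · have e8 : octElt * (y * g) = y := Units.ext (hc2 h1)
      have eg : g = y⁻¹ * octElt⁻¹ * y := by
        rw [mul_assoc, ← show y * g = octElt⁻¹ * y from (eq_inv_mul_iff_mul_eq.mpr e8),
          inv_mul_cancel_left]
      rw [if_neg h1, hι, eg, map_mul, map_mul, map_inv, map_inv, Units.val_mul, Units.val_mul,
        trace_units_conj']
      push_cast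
      have hinv : ((R octElt)⁻¹).val = (R octElt : M₂) - t • 1 := by
        refine Units.inv_eq_of_mul_eq_one_right ?_
        have h := sq_eq_trace_smul_sub_det (R octElt : M₂)
        rw [hd8, neg_one_smul, sub_neg_eq_add, ← ht] at h
        rw [mul_sub, h, mul_smul_comm, mul_one]
        abel
      rw [← Matrix.coe_units_inv, hinv, trace_sub, trace_smul, trace_one, Fintype.card_fin, ← ht,
        smul_eq_mul]
      push_cast
      ring

end FLTAgent.WeightOneWiring
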