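import Fermat.Agent.WeightOneWiring.Lift
import Fermat.Agent.MFIntegral.IntegralStructure

/-!
# Traces modulo three

`red_trace_eq`: if `h ∈ GL₂(ℤ√-2)` reduces to `g ∈ GL₂(𝔽₃)`, then so does its trace.
Used by the endgame of the weight one route.
-/

set_option autoImplicit false

noncomputable section

open CongruenceSubgroup EisensteinWeightOne FLT.ExplicitLift WeierstrassCurve
open scoped MatrixGroups

namespace FLTAgent.WeightOneWiring

theorem red_trace_eq {g : GL (Fin 2) (ZMod 3)} {h : GL (Fin 2) (ℤ√(-2))}
    (hh : Matrix.GeneralLinearGroup.map red h = g) :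
    red ((h : Matrix (Fin 2) (Fin 2) (ℤ√(-2))).trace) =
      (g : Matrix (Fin 2) (Fin 2) (ZMod 3)).trace := by
  rw [← hh]
  exact AddMonoidHom.map_trace red.toAddMonoidHom _

end FLTAgent.WeightOneWiring
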