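import Fermat.Agent.WeightOneWiring.Descend
import Fermat.Agent.WeightOneWiring.Identify
import Fermat.Agent.WeightOneWiring.ModThree
import Fermat.Agent.LanglandsTunnell.Interfaces
import Fermat.Agent.Density.Chebotarev
import Fermat.Agent.TWPrimes.Frame
import Fermat.Agent.Eigenforms.Lifting

/-!
# The endgame of the weight one route

From the weight one form of Langlands–Tunnell to residual modularity at `3`: the Deligne–Serre
representation of the form is identified with the lift, and the weight two eigenform congruent to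
it gives a modular mod `3` form of controlled level (`exists_residual_form`). The main result is
`residuallyModularThree`, used in `LanglandsTunnell.residual_three`.
-/

set_option autoImplicit false

noncomputable section

open CongruenceSubgroup EisensteinWeightOne FLT.ExplicitLift
open scoped MatrixGroups WeierstrassCurve.Affine

namespace FLTAgent.WeightOneWiring

open FLTAgent.LanglandsTunnell FLTAgent.MFIntegral

local notation "M₂" => Matrix (Fin 2) (Fin 2) ℂ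
local notation "G₃" => GL (Fin 2) (ZMod 3)

theorem eq_one_of_trace_two {W : M₂} {m : ℕ} (hm : m ≠ 0) (hW : W ^ m = 1) (ht : W.trace = 2)
    (ht2 : (W * W).trace = 2) : W = 1 := by
  have hd : W.det = 1 := by
    rw [sq_eq_trace_smul_sub_det, Matrix.trace_sub, Matrix.trace_smul, Matrix.trace_smul,
      Matrix.trace_one, Fintype.card_fin, ht, smul_eq_mul, smul_eq_mul] at ht2
    push_cast at ht2
    linear_combination -ht2 / 2
  have hN : (W - 1) * (W - 1) = 0 := by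
    have h := sq_eq_trace_smul_sub_det W
    rw [ht, hd, one_smul] at h
    linear_combination (norm := (noncomm_ring; module)) h
  have hlin : ∀ k : ℕ, W ^ k = 1 + (k : ℂ) • (W - 1) := by
    intro k
    induction k with
    | zero => simp
    | succ k ih =>
      rw [pow_succ, ih, add_mul, one_mul, smul_mul_assoc,
        show (W - 1) * W = (W - 1) * (W - 1) + (W - 1) by rw [mul_sub (W - 1), mul_one]; abel, hN,
        zero_add]
      push_cast
      module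
  rw [hlin m, add_eq_left, smul_eq_zero, sub_eq_zero] at hW
  exact hW.resolve_left (Nat.cast_ne_zero.mpr hm)

theorem factors_prod {A B : Type} [MulOneClass A] [MulOneClass B] {f : GQ →* A} {g : GQ →* B}
    (hf : GaloisFactorsThroughFiniteLevel f) (hg : GaloisFactorsThroughFiniteLevel g) :
    GaloisFactorsThroughFiniteLevel (f.prod g) := by
  obtain ⟨L1, h1, h1'⟩ := hf
  obtain ⟨L2, h2, h2'⟩ := hg
  have := h1
  have := h2
  exact ⟨L1 ⊔ L2, inferInstance, fun σ hσ => Prod.ext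
    (h1' σ fun x hx => hσ x (le_sup_left (a := L1) (b := L2) hx))
    (h2' σ fun x hx => hσ x (le_sup_right (a := L1) (b := L2) hx))⟩

/-- The Deligne–Serre representation is the lift or its complex conjugate. -/
theorem exists_embedding (hds : DeligneSerreInput) (D : Datum) {N : ℕ} [NeZero N]
    (ε : DirichletCharacter ℂ N) (f : CuspForm (Gamma1 N) 1)
    (hf1 : ModularFormClass.qCoeff f 1 = 1)
    (hT : ∀ p : ℕ, p.Prime → ¬ p ∣ N → ∀ n : ℕ,
      ModularFormClass.qCoeff f (p * n) +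
          ε (p : ZMod N) * (if p ∣ n then ModularFormClass.qCoeff f (n / p) else 0) =
        ModularFormClass.qCoeff f p * ModularFormClass.qCoeff f n)
    (hQ : ∀ p : ℕ, p.Prime → ¬ p ∣ N → ∀ A : ValuationSubring QB, A.LiesOverPrime p →
      ∀ σ : GQ, A.IsFrobeniusAt σ p → InQ8 (D.ρ σ) →
        ModularFormClass.qCoeff f p = trLift (D.ρ σ)) :
    ∃ ι : ℤ√(-2) →+* ℂ, ∀ p : ℕ, p.Prime → ¬ p ∣ N → p ≠ 3 →
      ∀ A : ValuationSubring QB, A.LiesOverPrime p → ∀ σ : GQ, A.IsFrobeniusAt σ p →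
        ModularFormClass.qCoeff f p = ι (liftTrace (D.ρ σ)) ∧
          ε (p : ZMod N) = ((chiNegThree p : ℤ) : ℂ) := by
  obtain ⟨r, hr, -, hloc⟩ := hds N ε f hf1 hT
  have hπ := factors_prod D.factors hr
  have htr : ∀ γ, InQ8 (D.ρ γ) → (r γ : M₂).trace = trLift (D.ρ γ) := fun γ hγ => by
    obtain ⟨q, ⟨hq, hqN, A, hA, -, φ, hφ, hφγ⟩⟩ :=
      (FLTAgent.Density.chebotarev (D.ρ.prod r) hπ γ N.divisors).nonempty
    have hqN' : ¬ q ∣ N := fun h => hqN (Nat.mem_divisors.mpr ⟨h, NeZero.ne N⟩)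
    simp only [MonoidHom.prod_apply, Prod.mk.injEq] at hφγ
    rw [← hφγ.2, (hloc q hq hqN' A hA).2 φ hφ |>.1, hQ q hq hqN' A hA φ hφ (by rwa [hφγ.1]),
      hφγ.1]
  have hker : D.ρ.ker ≤ r.ker := fun k hk => by
    rw [MonoidHom.mem_ker] at hk ⊢
    have h1 : InQ8 (1 : G₃) := ⟨Matrix.det_one, Or.inr (Or.inl rfl)⟩
    have key : ∀ k, D.ρ k = 1 → (r k : M₂).trace = 2 := fun k hk => by
      rw [htr k (hk ▸ h1), hk, trLift, if_pos h1.1, Units.val_one, if_pos rfl]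
    have := FLTAgent.Density.finite_range_of_factorsThroughFiniteLevel hr
    have hfin : IsOfFinOrder (⟨r k, ⟨k, rfl⟩⟩ : r.range) := isOfFinOrder_of_finite _
    obtain ⟨m, hm, hpow⟩ := hfin.exists_pow_eq_one
    refine Units.ext (eq_one_of_trace_two hm.ne' ?_ (key k hk) ?_)
    · rw [← Units.val_pow_eq_pow_val]
      exact congrArg Units.val (congrArg Subtype.val hpow)
    · rw [← Units.val_mul, ← map_mul]
      exact key _ (by rw [map_mul, hk, one_mul])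
  obtain ⟨R, hR⟩ : ∃ R : G₃ →* GL (Fin 2) ℂ, ∀ γ, R (D.ρ γ) = r γ :=
    ⟨D.ρ.liftOfSurjective D.surjective ⟨r, hker⟩,
      fun γ => MonoidHom.liftOfRightInverse_comp_apply D.ρ _
        (Function.rightInverse_surjInv D.surjective) ⟨r, hker⟩ γ⟩
  obtain ⟨ι, hι⟩ := exists_embedding_of_quaternion_trace R fun q hq => by
    obtain ⟨γ, rfl⟩ := D.surjective q
    rw [hR]; exact htr γ hq
  refine ⟨ι, fun p hp hpN hp3 A hA σ hσ => ?_⟩
  obtain ⟨htrace, hdet⟩ := (hloc p hp hpN A hA).2 σ hσ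
  obtain ⟨h1, h2⟩ := hι (D.ρ σ)
  rw [hR] at h1 h2
  refine ⟨htrace.symm.trans h1, ?_⟩
  rw [← hdet, h2]
  have hp3' : ¬ p ∣ 3 := fun h => hp3 ((Nat.prime_dvd_prime_iff_eq hp Nat.prime_three).mp h)
  have hd : (D.ρ σ).1.det = (p : ZMod 3) := by
    have hc := congrArg Units.val (D.det σ)
    rw [Matrix.GeneralLinearGroup.val_det_apply] at hc
    exact hc.trans (FLTAgent.TWPrimes.cyclo_of_isFrobeniusAt 3 hp hp3' hA hσ)
  have hmod : p % 3 = 1 ∨ p % 3 = 2 := by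
    rcases (show p % 3 = 0 ∨ p % 3 = 1 ∨ p % 3 = 2 by omega) with h | h | h
    · exact absurd ((Nat.prime_dvd_prime_iff_eq Nat.prime_three hp).mp (Nat.dvd_of_mod_eq_zero h))
        (Ne.symm hp3)
    · exact Or.inl h
    · exact Or.inr h
  rw [hd, ← ZMod.natCast_mod, chiNegThree]
  rcases hmod with h | h <;> simp +decide [h]

/-- A normalised eigenform congruent to a `ℤ[√-2]`-valued weight one expansion. -/
theorem exists_eigenform_of_expansion {L : ℕ} [NeZero L] {ι : ℤ√(-2) →+* ℂ} {z β : ℕ → ℤ√(-2)}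
    {g : CuspForm (Gamma1 L) 1} (hg : IsWeightOneExpansion L ι z g) (hrel : GoodRel L β z)
    (hne : ∃ n, red (z n) ≠ 0) (a : ℕ → ℤ)
    (ha : ∀ ℓ : ℕ, ℓ.Prime → ¬ ℓ ∣ L → (a ℓ : ZMod 3) = red (β ℓ)) :
    ∃ (F : CuspForm (Gamma0 L) 2) (𝔪 : Ideal (integralClosure ℤ ℂ)),
      F.IsNormalizedEigenform ∧ 𝔪.IsMaximal ∧ ((3 : ℕ) : integralClosure ℤ ℂ) ∈ 𝔪 ∧
        ∀ ℓ : ℕ, ℓ.Prime → ¬ ℓ ∣ L →
          ∃ c : integralClosure ℤ ℂ, (c : ℂ) = ModularFormClass.qCoeff F ℓ ∧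
            c - (a ℓ : integralClosure ℤ ℂ) ∈ 𝔪 := by
  obtain ⟨H, hH⟩ := exists_integral_form hg
  have hmem : H ∈ CuspForm.intLattice L 2 :=
    (FLTAgent.Eigenforms.mem_intLattice_iff H).mpr fun n => ⟨_, hH n⟩
  have hco : ∀ n, ((FLTAgent.Eigenforms.intCoeff ⟨H, hmem⟩ n : ℤ) : ZMod 3) = red (z n) :=
    fun n => by
      rw [Int.cast_injective (α := ℂ) ((FLTAgent.Eigenforms.intCoeff_spec ⟨H, hmem⟩ n).trans
        (hH n)),
        ← red_bridgeCoeff z n, red_eq_redVal, redVal, Int.cast_sub]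
  obtain ⟨n₀, hn₀⟩ := hne
  obtain ⟨θ, hθ, -⟩ := FLTAgent.Eigenforms.exists_residualChar_of_congruence
    (S := {ℓ : ℕ | ℓ ∣ L}) (p := 3) ⟨H, hmem⟩
    ⟨n₀, by rw [← ZMod.intCast_zmod_eq_zero_iff_dvd, hco]; exact hn₀⟩ a fun ℓ hℓ n => by
      have h := congrArg red (hrel ℓ ℓ.2 hℓ n)
      rw [map_add, map_mul, map_mul, map_intCast, apply_ite red, map_zero] at h
      rw [← ZMod.intCast_zmod_eq_zero_iff_dvd]
      have hchi : ((chiNegThree ℓ : ℤ) : ZMod 3) = ((ℓ : ℕ) : ZMod 3) := by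
        rw [chiNegThree, ← ZMod.natCast_mod (ℓ : ℕ) 3]
        have : (ℓ : ℕ) % 3 < 3 := Nat.mod_lt _ (by norm_num)
        interval_cases (ℓ : ℕ) % 3 <;> decide
      simp only [hco, FLTAgent.Eigenforms.heckeE, Int.cast_sub, Int.cast_add,
        Int.cast_mul, apply_ite (fun x : ℤ => (x : ZMod 3)), Int.cast_zero, Int.cast_natCast,
        ha ℓ ℓ.2 hℓ]
      rw [if_neg (show ¬ (ℓ : ℕ) ∣ L from hℓ), ← hchi, h, sub_self]
  obtain ⟨F, hF, 𝔪, hmax, h3, hlift, -⟩ := FLTAgent.Eigenforms.exists_eigenform_congruent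
    (hasIntegralStructure L 2) Nat.prime_three θ
  refine ⟨F, 𝔪, hF, hmax, h3, fun ℓ hℓ hℓL => ?_⟩
  obtain ⟨c, hc, hcm⟩ := hlift _ (a ℓ) (hθ ℓ hℓ hℓL hℓL)
  exact ⟨c, hc.trans (FLTAgent.Eigenforms.eigenChar_T hF hℓ hℓL _), hcm⟩

theorem prime_pow_dvd_lcm {q k a b : ℕ} (hq : q.Prime) (ha : a ≠ 0) (hb : b ≠ 0)
    (h : q ^ k ∣ Nat.lcm a b) : q ^ k ∣ a ∨ q ^ k ∣ b := by
  rw [hq.pow_dvd_iff_le_factorization (Nat.lcm_ne_zero ha hb), Nat.factorization_lcm ha hb,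
    Finsupp.sup_apply] at h
  rcases le_sup_iff.mp h with h | h
  · exact Or.inl ((hq.pow_dvd_iff_le_factorization ha).mpr h)
  · exact Or.inr ((hq.pow_dvd_iff_le_factorization hb).mpr h)

theorem gamma1_le_of_dvd {N L : ℕ} (h : N ∣ L) : Gamma1 L ≤ Gamma1 N := fun γ hγ => by
  rw [Gamma1_mem] at hγ ⊢
  have key : ∀ (x y : ℤ), (x : ZMod L) = (y : ZMod L) → (x : ZMod N) = (y : ZMod N) :=
    fun x y e => by
    rw [ZMod.intCast_eq_intCast_iff_dvd_sub] at e ⊢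
    exact (Int.natCast_dvd_natCast.mpr h).trans e
  exact ⟨by simpa using key _ 1 (by simpa using hγ.1),
    by simpa using key _ 1 (by simpa using hγ.2.1),
    by simpa using key _ 0 (by simpa using hγ.2.2)⟩

/-- A weight one form of the datum gives a modular mod `3` form with controlled level. -/
theorem exists_residual_form (hds : DeligneSerreInput) (D : Datum) (h : HasWeightOneForm D)
    (a : ℕ → ℤ) (good : ℕ → Prop)
    (ha : ∀ ℓ : ℕ, ℓ.Prime → good ℓ → ℓ ≠ 3 → ∀ A : ValuationSubring QB, A.LiesOverPrime ℓ →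
      ∀ σ : GQ, A.IsFrobeniusAt σ ℓ → (D.ρ σ).1.trace = (a ℓ : ZMod 3)) :
    ∃ (M : ℕ) (F : CuspForm (Gamma0 M) 2) (𝔪 : Ideal (integralClosure ℤ ℂ)),
      0 < M ∧ F.IsNormalizedEigenform ∧ 𝔪.IsMaximal ∧ ((3 : ℕ) : integralClosure ℤ ℂ) ∈ 𝔪 ∧
        (∀ q : ℕ, q.Prime → q ≠ 3 → ¬ D.IsBad q → ¬ q ^ 3 ∣ M) ∧ (D.SplitAtThree → ¬ 3 ^ 2 ∣ M) ∧
        ∀ ℓ : ℕ, ℓ.Prime → good ℓ → ¬ ℓ ∣ M → ℓ ≠ 3 →
          ∃ c : integralClosure ℤ ℂ, (c : ℂ) = ModularFormClass.qCoeff F ℓ ∧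
            c - (a ℓ : integralClosure ℤ ℂ) ∈ 𝔪 := by
  classical
  obtain ⟨N, hN, ε, f, hf1, hT, hcube, hnine, hQ⟩ := h
  have := hN
  obtain ⟨ι, hι⟩ := exists_embedding hds D ε f hf1 hT hQ
  set L := Nat.lcm N 3 with hL
  have hL0 : L ≠ 0 := Nat.lcm_ne_zero (NeZero.ne N) (by norm_num)
  have : NeZero L := ⟨hL0⟩
  have h3L : 3 ∣ L := Nat.dvd_lcm_right _ _
  have hgood : ∀ p : ℕ, ¬ p ∣ L → ¬ p ∣ N ∧ p ≠ 3 :=
    fun p hp => ⟨fun h => hp (h.trans (Nat.dvd_lcm_left _ _)), fun h => hp (h ▸ h3L)⟩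
  choose A hA using fun p : Nat.Primes => FLTAgent.Density.exists_liesOverPrime p.2
  choose φ hφ using fun p : Nat.Primes => FLTAgent.Density.exists_isFrobeniusAt (A p) p.2 (hA p)
  let β : ℕ → ℤ√(-2) := fun p => if hp : p.Prime then liftTrace (D.ρ (φ ⟨p, hp⟩)) else 0
  have hmem : (fun n => ModularFormClass.qCoeff f n) ∈ FLTAgent.DeligneSerre.cfSpace L := by
    have hcf := isCF_of_cuspForm f
    exact ⟨f, ⟨hcf.1.mono (gamma1_le_of_dvd (Nat.dvd_lcm_left _ _)), hcf.2⟩, fun n => rfl⟩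
  have hrel : GoodRel L (fun q => ι (β q)) fun n => ModularFormClass.qCoeff f n := by
    intro q hq hqL n
    obtain ⟨hqN, hq3⟩ := hgood q hqL
    obtain ⟨h1, h2⟩ := hι q hq hqN hq3 (A ⟨q, hq⟩) (hA ⟨q, hq⟩) (φ ⟨q, hq⟩) (hφ ⟨q, hq⟩)
    simp only [β, dif_pos hq]
    rw [← h1, ← h2]
    exact hT q hq hqN n
  obtain ⟨z, g, hg, hzrel, hne⟩ := exists_expansion
    (Nat.le_of_dvd (Nat.pos_of_ne_zero hL0) h3L) h3L hmem hf1 ι β hrel
  obtain ⟨F, 𝔪, hF, hmax, h3, hcong⟩ := exists_eigenform_of_expansion hg hzrel hne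
    (fun ℓ => ((red (β ℓ)).val : ℤ)) (fun ℓ _ _ => by
      rw [Int.cast_natCast, ZMod.natCast_zmod_val])
  refine ⟨L, F, 𝔪, Nat.pos_of_ne_zero hL0, hF, hmax, h3, fun q hq hq3 hbad hd => ?_,
    fun hs hd => ?_,
    fun ℓ hℓ hgℓ hℓL hℓ3 => ?_⟩
  · rcases prime_pow_dvd_lcm hq (NeZero.ne N) (by norm_num) hd with h | h
    · exact hcube q hq hq3 hbad h
    · exact hq3 ((Nat.prime_dvd_prime_iff_eq hq Nat.prime_three).mp
        ((dvd_pow_self q (by norm_num)).trans h))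
  · rcases prime_pow_dvd_lcm Nat.prime_three (NeZero.ne N) (by norm_num) hd with h | h
    · exact hnine hs h
    · exact absurd (Nat.le_of_dvd (by norm_num) h) (by norm_num)
  · obtain ⟨c, hc, hcm⟩ := hcong ℓ hℓ hℓL
    refine ⟨c, hc, ?_⟩
    have hdvd : (3 : ℤ) ∣ ((red (β ℓ)).val : ℤ) - a ℓ := by
      rw [show (3 : ℤ) = ((3 : ℕ) : ℤ) from rfl, ← ZMod.intCast_eq_intCast_iff_dvd_sub (a ℓ) _ 3,
        ← ha ℓ hℓ hgℓ hℓ3 _ (hA ⟨ℓ, hℓ⟩) _
        (hφ ⟨ℓ, hℓ⟩), Int.cast_natCast, ZMod.natCast_zmod_val]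
      simp only [β, dif_pos hℓ]
      rw [← trace_psiLift]
      exact (red_trace_eq (map_red_psiLift _)).symm
    obtain ⟨d, hd⟩ := hdvd
    have e : c - (a ℓ : integralClosure ℤ ℂ) =
        (c - (((red (β ℓ)).val : ℤ) : integralClosure ℤ ℂ)) +
          ((3 : ℕ) : integralClosure ℤ ℂ) * (d : integralClosure ℤ ℂ) := by
      have := congrArg (fun x : ℤ => (x : integralClosure ℤ ℂ)) hd
      push_cast at this ⊢
      linear_combination this
    rw [e]
    exact 𝔪.add_mem hcm (𝔪.mul_mem_right _ h3)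

/-- From a weight one form to residual modularity. -/
theorem residuallyModularThree (hds : DeligneSerreInput) {W : WeierstrassCurve ℤ} {D : Datum}
    (hD : D.BelongsTo W) (h : HasWeightOneForm D) : ResiduallyModularThree W := by
  obtain ⟨M, F, 𝔪, hM, hF, hmax, h3, hcube, hnine, hcong⟩ := exists_residual_form hds D h
    (fun ℓ => W.apOfModel ℓ) W.IsGoodPrimeFor
    fun ℓ hℓ hgood hℓ3 A hA σ hσ => (hD.1 ℓ hℓ hgood hℓ3 A hA).2 σ hσ
  refine ⟨M, hM, ⟨F, 𝔪, hF, hmax, h3, hcong⟩, fun q hq hq3 => hcube q hq hq3 (hD.2.2 q),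
    fun h9 A hA x hx => ?_⟩
  by_contra hx0
  exact hnine (hD.2.1 ⟨A, hA, x, hx, hx0⟩) h9

end FLTAgent.WeightOneWiring
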