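import Fermat.Agent.WeightOneWiring.Identify
import Fermat.Agent.LanglandsTunnell.Interfaces
import Fermat.Agent.TWPrimes.Frame
import Fermat.Agent.LanglandsTunnell.Matrices

/-!
# The fields of a datum and their places

The two fields of the datum: degrees `2` and `6`, totally complex, and a compatible choice of
embeddings.
Main result: `nonempty_extPlaces`.
-/

set_option autoImplicit false

noncomputable section

open NumberField

namespace FLTAgent.WeightOneWiring

open FLTAgent.LanglandsTunnell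

local notation "G₃" => GL (Fin 2) (ZMod 3)

theorem entries_mul_q8 : ∀ a b c d : ZMod 3, a * d - b * c = 1 →
    (a + d = 0 ∨ (!![a, b; c, d] : Matrix (Fin 2) (Fin 2) (ZMod 3)) = 1 ∨
      (!![a, b; c, d] : Matrix (Fin 2) (Fin 2) (ZMod 3)) = -1) →
    ∀ a' b' c' d' : ZMod 3, a' * d' - b' * c' = 1 →
    (a' + d' = 0 ∨ (!![a', b'; c', d'] : Matrix (Fin 2) (Fin 2) (ZMod 3)) = 1 ∨
      (!![a', b'; c', d'] : Matrix (Fin 2) (Fin 2) (ZMod 3)) = -1) →
    a * a' + b * c' + (c * b' + d * d') = 0 ∨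
      (!![a, b; c, d] : Matrix (Fin 2) (Fin 2) (ZMod 3)) * !![a', b'; c', d'] = 1 ∨
      (!![a, b; c, d] : Matrix (Fin 2) (Fin 2) (ZMod 3)) * !![a', b'; c', d'] = -1 := by
  decide +kernel

theorem inQ8_entries {g : G₃} : InQ8 g ↔ g.1 0 0 * g.1 1 1 - g.1 0 1 * g.1 1 0 = 1 ∧
    (g.1 0 0 + g.1 1 1 = 0 ∨ g.1 = 1 ∨ g.1 = -1) := by
  rw [InQ8, Matrix.det_fin_two, Matrix.trace_fin_two]

/-- The quaternion subgroup. -/
def quaternionSubgroup : Subgroup G₃ where
  carrier := {g | InQ8 g}
  one_mem' := ⟨Matrix.det_one, Or.inr (Or.inl rfl)⟩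
  mul_mem' {x y} hx hy := by
    obtain ⟨hxd, hx'⟩ := inQ8_entries.mp hx
    obtain ⟨hyd, hy'⟩ := inQ8_entries.mp hy
    refine ⟨by rw [Units.val_mul, Matrix.det_mul, hx.1, hy.1, one_mul], ?_⟩
    rw [Matrix.eta_fin_two x.1] at hx'
    rw [Matrix.eta_fin_two y.1] at hy'
    simp only [Matrix.of_apply, Matrix.cons_val', Matrix.cons_val_zero, Matrix.cons_val_one,
      Matrix.cons_val_fin_one] at hx' hy'
    have := entries_mul_q8 _ _ _ _ hxd hx' _ _ _ _ hyd hy'
    rw [← Matrix.eta_fin_two x.1, ← Matrix.eta_fin_two y.1] at this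
    simpa [Matrix.trace_fin_two, Matrix.mul_apply, Fin.sum_univ_two] using this
  inv_mem' {q} hq := by
    have e : (q⁻¹ : G₃).1 = !![q.1 1 1, -q.1 0 1; -q.1 1 0, q.1 0 0] := by
      refine Units.inv_eq_of_mul_eq_one_right ?_
      have hd := (inQ8_entries.mp hq).1
      ext i j
      fin_cases i <;> fin_cases j <;> simp [Matrix.mul_apply, Fin.sum_univ_two] <;>
        first | linear_combination hd | linear_combination -hd | ring1
    obtain ⟨hd, h⟩ := inQ8_entries.mp hq
    refine ⟨by rw [e, Matrix.det_fin_two_of]; linear_combination hd, ?_⟩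
    rcases h with h | h | h
    · left; rw [e, Matrix.trace_fin_two_of]; linear_combination h
    · right; left; rw [show q = 1 from Units.ext h, inv_one]; rfl
    · right; right; rw [show q = -1 from Units.ext h, inv_neg, inv_one]; rfl

theorem natCard_quaternionSubgroup : Nat.card quaternionSubgroup = 8 := by
  let T := {v : (ZMod 3 × ZMod 3) × ZMod 3 × ZMod 3 //
    v.1.1 * v.2.2 - v.1.2 * v.2.1 = 1 ∧ (v.1.1 + v.2.2 = 0 ∨
      (!![v.1.1, v.1.2; v.2.1, v.2.2] : Matrix (Fin 2) (Fin 2) (ZMod 3)) = 1 ∨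
      (!![v.1.1, v.1.2; v.2.1, v.2.2] : Matrix (Fin 2) (Fin 2) (ZMod 3)) = -1)}
  have hT : Nat.card T = 8 := by
    rw [Nat.card_eq_fintype_card]
    decide +kernel
  rw [← hT]
  refine Nat.card_eq_of_bijective (fun g : quaternionSubgroup =>
    (⟨((g.1.1 0 0, g.1.1 0 1), g.1.1 1 0, g.1.1 1 1), by
      obtain ⟨h1, h2⟩ := inQ8_entries.mp g.2
      exact ⟨h1, by rwa [← Matrix.eta_fin_two g.1.1]⟩⟩ : T)) ⟨?_, ?_⟩
  · intro g h e
    have e' := congrArg Subtype.val e
    refine Subtype.ext (Units.ext (Matrix.ext fun i j => ?_))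
    fin_cases i <;> fin_cases j
    · exact congrArg (fun v => v.1.1) e'
    · exact congrArg (fun v => v.1.2) e'
    · exact congrArg (fun v => v.2.1) e'
    · exact congrArg (fun v => v.2.2) e'
  · rintro ⟨⟨⟨a, b⟩, c, d⟩, hd, h⟩
    refine ⟨⟨⟨!![a, b; c, d], !![d, -b; -c, a], ?_, ?_⟩, inQ8_entries.mpr ⟨hd, h⟩⟩, rfl⟩
    · ext i j; fin_cases i <;> fin_cases j <;> simp [Matrix.mul_apply, Fin.sum_univ_two] <;>
        first | linear_combination hd | linear_combination -hd | ring1
    · ext i j; fin_cases i <;> fin_cases j <;> simp [Matrix.mul_apply, Fin.sum_univ_two] <;>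
        first | linear_combination hd | linear_combination -hd | ring1

variable (D : Datum)

theorem galM_eq : D.galM = quaternionSubgroup.comap D.ρ :=
  le_antisymm ((Subgroup.closure_le _).mpr fun _ h => h) fun _ h => Subgroup.subset_closure h

theorem galM_index : D.galM.index = 6 := by
  rw [galM_eq, Subgroup.index_comap_of_surjective _ D.surjective]
  have := quaternionSubgroup.card_mul_index
  rw [natCard_quaternionSubgroup, natCard_GL_three] at this
  omega

theorem galE_index : D.galE.index = 2 := by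
  have hs : Function.Surjective (Matrix.GeneralLinearGroup.det.comp D.ρ) := by
    intro u
    rcases eq_top_of_unipotents.zmod_three (u : ZMod 3) u.ne_zero with h | h
    · exact ⟨1, Units.ext (by rw [map_one, Units.val_one, h])⟩
    · obtain ⟨σ, hσ⟩ := D.surjective reflElt
      refine ⟨σ, Units.ext ?_⟩
      show (D.ρ σ).1.det = _
      rw [hσ, h]
      decide +kernel
  rw [Datum.galE, Subgroup.index_ker, MonoidHom.range_eq_top.mpr hs, Subgroup.card_top,
    Nat.card_eq_fintype_card]
  decide +kernel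

/-- `ℚ̄` is Galois over `ℚ`. -/
theorem isGalois_QB : IsGalois ℚ QB :=
  haveI : IsAlgClosure ℚ QB := ⟨inferInstance, AlgebraicClosure.isAlgebraic ℚ⟩
  IsAlgClosure.isGalois ℚ QB

theorem fixingSubgroup_fixedField_of_ker_le {H : Subgroup GQ} (hH : D.ρ.ker ≤ H) :
    (IntermediateField.fixedField H).fixingSubgroup = H := by
  have := isGalois_QB
  obtain ⟨L, hL, h⟩ := D.factors
  have := hL
  have hle : L.fixingSubgroup ≤ H := fun σ hσ =>
    hH (h σ ((IntermediateField.mem_fixingSubgroup_iff _ _).mp hσ))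
  exact InfiniteGalois.fixingSubgroup_fixedField ⟨H,
    H.isClosed_of_isOpen (Subgroup.isOpen_mono hle L.fixingSubgroup_isOpen)⟩

theorem finrank_E : Module.finrank ℚ D.E = 2 := by
  have := isGalois_QB
  rw [IntermediateField.finrank_eq_fixingSubgroup_index, Datum.E,
    fixingSubgroup_fixedField_of_ker_le D fun σ hσ => by
      simp [Datum.galE, MonoidHom.mem_ker, MonoidHom.mem_ker.mp hσ], galE_index]

theorem finrank_M : Module.finrank ℚ D.M = 6 := by
  have := isGalois_QB
  have hker : D.ρ.ker ≤ D.galM := fun σ hσ => Subgroup.subset_closure (by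
    simp [InQ8, MonoidHom.mem_ker.mp hσ])
  rw [IntermediateField.finrank_eq_fixingSubgroup_index, Datum.M,
    fixingSubgroup_fixedField_of_ker_le D hker, galM_index]

theorem exists_zeta : ∃ ζ : D.E, ζ ^ 3 = 1 ∧ ζ ≠ 1 := by
  have : NeZero (3 : QB) := ⟨three_ne_zero⟩
  obtain ⟨ζ, hζ⟩ := HasEnoughRootsOfUnity.exists_primitiveRoot QB 3
  have hmem : ζ ∈ D.E := by
    refine (IntermediateField.mem_fixedField_iff _ _).mpr fun σ hσ => ?_
    have hc : TWPrimes.cyclo 3 σ = 1 := (D.det σ).symm.trans hσ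
    rw [TWPrimes.cyclo_spec 3 σ hζ.pow_eq_one, hc, Units.val_one, ZMod.val_one, pow_one]
  refine ⟨⟨ζ, hmem⟩, Subtype.ext hζ.pow_eq_one, fun h => hζ.ne_one (by norm_num) ?_⟩
  exact congrArg Subtype.val h

theorem not_isReal {K : Type} [Field K] {ζ : K} (h3 : ζ ^ 3 = 1) (h1 : ζ ≠ 1) (φ : K →+* ℂ) :
    ¬ ComplexEmbedding.IsReal φ := by
  intro h
  have hreal : (starRingEnd ℂ) (φ ζ) = φ ζ := RingHom.congr_fun h ζ
  obtain ⟨r, hr⟩ := Complex.conj_eq_iff_real.mp hreal
  have hr3 : r ^ 3 = 1 := by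
    have := congrArg φ h3
    rw [map_pow, hr, map_one] at this
    exact_mod_cast this
  have hr1 : r = 1 := by nlinarith [sq_nonneg (r - 1), sq_nonneg (r + 1), sq_nonneg r]
  exact h1 (φ.injective (by rw [hr, hr1, map_one, Complex.ofReal_one]))

theorem card_places {K : Type} [Field K] [NumberField K]
    (hc : ∀ φ : K →+* ℂ, ¬ ComplexEmbedding.IsReal φ) :
    2 * Fintype.card (InfinitePlace K) = Module.finrank ℚ K := by
  classical
  have h0 : InfinitePlace.nrRealPlaces K = 0 := Fintype.card_eq_zero_iff.mpr ⟨fun w => by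
    obtain ⟨φ, hφ, -⟩ := w.2
    exact hc φ hφ⟩
  have h1 := InfinitePlace.card_eq_nrRealPlaces_add_nrComplexPlaces K
  have h2 := InfinitePlace.card_add_two_mul_card_eq_rank K
  omega

/-- Places can be chosen. -/
theorem nonempty_extPlaces (D : Datum) : Nonempty (ExtPlaces D) := by
  classical
  obtain ⟨ζ, hζ3, hζ1⟩ := exists_zeta D
  have hcE : ∀ φ : D.E →+* ℂ, ¬ ComplexEmbedding.IsReal φ := not_isReal hζ3 hζ1
  have hcM : ∀ φ : D.M →+* ℂ, ¬ ComplexEmbedding.IsReal φ :=
    not_isReal (ζ := D.incl ζ) (by rw [← map_pow, hζ3, map_one])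
      (fun h => hζ1 (D.incl.injective (by rw [h, map_one])))
  have hE1 : Fintype.card (InfinitePlace D.E) = 1 := by
    have := card_places hcE; rw [finrank_E] at this; omega
  have hM3 : Fintype.card (InfinitePlace D.M) = 3 := by
    have := card_places hcM; rw [finrank_M] at this; omega
  obtain ⟨w₀, hw₀⟩ := Fintype.card_eq_one_iff.mp hE1
  let e : D.E →+* ℂ := w₀.embedding
  let eM : Fin 3 ≃ InfinitePlace D.M := (Fintype.equivFinOfCardEq hM3).symm
  have hchoice : ∀ i, ∃ φ : D.M →+* ℂ, InfinitePlace.mk φ = eM i ∧ φ.comp D.incl = e := by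
    intro i
    have h := (hw₀ (InfinitePlace.mk ((eM i).embedding.comp D.incl))).trans
      (InfinitePlace.mk_embedding w₀).symm
    rcases InfinitePlace.mk_eq_iff.mp h with h | h
    · exact ⟨_, InfinitePlace.mk_embedding _, h⟩
    · refine ⟨ComplexEmbedding.conjugate (eM i).embedding, ?_, h⟩
      rw [InfinitePlace.mk_conjugate_eq, InfinitePlace.mk_embedding]
  choose φ hφ hφc using hchoice
  exact ⟨{
    placesE := {
      emb := fun _ => e
      bijective := ⟨fun _ _ _ => rfl, fun w => ⟨(), by rw [hw₀ w, InfinitePlace.mk_embedding]⟩⟩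
      isComplex := fun _ => InfinitePlace.isComplex_mk_iff.mpr (hcE e) }
    placesM := {
      emb := φ
      bijective := by
        have : (fun i => InfinitePlace.mk (φ i)) = eM := funext hφ
        rw [this]; exact eM.bijective
      isComplex := fun i => InfinitePlace.isComplex_mk_iff.mpr (hcM _) }
    compat := hφc }⟩

end FLTAgent.WeightOneWiring

namespace FLTAgent.LanglandsTunnell

/-- The quaternion group is stable under conjugation. -/
theorem inQ8_conj {x g : GL (Fin 2) (ZMod 3)} (hg : InQ8 g) : InQ8 (x * g * x⁻¹) := by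
  have hv : (x * g * x⁻¹).1 = x.1 * g.1 * (x⁻¹).1 := rfl
  refine ⟨by rw [hv, Matrix.det_units_conj]; exact hg.1, ?_⟩
  rcases hg.2 with h | h | h
  · exact Or.inl (by rw [hv, Matrix.trace_units_conj]; exact h)
  · rw [show g = 1 from Units.ext h]
    simp
  · rw [show g = -1 from Units.ext h]
    simp

variable (D : Datum)

/-- An element is in the group of `M` iff its image is in the quaternion group. -/
theorem mem_galM {g : GQ} : g ∈ D.galM ↔ InQ8 (D.ρ g) := by
  rw [WeightOneWiring.galM_eq]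
  rfl

/-- The fixing group of `M`. -/
theorem fixingSubgroup_M : D.M.fixingSubgroup = D.galM :=
  WeightOneWiring.fixingSubgroup_fixedField_of_ker_le D fun σ hσ => by
    simp [mem_galM, InQ8, MonoidHom.mem_ker.mp hσ]

/-- The group of `M` is stable under conjugation. -/
theorem conj_mem_galM (t : GQ) {g : GQ} (hg : g ∈ D.galM) : t * g * t⁻¹ ∈ D.galM := by
  rw [mem_galM, map_mul, map_mul, map_inv]
  exact inQ8_conj ((mem_galM D).mp hg)

end FLTAgent.LanglandsTunnell
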