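import Fermat.Agent.WeightOneWiring.Depletion
import Fermat.Agent.WeightOneWiring.Endgame

/-!
# Full weight one eigensystems

The weight one form of a datum, depleted at the primes of its level, gives a full eigensystem
with values in `ℤ[√-2]`.
Main result: `exists_system`.
-/

set_option autoImplicit false

noncomputable section

open CongruenceSubgroup EisensteinWeightOne FLT.ExplicitLift
open scoped MatrixGroups

namespace FLTAgent.WeightOneWiring

open FLTAgent.LanglandsTunnell FLTAgent.MFIntegral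

/-- Deplete at a finite set of primes of the level. -/
theorem exists_depleted {L : ℕ} (hL : L ≠ 0) {f : UpperHalfPlane → ℂ} (hf : ChiForm L f) :
    ∀ s : Finset ℕ, s ⊆ L.primeFactors →
      ∃ (N' : ℕ) (g : UpperHalfPlane → ℂ), N' ≠ 0 ∧ L ∣ N' ∧
        (∀ q : ℕ, q.Prime → (q ∣ N' ↔ q ∣ L)) ∧
        (∀ q : ℕ, q.Prime → q ≠ 3 → ¬ q ^ 3 ∣ L → ¬ q ^ 3 ∣ N') ∧
        ChiForm N' g ∧ ∀ n, ModularFormClass.qCoeff g n =
          if ∀ q ∈ s, ¬ q ∣ n then ModularFormClass.qCoeff f n else 0 := by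
  intro s
  induction s using Finset.induction_on with
  | empty =>
    exact fun _ => ⟨L, f, hL, dvd_rfl, fun _ _ => Iff.rfl, fun _ _ _ h => h, hf, fun n => by simp⟩
  | insert q s hqs ih =>
    intro hsub
    obtain ⟨N', g, hN', hLN, hpr, hcube, hg, hcoef⟩ :=
      ih ((Finset.subset_insert q s).trans hsub)
    obtain ⟨hq, hqL, -⟩ := Nat.mem_primeFactors.mp (hsub (Finset.mem_insert_self q s))
    have hN'' : Nat.lcm N' (q ^ 2) ≠ 0 := Nat.lcm_ne_zero hN' (pow_ne_zero _ hq.ne_zero)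
    have : NeZero N' := ⟨hN'⟩
    have : NeZero (Nat.lcm N' (q ^ 2)) := ⟨hN''⟩
    refine ⟨Nat.lcm N' (q ^ 2), depleteAt q g, hN'', hLN.trans (Nat.dvd_lcm_left _ _),
      fun p hp => ⟨fun h => ?_, fun h => ((hpr p hp).mpr h).trans (Nat.dvd_lcm_left _ _)⟩,
      fun p hp hp3 hpL h => ?_, chiForm_depleteAt hq hg (Nat.dvd_lcm_left _ _)
        (Nat.dvd_lcm_right _ _),
      fun n => ?_⟩
    · rcases prime_pow_dvd_lcm hp hN' (pow_ne_zero _ hq.ne_zero)
          (k := 1) (by simpa using h) with h | h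
      · exact (hpr p hp).mp (by simpa using h)
      · rw [pow_one] at h
        exact (Nat.prime_dvd_prime_iff_eq hp hq).mp (hp.dvd_of_dvd_pow h) ▸ hqL
    · rcases prime_pow_dvd_lcm hp hN' (pow_ne_zero _ hq.ne_zero) h with h | h
      · exact hcube p hp hp3 hpL h
      · obtain rfl := (Nat.prime_dvd_prime_iff_eq hp hq).mp
          (hp.dvd_of_dvd_pow ((dvd_pow_self p (by norm_num : 3 ≠ 0)).trans h))
        exact absurd ((Nat.pow_dvd_pow_iff_le_right hp.one_lt).mp h) (by norm_num)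
    · rw [qCoeff_depleteAt hq hg (Nat.dvd_lcm_left _ _) (Nat.dvd_lcm_right _ _), hcoef]
      by_cases hn : q ∣ n <;> simp [hn]

/-- A weight one form of the datum gives a full weight one system with values in `ℤ[√-2]`, whose
coefficients at good primes are the traces of the lift. -/
theorem exists_system (hds : DeligneSerreInput) (D : Datum) (h : HasWeightOneForm D) :
    ∃ (M : ℕ) (_ : NeZero M) (ι : ℤ√(-2) →+* ℂ) (b : ℕ → ℤ√(-2)) (g : CuspForm (Gamma1 M) 1),
      IsWeightOneSystem M ι b g ∧ (∀ q : ℕ, q.Prime → q ≠ 3 → ¬ D.IsBad q → ¬ q ^ 3 ∣ M) ∧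
      ∀ ℓ : ℕ, ℓ.Prime → ¬ ℓ ∣ M → ℓ ≠ 3 → ∀ A : ValuationSubring QB, A.LiesOverPrime ℓ →
        ∀ σ : GQ, A.IsFrobeniusAt σ ℓ → b ℓ = liftTrace (D.ρ σ) := by
  classical
  obtain ⟨N, hN, ε, f, hf1, hT, hcube, -, hQ⟩ := h
  have := hN
  obtain ⟨ι, hι⟩ := exists_embedding hds D ε f hf1 hT hQ
  set L := Nat.lcm N 3 with hLdef
  have hL0 : L ≠ 0 := Nat.lcm_ne_zero (NeZero.ne N) (by norm_num)
  have : NeZero L := ⟨hL0⟩
  have h3L : 3 ∣ L := Nat.dvd_lcm_right _ _
  have hgood : ∀ p : ℕ, ¬ p ∣ L → ¬ p ∣ N ∧ p ≠ 3 :=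
    fun p hp => ⟨fun h => hp (h.trans (Nat.dvd_lcm_left _ _)), fun h => hp (h ▸ h3L)⟩
  choose A hA using fun p : Nat.Primes => FLTAgent.Density.exists_liesOverPrime p.2
  choose φ hφ using fun p : Nat.Primes => FLTAgent.Density.exists_isFrobeniusAt (A p) p.2 (hA p)
  let β : ℕ → ℤ√(-2) := fun p => if hp : p.Prime then liftTrace (D.ρ (φ ⟨p, hp⟩)) else 0
  set a : ℕ → ℂ := fun n => ModularFormClass.qCoeff f n with hadef
  have hrel : GoodRel L (fun q => ι (β q)) a := by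
    intro q hq hqL n
    obtain ⟨hqN, hq3⟩ := hgood q hqL
    obtain ⟨h1, h2⟩ := hι q hq hqN hq3 (A ⟨q, hq⟩) (hA ⟨q, hq⟩) (φ ⟨q, hq⟩) (hφ ⟨q, hq⟩)
    simp only [β, dif_pos hq]
    rw [← h1, ← h2]
    exact hT q hq hqN n
  have hisCF : IsCF 1 (Gamma1 L) (⇑f) :=
    have hcf := isCF_of_cuspForm f
    ⟨hcf.1.mono (gamma1_le_of_dvd (Nat.dvd_lcm_left _ _)), hcf.2⟩
  have hchi : ChiForm L ⇑f := ⟨h3L, hisCF, fun γ hγ => slash_of_goodRel h3L hisCF hrel hγ⟩
  obtain ⟨M, g, hM0, hLM, hpr, hcubeM, hg, hcoef⟩ :=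
    exists_depleted hL0 hchi L.primeFactors subset_rfl
  have : NeZero M := ⟨hM0⟩
  let P : ℕ → Prop := fun n => ∀ q ∈ L.primeFactors, ¬ q ∣ n
  have hP0 : ¬ P 0 := fun h => h 3 (Nat.mem_primeFactors.mpr ⟨Nat.prime_three, h3L, hL0⟩)
    (dvd_zero 3)
  have hval : ∀ n, P n → ∃ z : ℤ√(-2), ι z = a n := by
    intro n
    induction n using Nat.strong_induction_on with
    | _ n IH =>
      intro hn
      rcases eq_or_ne n 0 with rfl | hn0
      · exact absurd hn hP0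
      rcases eq_or_ne n 1 with rfl | hn1
      · exact ⟨1, by rw [map_one]; exact hf1.symm⟩
      obtain ⟨q, hq, m, rfl⟩ := Nat.exists_prime_and_dvd hn1
      have hm0 : m ≠ 0 := right_ne_zero_of_mul hn0
      have hqL : ¬ q ∣ L := fun h =>
        hn q (Nat.mem_primeFactors.mpr ⟨hq, h, hL0⟩) (dvd_mul_right q m)
      have hm : m < q * m := lt_mul_of_one_lt_left (Nat.pos_of_ne_zero hm0) hq.one_lt
      have hPm : P m := fun r hr hrm => hn r hr (hrm.trans (dvd_mul_left m q))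
      obtain ⟨z, hz⟩ := IH m hm hPm
      have h := hrel q hq hqL m
      by_cases hqm : q ∣ m
      · obtain ⟨z', hz'⟩ := IH (m / q) (lt_of_le_of_lt (Nat.div_le_self m q) hm)
          fun r hr hrm => hPm r hr (hrm.trans (Nat.div_dvd_of_dvd hqm))
        refine ⟨β q * z - ((chiNegThree q : ℤ) : ℤ√(-2)) * z', ?_⟩
        rw [if_pos hqm] at h
        rw [map_sub, map_mul, map_mul, map_intCast, hz, hz']
        linear_combination -h
      · refine ⟨β q * z, ?_⟩
        rw [if_neg hqm, mul_zero, add_zero] at h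
        rw [map_mul, hz, h]
  choose c hc using hval
  let b : ℕ → ℤ√(-2) := fun n => if h : P n then c n h else 0
  have hb : ∀ n, ι (b n) = ModularFormClass.qCoeff g n := fun n => by
    rw [hcoef]
    by_cases h : P n
    · simp only [b, dif_pos h, hc, if_pos (show ∀ q ∈ L.primeFactors, ¬ q ∣ n from h), hadef]
    · simp only [b, dif_neg h, map_zero, if_neg (show ¬ ∀ q ∈ L.primeFactors, ¬ q ∣ n from h)]
  have hbP : ∀ n, P n → ι (b n) = a n := fun n h => by simp only [b, dif_pos h, hc]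
  have hb0 : ∀ n, ¬ P n → b n = 0 := fun n h => by simp only [b, dif_neg h]
  have hP1 : P 1 := fun q hq h1 => (Nat.prime_of_mem_primeFactors hq).ne_one (Nat.dvd_one.mp h1)
  have hb1 : b 1 = 1 := iota_injective ι (by rw [hbP 1 hP1, map_one]; exact hf1)
  have hbq : ∀ q : ℕ, q.Prime → ¬ q ∣ L → b q = β q := fun q hq hqL => by
    have hPq : P q := fun r hr h => hqL
      ((Nat.prime_dvd_prime_iff_eq (Nat.prime_of_mem_primeFactors hr) hq).mp h ▸
        (Nat.mem_primeFactors.mp hr).2.1)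
    refine iota_injective ι ?_
    rw [hbP q hPq]
    have h := hrel q hq hqL 1
    rw [if_neg (fun h => hq.ne_one (Nat.dvd_one.mp h)), mul_zero, add_zero, mul_one] at h
    rw [h, show a 1 = 1 from hf1, mul_one]
  refine ⟨M, ⟨hM0⟩, ι, b, hg.isCF.toCF,
    ⟨⟨hg.three_dvd, fun γ hγ => ?_, fun n => ?_⟩, hb1, fun ℓ hℓ n => ?_⟩,
    fun q hq hq3 hbad => hcubeM q hq hq3 fun h => ?_, fun ℓ hℓ hℓM hℓ3 A' hA' σ hσ => ?_⟩
  · rw [IsCF.coe_toCF]; exact hg.nebentypus γ hγ
  · rw [IsCF.coe_toCF]; exact (hb n).symm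
  · by_cases hℓM : ℓ ∣ M
    · have hℓs : ℓ ∈ L.primeFactors := Nat.mem_primeFactors.mpr ⟨hℓ, (hpr ℓ hℓ).mp hℓM, hL0⟩
      rw [weightOneEuler, if_pos hℓM, zero_mul, add_zero,
        hb0 ℓ (fun h => h ℓ hℓs dvd_rfl), hb0 _ (fun h => h ℓ hℓs (dvd_mul_right ℓ n)), zero_mul]
    · have hℓL : ¬ ℓ ∣ L := fun h => hℓM ((hpr ℓ hℓ).mpr h)
      have hiff : ∀ m, P (ℓ * m) ↔ P m := fun m =>
        ⟨fun h r hr hrm => h r hr (hrm.trans (dvd_mul_left m ℓ)), fun h r hr hrm => by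
          rcases (Nat.prime_of_mem_primeFactors hr).dvd_mul.mp hrm with h1 | h1
          · exact hℓL ((Nat.prime_dvd_prime_iff_eq (Nat.prime_of_mem_primeFactors hr) hℓ).mp h1 ▸
              (Nat.mem_primeFactors.mp hr).2.1)
          · exact h r hr h1⟩
      rw [weightOneEuler, if_neg hℓM, hbq ℓ hℓ hℓL]
      by_cases hn : P n
      · refine iota_injective ι ?_
        rw [map_add, map_mul, map_mul, map_intCast, hbP _ ((hiff n).mpr hn), hbP n hn]
        by_cases hd : ℓ ∣ n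
        · rw [if_pos hd, hbP (n / ℓ) fun r hr h => hn r hr (h.trans (Nat.div_dvd_of_dvd hd))]
          have h := hrel ℓ hℓ hℓL n
          rw [if_pos hd] at h
          exact h
        · rw [if_neg hd, map_zero, mul_zero, add_zero]
          have h := hrel ℓ hℓ hℓL n
          rw [if_neg hd, mul_zero, add_zero] at h
          exact h
      · rw [hb0 _ (mt (hiff n).mp hn), hb0 n hn]
        split_ifs with hd
        · obtain ⟨m, rfl⟩ := hd
          rw [Nat.mul_div_cancel_left _ hℓ.pos, hb0 m (mt (hiff m).mpr hn)]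
          simp
        · simp
  · rcases prime_pow_dvd_lcm hq (NeZero.ne N) (by norm_num) h with h | h
    · exact hcube q hq hq3 hbad h
    · exact hq3 ((Nat.prime_dvd_prime_iff_eq hq Nat.prime_three).mp
        ((dvd_pow_self q (by norm_num)).trans h))
  · have hℓL : ¬ ℓ ∣ L := fun h => hℓM ((hpr ℓ hℓ).mpr h)
    obtain ⟨hℓN, -⟩ := hgood ℓ hℓL
    have h1 := (hι ℓ hℓ hℓN hℓ3 A' hA' σ hσ).1
    have h2 := (hι ℓ hℓ hℓN hℓ3 _ (hA ⟨ℓ, hℓ⟩) _ (hφ ⟨ℓ, hℓ⟩)).1
    rw [hbq ℓ hℓ hℓL]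
    simp only [β, dif_pos hℓ]
    exact iota_injective ι (h2.symm.trans h1)

end FLTAgent.WeightOneWiring
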