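import Fermat.Agent.LanglandsTunnell.Assembly
import Fermat.Agent.WeightOneWiring.FullSystem

/-!
# The weight one eigensystem of a semistable curve

The weight one form of a semistable curve, depleted at the primes of its level, gives a full
integral eigensystem congruent to the traces of the curve.
Main result: `exists_eigensystem_congruent`.
-/

set_option autoImplicit false

noncomputable section

open CongruenceSubgroup EisensteinWeightOne FLT.ExplicitLift
open scoped MatrixGroups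

namespace FLTAgent.WeightOneWiring

open FLTAgent.LanglandsTunnell FLTAgent.MFIntegral

/-- The integral weight one eigensystem congruent to the traces of a semistable curve. -/
theorem exists_eigensystem_congruent (W : WeierstrassCurve ℤ) (hΔ : W.Δ ≠ 0)
    (hW : W.IsSemistableModel)
    (h3 : W.ModRepIsIrreducible 3) :
    ∃ (N : ℕ) (_ : NeZero N) (a : ℕ → ℤ),
      CuspForm.HasIntegralBasis N ∧
      FormalHecke.IsEigensystem (weightOneEuler ℤ N) a ∧
      CuspForm.IsLatticeRealized N a ∧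
      (∀ q : ℕ, q.Prime → q ≠ 3 → ¬ q ^ 3 ∣ N) ∧
      ∀ ℓ : ℕ, ℓ.Prime → W.IsGoodPrimeFor ℓ → ¬ ℓ ∣ N → ℓ ≠ 3 →
        (3 : ℤ) ∣ (a ℓ - W.apOfModel ℓ) := by
  obtain ⟨D, hD⟩ := exists_datum W hΔ hW h3
  obtain ⟨M, hM, ι, b, g, hsys, hcube, htr⟩ :=
    exists_system deligneSerreInput D (exists_weightOneForm D)
  obtain ⟨a, ha, hreal, hab⟩ := exists_latticeRealized hsys
  refine ⟨M, hM, a, hasIntegralBasis M, ha, hreal, fun q hq hq3 => hcube q hq hq3 (hD.2.2 q),
    fun ℓ hℓ hgood hℓM hℓ3 => ?_⟩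
  obtain ⟨A, hA⟩ := FLTAgent.Density.exists_liesOverPrime hℓ
  obtain ⟨σ, hσ⟩ := FLTAgent.Density.exists_isFrobeniusAt A hℓ hA
  refine (ZMod.intCast_zmod_eq_zero_iff_dvd _ 3).mp ?_
  rw [Int.cast_sub, hab, htr ℓ hℓ hℓM hℓ3 A hA σ hσ, ← trace_psiLift,
    red_trace_eq (map_red_psiLift _),
    (hD.1 ℓ hℓ hgood hℓ3 A hA).2 σ hσ, sub_self]

end FLTAgent.WeightOneWiring
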