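import Fermat.Agent.WeightOneWiring.Descend
import Fermat.Agent.Newforms.Slash

/-!
# Depletion of weight one forms

Removing the Euler factor at a prime from a weight one form with nebentypus `χ₋₃`:
`f ↦ f - ∑ j, f ∣ (q j; 0 q)` keeps the coefficients prime to `q` and has level `lcm (N, q²)`.
Main results: `chiForm_depleteAt`, `qCoeff_depleteAt`.
-/

set_option autoImplicit false

noncomputable section

open CongruenceSubgroup UpperHalfPlane OnePoint Matrix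
open scoped MatrixGroups ModularForm Manifold

namespace FLTAgent.WeightOneWiring

open FLTAgent.MFIntegral FLTAgent.Newforms

/-- A cusp form of weight one, level `N` and nebentypus `χ₋₃`, as a function. -/
structure ChiForm (N : ℕ) (f : ℍ → ℂ) : Prop where
  three_dvd : 3 ∣ N
  isCF : IsCF 1 (Gamma1 N) f
  nebentypus : ∀ γ : SL(2, ℤ), γ ∈ Gamma0 N → f ∣[(1 : ℤ)] γ = (chiInt (γ 1 1) : ℂ) • f

/-- The translation by `j / q`, scaled. -/
def shiftMat (q j : ℕ) : IMat := !![(q : ℤ), (j : ℤ); 0, (q : ℤ)]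

theorem det_shiftMat_pos {q : ℕ} (hq : 0 < q) (j : ℕ) : 0 < (shiftMat q j).det := by
  rw [shiftMat, Matrix.det_fin_two_of, mul_zero, sub_zero]
  exact mul_pos (by exact_mod_cast hq) (by exact_mod_cast hq)

/-- `f` with the Euler factor at `q` removed. -/
def depleteAt (q : ℕ) (f : ℍ → ℂ) : ℍ → ℂ :=
  f - ∑ j : Fin q, f ∣[(1 : ℤ)] intGL (shiftMat q j)

theorem chiInt_congr {d d' : ℤ} (h : (3 : ℤ) ∣ d' - d) : chiInt d' = chiInt d := by
  rw [chiInt, chiInt, show d' % 3 = d % 3 from Int.emod_eq_emod_iff_emod_sub_eq_zero.mpr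
    (Int.emod_eq_zero_of_dvd h)]

theorem smul_slash_intGL_one {A : IMat} (h : 0 < A.det) (c : ℂ) (f : ℍ → ℂ) :
    (c • f) ∣[(1 : ℤ)] intGL A = c • (f ∣[(1 : ℤ)] intGL A) := by
  rw [ModularForm.smul_slash, σ_intGL h]
  rfl

theorem slash_SL_eq_intGL (f : ℍ → ℂ) (γ : SL(2, ℤ)) :
    f ∣[(1 : ℤ)] γ = f ∣[(1 : ℤ)] intGL γ.1 := by
  have e : (γ : GL (Fin 2) ℝ) = intGL γ.1 := by
    refine Units.ext ?_
    rw [val_intGL (by rw [γ.2]; exact one_ne_zero)]
    ext i j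
    simp
  rw [ModularForm.SL_slash, e]

/-- Moving an element of `Γ₀(q²)` past a translation. -/
theorem exists_shift_commute {q : ℕ} (hq : q ≠ 0) {γ : SL(2, ℤ)} {c₀ : ℤ}
    (hc : γ.1 1 0 = (q : ℤ) * q * c₀) (j j' : ℕ)
    (hj : (q : ℤ) ∣ (j : ℤ) * γ.1 1 1 - γ.1 0 0 * j') :
    ∃ γ' : SL(2, ℤ), shiftMat q j * γ.1 = γ'.1 * shiftMat q j' ∧ γ'.1 1 0 = γ.1 1 0 ∧
      γ'.1 1 1 = γ.1 1 1 - q * c₀ * j' := by
  obtain ⟨t, ht⟩ := hj
  set M : IMat := !![γ.1 0 0 + j * q * c₀, γ.1 0 1 + t - j * j' * c₀;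
    γ.1 1 0, γ.1 1 1 - q * c₀ * j'] with hM
  have h00 : (q : ℤ) * γ.1 0 0 + j * γ.1 1 0 =
      (γ.1 0 0 + j * q * c₀) * q + (γ.1 0 1 + t - j * j' * c₀) * 0 := by rw [hc]; ring
  have h01 : (q : ℤ) * γ.1 0 1 + j * γ.1 1 1 =
      (γ.1 0 0 + j * q * c₀) * j' + (γ.1 0 1 + t - j * j' * c₀) * q := by linear_combination ht
  have h10 : (0 : ℤ) * γ.1 0 0 + q * γ.1 1 0 =
      γ.1 1 0 * q + (γ.1 1 1 - q * c₀ * j') * 0 := by ring
  have h11 : (0 : ℤ) * γ.1 0 1 + q * γ.1 1 1 =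
      γ.1 1 0 * j' + (γ.1 1 1 - q * c₀ * j') * q := by rw [hc]; ring
  have hmul : shiftMat q j * γ.1 = M * shiftMat q j' := by
    conv_lhs => rw [shiftMat, eta_fin_two γ.1, Matrix.mul_fin_two, h00, h01, h10, h11]
    rw [shiftMat, hM, Matrix.mul_fin_two]
  have hdet : M.det = 1 := by
    have h := congrArg Matrix.det hmul
    have hd : ∀ i : ℕ, (shiftMat q i).det = (q : ℤ) * q := fun i => by
      rw [shiftMat, Matrix.det_fin_two_of, mul_zero, sub_zero]
    rw [Matrix.det_mul, Matrix.det_mul, γ.2, mul_one, hd, hd] at h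
    have hq' : ((q : ℤ) * q) ≠ 0 := mul_ne_zero (by exact_mod_cast hq) (by exact_mod_cast hq)
    refine mul_right_cancel₀ hq' ?_
    linear_combination -h
  exact ⟨⟨M, hdet⟩, hmul, rfl, rfl⟩

theorem sum_shift_slash {N N' c : ℕ} [NeZero c] {f : ℍ → ℂ} (hf : ChiForm N f) (hN : N ∣ N')
    (hc2 : c ^ 2 ∣ N') (w : ZMod c → ℂ) (hw : ∀ d, IsUnit d → ∀ j, w (j * d * d) = w j)
    {γ : SL(2, ℤ)} (hγ : γ ∈ Gamma0 N') :
    (∑ j : ZMod c, w j • (f ∣[(1 : ℤ)] intGL (shiftMat c j.val))) ∣[(1 : ℤ)] γ =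
      (chiInt (γ 1 1) : ℂ) • ∑ j : ZMod c, w j • (f ∣[(1 : ℤ)] intGL (shiftMat c j.val)) := by
  have hdvd : (N' : ℤ) ∣ γ.1 1 0 := (ZMod.intCast_zmod_eq_zero_iff_dvd _ _).mp (Gamma0_mem.mp hγ)
  have hL : (N : ℤ) ∣ γ.1 1 0 := (Int.natCast_dvd_natCast.mpr hN).trans hdvd
  obtain ⟨c₀, hc₀⟩ : ((c : ℤ) * c) ∣ γ.1 1 0 := by
    have h := (Int.natCast_dvd_natCast.mpr hc2).trans hdvd
    push_cast [pow_two] at h
    exact h
  have had : ((γ.1 0 0 : ℤ) : ZMod c) * ((γ.1 1 1 : ℤ) : ZMod c) = 1 := by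
    have := congrArg (Int.cast : ℤ → ZMod c) ((Matrix.det_fin_two γ.1).symm.trans γ.2)
    push_cast [hc₀] at this
    simpa using this
  let σ : ZMod c ≃ ZMod c :=
    { toFun := fun j => j * ((γ.1 1 1 : ℤ) : ZMod c) * ((γ.1 1 1 : ℤ) : ZMod c)
      invFun := fun j => j * ((γ.1 0 0 : ℤ) : ZMod c) * ((γ.1 0 0 : ℤ) : ZMod c)
      left_inv := fun j => by
        linear_combination (j * ((γ.1 0 0 : ℤ) : ZMod c) * ((γ.1 1 1 : ℤ) : ZMod c) + j) * had
      right_inv := fun j => by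
        linear_combination (j * ((γ.1 0 0 : ℤ) : ZMod c) * ((γ.1 1 1 : ℤ) : ZMod c) + j) * had }
  have hterm : ∀ j : ZMod c,
      (w j • (f ∣[(1 : ℤ)] intGL (shiftMat c j.val))) ∣[(1 : ℤ)] γ =
        (chiInt (γ 1 1) : ℂ) •
          (w (σ j) • (f ∣[(1 : ℤ)] intGL (shiftMat c (σ j).val))) := by
    intro j
    have hj : (c : ℤ) ∣ (j.val : ℤ) * γ.1 1 1 - γ.1 0 0 * ((σ j).val : ℤ) := by
      rw [← ZMod.intCast_zmod_eq_zero_iff_dvd]
      push_cast
      rw [ZMod.natCast_zmod_val, ZMod.natCast_zmod_val]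
      show j * _ - _ * (j * _ * _) = 0
      linear_combination -(j * ((γ.1 1 1 : ℤ) : ZMod c)) * had
    obtain ⟨γ', hmul, hc', hd'⟩ :=
      exists_shift_commute (NeZero.ne c) hc₀ j.val (σ j).val hj
    have hγ' : γ' ∈ Gamma0 N := by
      rw [Gamma0_mem, hc', ZMod.intCast_zmod_eq_zero_iff_dvd]
      exact hL
    have hd3 : chiInt (γ'.1 1 1) = chiInt (γ.1 1 1) := by
      refine chiInt_congr ?_
      rw [hd', sub_sub_cancel_left]
      refine dvd_neg.mpr (dvd_mul_of_dvd_left ?_ _)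
      have h3 : (3 : ℤ) ∣ (c : ℤ) * c * c₀ :=
        hc₀ ▸ ((Int.natCast_dvd_natCast.mpr hf.three_dvd).trans hL)
      rcases Int.prime_three.dvd_or_dvd h3 with h | h
      · exact dvd_mul_of_dvd_left ((Int.prime_three.dvd_or_dvd h).elim id id) _
      · exact dvd_mul_of_dvd_right h _
    have hpos := det_shiftMat_pos (NeZero.pos c)
    rw [ModularForm.SL_smul_slash, slash_SL_eq_intGL, ← SlashAction.slash_mul,
      intGL_mul (hpos _).ne' (by rw [γ.2]; exact one_ne_zero), hmul,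
      ← intGL_mul (by rw [γ'.2]; exact one_ne_zero) (hpos _).ne', SlashAction.slash_mul,
      ← slash_SL_eq_intGL, hf.nebentypus γ' hγ', hd3, smul_slash_intGL_one (hpos _), smul_comm,
      show w (σ j) = w j from hw _ (IsUnit.of_mul_eq_one_right _ had) j]
  rw [SlashAction.sum_slash, Finset.sum_congr rfl fun j _ => hterm j, ← Finset.smul_sum]
  exact congrArg _ (σ.sum_comp fun j => w j • (f ∣[(1 : ℤ)] intGL (shiftMat c j.val)))

/-- Translates of a form vanish at every cusp. -/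
theorem isZeroAtImInfty_shift_slash {N c : ℕ} [NeZero N] [NeZero c] {f : ℍ → ℂ} (hf : ChiForm N f)
    (j : ℕ) (γ : SL(2, ℤ)) :
    IsZeroAtImInfty ((f ∣[(1 : ℤ)] intGL (shiftMat c j)) ∣[(1 : ℤ)] γ) := by
  have hpos := det_shiftMat_pos (NeZero.pos c) j
  rw [slash_SL_eq_intGL, ← SlashAction.slash_mul,
    intGL_mul hpos.ne' (by rw [γ.2]; exact one_ne_zero)]
  refine (isZeroAt_infty_iff (k := 1)).mp (OnePoint.IsZeroAt.smul_iff.mp ?_)
  refine CuspFormClass.zero_at_cusps hf.isCF.toCF ?_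
  refine (Subgroup.IsArithmetic.isCusp_iff_isCusp_SL2Z _).mpr (isCusp_intGL_smul ?_ _)
  exact isCusp_SL2Z_iff'.mpr ⟨1, by simp⟩

theorem chiInt_eq_one_of_mem_gamma1 {N : ℕ} (h3 : 3 ∣ N) {γ : SL(2, ℤ)} (hγ : γ ∈ Gamma1 N) :
    chiInt (γ 1 1) = 1 := by
  have h : (N : ℤ) ∣ γ.1 1 1 - 1 := by
    rw [← ZMod.intCast_zmod_eq_zero_iff_dvd]
    push_cast
    rw [((Gamma1_mem N γ).mp hγ).2.1, sub_self]
  rw [chiInt_congr ((Int.natCast_dvd_natCast.mpr h3).trans h)]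
  rfl

theorem chiForm_depleteAt {N N' q : ℕ} [NeZero N] [NeZero N'] (hq : q.Prime) {f : ℍ → ℂ}
    (hf : ChiForm N f) (hN : N ∣ N') (hq2 : q ^ 2 ∣ N') : ChiForm N' (depleteAt q f) := by
  have hN0 : ∀ γ : SL(2, ℤ), γ ∈ Gamma0 N' → γ ∈ Gamma0 N := fun γ hγ => by
    rw [Gamma0_mem, ZMod.intCast_zmod_eq_zero_iff_dvd] at hγ ⊢
    exact (Int.natCast_dvd_natCast.mpr hN).trans hγ
  have : NeZero q := ⟨hq.ne_zero⟩
  have hneb : ∀ γ : SL(2, ℤ), γ ∈ Gamma0 N' →
      depleteAt q f ∣[(1 : ℤ)] γ = (chiInt (γ 1 1) : ℂ) • depleteAt q f := fun γ hγ => by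
    simp only [depleteAt]
    have hre : ∑ j : Fin q, f ∣[(1 : ℤ)] intGL (shiftMat q j) =
        ∑ j : ZMod q, (1 : ℂ) • (f ∣[(1 : ℤ)] intGL (shiftMat q j.val)) := by
      obtain ⟨m, rfl⟩ := Nat.exists_eq_succ_of_ne_zero hq.ne_zero
      simp only [one_smul]
      rfl
    have h := sum_shift_slash hf hN hq2 (fun _ => (1 : ℂ)) (fun _ _ _ => rfl) hγ
    rw [sub_eq_add_neg, SlashAction.add_slash, neg_slash_SL, hre, h,
      hf.nebentypus γ (hN0 γ hγ), smul_add, smul_neg]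
  have hzero : ∀ γ : SL(2, ℤ), IsZeroAtImInfty (depleteAt q f ∣[(1 : ℤ)] γ) := by
    intro γ
    simp only [depleteAt]
    rw [sub_eq_add_neg, SlashAction.add_slash, neg_slash_SL, SlashAction.sum_slash]
    refine (hf.isCF.2 γ).add (Filter.ZeroAtFilter.neg ?_)
    exact (Filter.zeroAtFilterSubmodule ℂ UpperHalfPlane.atImInfty).sum_mem fun j _ =>
      isZeroAtImInfty_shift_slash hf j γ
  refine ⟨hf.three_dvd.trans hN, ⟨⟨fun γ hγ => ?_, ?_, fun γ => (hzero γ).boundedAtFilter⟩, hzero⟩,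
    hneb⟩
  · rw [hneb γ (Gamma1_in_Gamma0 N' hγ),
      chiInt_eq_one_of_mem_gamma1 (hf.three_dvd.trans hN) hγ, Int.cast_one, one_smul]
  · exact hf.isCF.1.holo.sub (MDifferentiable.sum fun j _ => hf.isCF.1.holo.slash 1 _)

/-- The `q`-expansion at infinity of a form. -/
theorem hasSum_chiForm {N : ℕ} [NeZero N] {f : ℍ → ℂ} (hf : ChiForm N f) (τ : ℍ) :
    HasSum (fun n : ℕ => ModularFormClass.qCoeff f n *
      Complex.exp (2 * Real.pi * Complex.I * n * (τ : ℂ))) (f τ) := by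
  have hsum := ModularForm.hasSum_qExpansion (f := hf.isCF.toCF)
    (h := 1) one_pos (by simp) τ
  rw [IsCF.coe_toCF] at hsum
  refine hsum.congr_fun fun n => ?_
  show ModularFormClass.qCoeff f n * _ = (PowerSeries.coeff n) (qExpansion 1 f) * _
  rw [Function.Periodic.qParam, ← Complex.exp_nat_mul]
  congr 2
  push_cast
  ring

theorem qCoeff_depleteAt {N N' q : ℕ} [NeZero N] [NeZero N'] (hq : q.Prime) {f : ℍ → ℂ}
    (hf : ChiForm N f) (hN : N ∣ N') (hq2 : q ^ 2 ∣ N') (n : ℕ) :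
    ModularFormClass.qCoeff (depleteAt q f) n =
      if q ∣ n then 0 else ModularFormClass.qCoeff f n := by
  have hg := chiForm_depleteAt hq hf hN hq2
  have hqC : (q : ℂ) ≠ 0 := Nat.cast_ne_zero.mpr hq.ne_zero
  symm
  refine ModularFormClass.qExpansion_coeff_unique (f := hg.isCF.toCF)
    (c := fun n => if q ∣ n then 0 else ModularFormClass.qCoeff f n)
    (Γ := (Gamma1 N' : Subgroup (GL (Fin 2) ℝ))) (k := (1 : ℤ)) one_pos (by simp) (fun τ => ?_) n
  rw [IsCF.coe_toCF]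
  set E : ℂ → ℕ → ℂ := fun z n => Complex.exp (2 * Real.pi * Complex.I * n * z) with hE
  have hshift : ∀ j : Fin q, HasSum
      (fun n : ℕ => (q : ℂ)⁻¹ * (ModularFormClass.qCoeff f n * E ((τ : ℂ) + (j : ℂ) / q) n))
      ((f ∣[(1 : ℤ)] intGL (shiftMat q j)) τ) := by
    intro j
    have hpos := det_shiftMat_pos hq.pos j
    set A := intGL (shiftMat q j) with hA
    have hAv : (A : Matrix (Fin 2) (Fin 2) ℝ) = (shiftMat q j).map (Int.castRingHom ℝ) :=
      val_intGL hpos.ne'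
    have hden : denom A τ = q := by
      simp [denom, hAv]
      simp [shiftMat]
    have hτ : ((A • τ : ℍ) : ℂ) = (τ : ℂ) + (j : ℂ) / q := by
      rw [coe_smul_of_det_pos (by rw [hA, det_intGL hpos.ne']; exact_mod_cast hpos), hden, num]
      simp [hAv, shiftMat]
      field_simp
    have hval : (f ∣[(1 : ℤ)] A) τ = (q : ℂ)⁻¹ * f (A • τ) := by
      rw [ModularForm.slash_apply, hA, σ_intGL hpos, ← hA, hden]
      simp [mul_comm]
    rw [hval]
    exact ((hasSum_chiForm hf (A • τ)).mul_left _).congr_fun fun n => by simp [hE, hτ]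
  have hgeom : ∀ n : ℕ,
      ∑ j : Fin q, E ((τ : ℂ) + (j : ℂ) / q) n = if q ∣ n then (q : ℂ) * E τ n else 0 := by
    intro n
    set ζ : ℂ := Complex.exp (2 * Real.pi * Complex.I * n / q) with hζ
    have e : ∀ j : Fin q, E ((τ : ℂ) + (j : ℂ) / q) n = E τ n * ζ ^ (j : ℕ) := fun j => by
      simp only [hE, hζ]
      rw [← Complex.exp_nat_mul, ← Complex.exp_add]
      congr 1
      ring
    simp only [e, ← Finset.mul_sum]
    rw [Fin.sum_univ_eq_sum_range fun j => ζ ^ j]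
    have hζ1 : ζ = 1 ↔ q ∣ n := by
      rw [hζ, Complex.exp_eq_one_iff]
      constructor
      · rintro ⟨m, hm⟩
        have h2 : (2 * Real.pi * Complex.I) * ((n : ℂ) - m * q) = 0 := by
          field_simp at hm
          linear_combination (2 * Real.pi * Complex.I) * hm
        have h3 : (n : ℂ) = m * q := sub_eq_zero.mp ((mul_eq_zero.mp h2).resolve_left
          (by simp [Real.pi_ne_zero, Complex.I_ne_zero]))
        exact Int.natCast_dvd_natCast.mp ⟨m, by rw [mul_comm]; exact_mod_cast h3⟩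
      · rintro ⟨m, rfl⟩
        exact ⟨(m : ℤ), by push_cast; field_simp⟩
    split_ifs with h
    · simp [hζ1.mpr h, mul_comm]
    · have hpow : ζ ^ q = 1 := by
        rw [hζ, ← Complex.exp_nat_mul, Complex.exp_eq_one_iff]
        exact ⟨(n : ℤ), by push_cast; field_simp⟩
      rw [geom_sum_eq (mt hζ1.mp h), hpow, sub_self, zero_div, mul_zero]
  have hall := (hasSum_chiForm hf τ).sub (hasSum_sum (s := Finset.univ) fun j _ => hshift j)
  simp only [depleteAt, Pi.sub_apply, Finset.sum_apply]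
  refine hall.congr_fun fun n => ?_
  simp only [← Finset.mul_sum, hgeom, smul_eq_mul]
  rw [Function.Periodic.qParam, ← Complex.exp_nat_mul]
  simp only [hE]
  push_cast
  split_ifs with h
  · field_simp
    ring
  · rw [mul_zero, mul_zero, sub_zero, div_one]
    congr 2
    ring

end FLTAgent.WeightOneWiring
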