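import Fermat.Agent.DeligneSerre.EisensteinOne
import Fermat.Agent.WeightOneWiring.Core

/-!
# The weight one Eisenstein series at level three

`E₁(χ₋₃) = 1 + 6 Σ σ_χ(n) qⁿ` as a weight one form on `Γ₀(3)` with nebentypus `χ₋₃`.
Main results: `eisChi_isMF`, `hasSum_eisChi`, `eisChi_slash`.
-/

set_option autoImplicit false

noncomputable section

open UpperHalfPlane CongruenceSubgroup EisensteinWeightOne
open scoped MatrixGroups ModularForm

namespace FLTAgent.WeightOneWiring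

open FLTAgent.DeligneSerre FLTAgent.MFIntegral

/-- `E₁(χ₋₃)`. -/
def eisChi : ℍ → ℂ := (6 : ℂ) • divForm 3 1

theorem not_dvd_one : ¬ ((3 : ℕ) : ℤ) ∣ (1 : ℤ) := by decide

theorem eisChi_isMF : IsMF 1 (Gamma1 3) eisChi := (divForm_isMF not_dvd_one).smul 6

theorem divFormCoeff_eq_sigmaChi {n : ℕ} (hn : n ≠ 0) : divFormCoeff 3 1 n = sigmaChi n := by
  rw [divFormCoeff, if_neg hn, sigmaChi, Finset.natCast_card_filter, Finset.natCast_card_filter,
    ← Finset.sum_sub_distrib]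
  refine Finset.sum_congr rfl fun d _ => ?_
  rw [chiNegThree]
  have : d % 3 < 3 := Nat.mod_lt _ (by norm_num)
  split_ifs <;> omega

theorem hasSum_eisChi (τ : ℍ) :
    HasSum (fun n : ℕ => ((PowerSeries.coeff n e1Chi3 : ℤ) : ℂ) •
      Function.Periodic.qParam (1 : ℝ) τ ^ n) (eisChi τ) := by
  refine ((hasSum_divForm (N := 3) (a := 1) one_pos (by norm_num) τ).const_smul (6 : ℂ)).congr_fun
    fun n => ?_
  rw [e1Chi3, PowerSeries.coeff_mk, smul_smul]
  congr 1
  split_ifs with hn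
  · norm_num
  · rw [divFormCoeff_eq_sigmaChi hn]; push_cast; ring

theorem coeff_qE_eisChi (n : ℕ) :
    PowerSeries.coeff n (qE eisChi) = ((PowerSeries.coeff n e1Chi3 : ℤ) : ℂ) :=
  (ModularFormClass.qExpansion_coeff_unique (f := eisChi_isMF.toMF)
    (Γ := (Gamma1 3 : Subgroup (GL (Fin 2) ℝ))) (k := (1 : ℤ)) one_pos
    (by simp) hasSum_eisChi n).symm

theorem divForm_three_two : divForm 3 2 = -divForm 3 1 := by
  funext τ
  have h1 := hasSum_divForm (N := 3) (a := 1) one_pos (by norm_num) τ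
  have h2 := hasSum_divForm (N := 3) (a := 2) two_pos (by norm_num) τ
  refine h2.unique (h1.neg.congr_fun fun n => ?_)
  simp only [smul_eq_mul, ← neg_mul]
  congr 1
  simp only [divFormCoeff, show 3 - 2 = 1 from rfl, show 3 - 1 = 2 from rfl]
  split_ifs with hn
  · norm_num
  · push_cast; ring

theorem chiInt_of_emod {d : ℤ} (h : d % 3 = 1 ∨ d % 3 = 2) :
    chiInt d = if d % 3 = 1 then 1 else -1 := by
  rcases h with h | h <;> rw [chiInt, h] <;> decide

theorem eisChi_slash {γ : SL(2, ℤ)} (hγ : γ ∈ Gamma0 3) :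
    eisChi ∣[(1 : ℤ)] γ = (chiInt (γ 1 1) : ℂ) • eisChi := by
  have hmod : γ 0 0 * γ 1 1 % 3 = 1 := by
    have hdet : γ 0 0 * γ 1 1 - γ 0 1 * γ 1 0 = 1 := (Matrix.det_fin_two γ.1).symm.trans γ.2
    rw [Gamma0_mem, ZMod.intCast_zmod_eq_zero_iff_dvd] at hγ
    obtain ⟨r, hr⟩ := hγ
    rw [show γ 0 0 * γ 1 1 = 1 + ((3 : ℕ) : ℤ) * (γ 0 1 * r) by
      linear_combination hdet + γ 0 1 * hr]
    push_cast
    omega
  rw [eisChi, ModularForm.SL_smul_slash, divForm_slash_Gamma0 not_dvd_one hγ, one_mul]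
  rw [Int.mul_emod] at hmod
  have h0 : 0 ≤ γ 0 0 % 3 := Int.emod_nonneg _ (by norm_num)
  have h0' : γ 0 0 % 3 < 3 := Int.emod_lt_of_pos _ (by norm_num)
  have h1 : 0 ≤ γ 1 1 % 3 := Int.emod_nonneg _ (by norm_num)
  have h1' : γ 1 1 % 3 < 3 := Int.emod_lt_of_pos _ (by norm_num)
  generalize ha : γ 0 0 % 3 = a at hmod h0 h0'
  generalize hd : γ 1 1 % 3 = d at hmod h1 h1'
  interval_cases a <;> interval_cases d <;> (try norm_num at hmod)
  · rw [divForm_congr (N := 3) (a := 1) not_dvd_one (b := γ 0 0) (by omega),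
      chiInt_of_emod (Or.inl hd), if_pos hd, Int.cast_one, one_smul]
  · rw [divForm_congr (N := 3) (a := 2) (by decide) (b := γ 0 0) (by omega),
      chiInt_of_emod (Or.inr hd), if_neg (by omega), divForm_three_two, Int.cast_neg, Int.cast_one,
      neg_one_smul, smul_neg]

end FLTAgent.WeightOneWiring
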