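import Mathlib
import Fermat.Agent.Eigenforms.Recursion

/-!
# Integral lifts of eigensystems

An eigensystem modulo a number lifts to an integral eigensystem with the same Euler factors.
Main result: `exists_integral_lift`.
-/

set_option autoImplicit false

namespace FLTAgent.WeightOneWiring

/-- The sequence `s₀ = 1, s₁ = x, s_{r+2} = x s_{r+1} - e s_r`. -/
def eulerSeq (e x : ℤ) : ℕ → ℤ
  | 0 => 1
  | 1 => x
  | r + 2 => x * eulerSeq e x (r + 1) - e * eulerSeq e x r

/-- The multiplicative sequence with prime values `x`. -/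
def eulerMul (e x : ℕ → ℤ) (n : ℕ) : ℤ :=
  if n = 0 then 0 else n.factorization.prod fun p r => eulerSeq (e p) (x p) r

theorem eulerMul_pow (e x : ℕ → ℤ) {p : ℕ} (hp : p.Prime) (r : ℕ) :
    eulerMul e x (p ^ r) = eulerSeq (e p) (x p) r := by
  rw [eulerMul, if_neg (pow_ne_zero r hp.ne_zero), hp.factorization_pow,
    Finsupp.prod_single_index]
  rfl

theorem eulerMul_mul (e x : ℕ → ℤ) {m n : ℕ} (h : m.Coprime n) :
    eulerMul e x (m * n) = eulerMul e x m * eulerMul e x n := by
  rcases eq_or_ne m 0 with rfl | hm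
  · simp [eulerMul]
  rcases eq_or_ne n 0 with rfl | hn
  · simp [eulerMul]
  rw [eulerMul, eulerMul, eulerMul, if_neg (mul_ne_zero hm hn), if_neg hm, if_neg hn,
    Nat.factorization_mul_of_coprime h,
    Finsupp.prod_add_index_of_disjoint (Nat.Coprime.disjoint_primeFactors h)]

theorem eulerMul_isEigensystem (e x : ℕ → ℤ) : FormalHecke.IsEigensystem e (eulerMul e x) := by
  refine Eigenforms.isEigensystem_of_isRecursive
    ⟨by simp [eulerMul], fun m n h => eulerMul_mul e x h, fun ℓ r hℓ => ?_⟩ (by simp [eulerMul])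
  have h1 : eulerMul e x ℓ = x ℓ := by simpa [eulerSeq] using eulerMul_pow e x hℓ 1
  rw [eulerMul_pow e x hℓ, eulerMul_pow e x hℓ, eulerMul_pow e x hℓ, h1, eulerSeq]

/-- An eigensystem in a quotient of `ℤ` is the reduction of an integral one. -/
theorem exists_integral_lift {S : Type*} [CommRing S] (φ : ℤ →+* S)
    (hφ : Function.Surjective φ) (e : ℕ → ℤ) (c : ℕ → S) (h0 : c 0 = 0)
    (hc : FormalHecke.IsEigensystem (fun ℓ => φ (e ℓ)) c) :
    ∃ a : ℕ → ℤ, FormalHecke.IsEigensystem e a ∧ ∀ n, φ (a n) = c n := by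
  choose x hx using fun n => hφ (c n)
  obtain ⟨hc1, hmul, hrec⟩ := Eigenforms.isRecursive_of_isEigensystem hc
  have hpow : ∀ p, p.Prime → ∀ r, φ (eulerSeq (e p) (x p) r) = c (p ^ r) := by
    intro p hp r
    induction r using Nat.twoStepInduction with
    | zero => simp [eulerSeq, hc1]
    | one => simp [eulerSeq, hx]
    | more r h1 h2 => rw [eulerSeq, map_sub, map_mul, map_mul, h1, h2, hx, hrec p r hp]
  refine ⟨eulerMul e x, eulerMul_isEigensystem e x, fun n => ?_⟩
  rcases eq_or_ne n 0 with rfl | hn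
  · simp [eulerMul, h0]
  rw [eulerMul, if_neg hn, map_finsuppProd, Nat.multiplicative_factorization c hmul hc1 hn]
  exact Finset.prod_congr rfl fun p hp => hpow p (Nat.prime_of_mem_primeFactors hp) _

end FLTAgent.WeightOneWiring
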