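import Mathlib
import Fermat.Prelude.Def_LanglandsTunnell_ExplicitLift

/-!
# The explicit octahedral lift

The octahedral lift: a multiplicative section of reduction `GL₂(ℤ[√-2]) → GL₂(𝔽₃)`, given by a
table on the `48` elements of `GL₂(𝔽₃)` and checked by computation.
Main definition: `psiLift`; main result: `map_red_psiLift`.
-/

set_option autoImplicit false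

open Matrix FLT.ExplicitLift

namespace FLTAgent.WeightOneWiring

/-- A `2 × 2` matrix over `ℤ[√-2]` as a tuple. -/
structure Quad where
  e00 : ℤ√(-2)
  e01 : ℤ√(-2)
  e10 : ℤ√(-2)
  e11 : ℤ√(-2)
  deriving DecidableEq

/-- The product of two tuples. -/
def Quad.times (x y : Quad) : Quad :=
  ⟨x.e00 * y.e00 + x.e01 * y.e10, x.e00 * y.e01 + x.e01 * y.e11,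
    x.e10 * y.e00 + x.e11 * y.e10, x.e10 * y.e01 + x.e11 * y.e11⟩

/-- The matrix of a tuple. -/
def Quad.toMatrix (x : Quad) : Matrix (Fin 2) (Fin 2) (ℤ√(-2)) := !![x.e00, x.e01; x.e10, x.e11]

theorem Quad.toMatrix_times (x y : Quad) : (x.times y).toMatrix = x.toMatrix * y.toMatrix := by
  rw [Quad.toMatrix, Quad.toMatrix, Quad.toMatrix, Matrix.mul_fin_two]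
  rfl

/-- The table of the lift. -/
def liftTable : ℕ → ℕ → ℕ → ℕ → Quad
  | 0, 1, 1, 0 => ⟨⟨-1, -1⟩, ⟨-1, 1⟩, ⟨-2, 0⟩, ⟨1, 1⟩⟩
  | 0, 1, 1, 1 => ⟨⟨0, 0⟩, ⟨1, 0⟩, ⟨1, 0⟩, ⟨0, -1⟩⟩
  | 0, 1, 1, 2 => ⟨⟨1, 1⟩, ⟨0, -1⟩, ⟨1, 0⟩, ⟨-1, 0⟩⟩
  | 0, 1, 2, 0 => ⟨⟨1, 1⟩, ⟨0, -1⟩, ⟨2, 0⟩, ⟨-1, -1⟩⟩
  | 0, 1, 2, 1 => ⟨⟨0, 0⟩, ⟨1, 0⟩, ⟨-1, 0⟩, ⟨1, 0⟩⟩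
  | 0, 1, 2, 2 => ⟨⟨-1, -1⟩, ⟨-1, 1⟩, ⟨-1, 0⟩, ⟨0, 1⟩⟩
  | 0, 2, 1, 0 => ⟨⟨-1, -1⟩, ⟨0, 1⟩, ⟨-2, 0⟩, ⟨1, 1⟩⟩
  | 0, 2, 1, 1 => ⟨⟨1, 1⟩, ⟨1, -1⟩, ⟨1, 0⟩, ⟨0, -1⟩⟩
  | 0, 2, 1, 2 => ⟨⟨0, 0⟩, ⟨-1, 0⟩, ⟨1, 0⟩, ⟨-1, 0⟩⟩
  | 0, 2, 2, 0 => ⟨⟨1, 1⟩, ⟨1, -1⟩, ⟨2, 0⟩, ⟨-1, -1⟩⟩
  | 0, 2, 2, 1 => ⟨⟨-1, -1⟩, ⟨0, 1⟩, ⟨-1, 0⟩, ⟨1, 0⟩⟩
  | 0, 2, 2, 2 => ⟨⟨0, 0⟩, ⟨-1, 0⟩, ⟨-1, 0⟩, ⟨0, 1⟩⟩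
  | 1, 0, 0, 1 => ⟨⟨1, 0⟩, ⟨0, 0⟩, ⟨0, 0⟩, ⟨1, 0⟩⟩
  | 1, 0, 0, 2 => ⟨⟨1, 0⟩, ⟨-1, -1⟩, ⟨0, 0⟩, ⟨-1, 0⟩⟩
  | 1, 0, 1, 1 => ⟨⟨-2, 0⟩, ⟨1, 1⟩, ⟨-1, 1⟩, ⟨1, 0⟩⟩
  | 1, 0, 1, 2 => ⟨⟨-2, 0⟩, ⟨1, 1⟩, ⟨-1, 1⟩, ⟨2, 0⟩⟩
  | 1, 0, 2, 1 => ⟨⟨1, 0⟩, ⟨-1, -1⟩, ⟨1, -1⟩, ⟨-2, 0⟩⟩
  | 1, 0, 2, 2 => ⟨⟨1, 0⟩, ⟨0, 0⟩, ⟨1, -1⟩, ⟨-1, 0⟩⟩
  | 1, 1, 0, 1 => ⟨⟨-1, 1⟩, ⟨1, 0⟩, ⟨1, 1⟩, ⟨0, -1⟩⟩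
  | 1, 1, 0, 2 => ⟨⟨0, -1⟩, ⟨-1, 1⟩, ⟨-1, -1⟩, ⟨0, 1⟩⟩
  | 1, 1, 1, 0 => ⟨⟨1, 0⟩, ⟨0, -1⟩, ⟨1, 0⟩, ⟨-1, -1⟩⟩
  | 1, 1, 1, 2 => ⟨⟨1, 0⟩, ⟨0, -1⟩, ⟨0, -1⟩, ⟨-1, 0⟩⟩
  | 1, 1, 2, 0 => ⟨⟨0, -1⟩, ⟨-1, 1⟩, ⟨-1, 0⟩, ⟨1, 1⟩⟩
  | 1, 1, 2, 1 => ⟨⟨-1, 1⟩, ⟨1, 0⟩, ⟨0, 1⟩, ⟨1, 0⟩⟩
  | 1, 2, 0, 1 => ⟨⟨0, -1⟩, ⟨-1, 0⟩, ⟨-1, -1⟩, ⟨-1, 1⟩⟩
  | 1, 2, 0, 2 => ⟨⟨-1, 1⟩, ⟨2, 0⟩, ⟨1, 1⟩, ⟨1, -1⟩⟩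
  | 1, 2, 1, 0 => ⟨⟨1, 0⟩, ⟨-1, 0⟩, ⟨1, 0⟩, ⟨0, 0⟩⟩
  | 1, 2, 1, 1 => ⟨⟨1, 0⟩, ⟨-1, 0⟩, ⟨0, -1⟩, ⟨-1, 1⟩⟩
  | 1, 2, 2, 0 => ⟨⟨0, -1⟩, ⟨-1, 0⟩, ⟨-1, 0⟩, ⟨0, 0⟩⟩
  | 1, 2, 2, 2 => ⟨⟨-1, 1⟩, ⟨2, 0⟩, ⟨0, 1⟩, ⟨1, -1⟩⟩
  | 2, 0, 0, 1 => ⟨⟨-1, 0⟩, ⟨1, 1⟩, ⟨0, 0⟩, ⟨1, 0⟩⟩
  | 2, 0, 0, 2 => ⟨⟨-1, 0⟩, ⟨0, 0⟩, ⟨0, 0⟩, ⟨-1, 0⟩⟩
  | 2, 0, 1, 1 => ⟨⟨-1, 0⟩, ⟨0, 0⟩, ⟨-1, 1⟩, ⟨1, 0⟩⟩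
  | 2, 0, 1, 2 => ⟨⟨-1, 0⟩, ⟨1, 1⟩, ⟨-1, 1⟩, ⟨2, 0⟩⟩
  | 2, 0, 2, 1 => ⟨⟨2, 0⟩, ⟨-1, -1⟩, ⟨1, -1⟩, ⟨-2, 0⟩⟩
  | 2, 0, 2, 2 => ⟨⟨2, 0⟩, ⟨-1, -1⟩, ⟨1, -1⟩, ⟨-1, 0⟩⟩
  | 2, 1, 0, 1 => ⟨⟨1, -1⟩, ⟨-2, 0⟩, ⟨-1, -1⟩, ⟨-1, 1⟩⟩
  | 2, 1, 0, 2 => ⟨⟨0, 1⟩, ⟨1, 0⟩, ⟨1, 1⟩, ⟨1, -1⟩⟩
  | 2, 1, 1, 0 => ⟨⟨0, 1⟩, ⟨1, 0⟩, ⟨1, 0⟩, ⟨0, 0⟩⟩
  | 2, 1, 1, 1 => ⟨⟨1, -1⟩, ⟨-2, 0⟩, ⟨0, -1⟩, ⟨-1, 1⟩⟩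
  | 2, 1, 2, 0 => ⟨⟨-1, 0⟩, ⟨1, 0⟩, ⟨-1, 0⟩, ⟨0, 0⟩⟩
  | 2, 1, 2, 2 => ⟨⟨-1, 0⟩, ⟨1, 0⟩, ⟨0, 1⟩, ⟨1, -1⟩⟩
  | 2, 2, 0, 1 => ⟨⟨0, 1⟩, ⟨1, -1⟩, ⟨1, 1⟩, ⟨0, -1⟩⟩
  | 2, 2, 0, 2 => ⟨⟨1, -1⟩, ⟨-1, 0⟩, ⟨-1, -1⟩, ⟨0, 1⟩⟩
  | 2, 2, 1, 0 => ⟨⟨0, 1⟩, ⟨1, -1⟩, ⟨1, 0⟩, ⟨-1, -1⟩⟩
  | 2, 2, 1, 2 => ⟨⟨1, -1⟩, ⟨-1, 0⟩, ⟨0, -1⟩, ⟨-1, 0⟩⟩
  | 2, 2, 2, 0 => ⟨⟨-1, 0⟩, ⟨0, 1⟩, ⟨-1, 0⟩, ⟨1, 1⟩⟩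
  | 2, 2, 2, 1 => ⟨⟨-1, 0⟩, ⟨0, 1⟩, ⟨0, 1⟩, ⟨1, 0⟩⟩
  | _, _, _, _ => ⟨0, 0, 0, 0⟩

/-- The lift of a matrix given by its entries. -/
def liftQuad (a b c d : ZMod 3) : Quad := liftTable a.val b.val c.val d.val

/-- The computable form of `red`. -/
def redVal (z : ℤ√(-2)) : ZMod 3 := (z.re : ZMod 3) - (z.im : ZMod 3)

theorem red_eq_redVal (z : ℤ√(-2)) : red z = redVal z := by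
  show (z.re : ZMod 3) + (z.im : ZMod 3) * (-1) = _
  rw [redVal]; ring

theorem liftQuad_times : ∀ a b c d : ZMod 3, a * d - b * c ≠ 0 →
    ∀ a' b' c' d' : ZMod 3, a' * d' - b' * c' ≠ 0 →
      (liftQuad a b c d).times (liftQuad a' b' c' d') =
        liftQuad (a * a' + b * c') (a * b' + b * d') (c * a' + d * c') (c * b' + d * d') := by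
  decide +kernel

theorem liftQuad_one : liftQuad 1 0 0 1 = ⟨1, 0, 0, 1⟩ := by decide +kernel

theorem redVal_liftQuad : ∀ a b c d : ZMod 3, a * d - b * c ≠ 0 →
    redVal (liftQuad a b c d).e00 = a ∧ redVal (liftQuad a b c d).e01 = b ∧
      redVal (liftQuad a b c d).e10 = c ∧ redVal (liftQuad a b c d).e11 = d := by
  decide +kernel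

/-- The lift of a matrix. -/
def liftMat (g : Matrix (Fin 2) (Fin 2) (ZMod 3)) : Matrix (Fin 2) (Fin 2) (ℤ√(-2)) :=
  (liftQuad (g 0 0) (g 0 1) (g 1 0) (g 1 1)).toMatrix

theorem det_val_ne_zero (g : GL (Fin 2) (ZMod 3)) :
    g.val 0 0 * g.val 1 1 - g.val 0 1 * g.val 1 0 ≠ 0 := by
  have : Fact (Nat.Prime 3) := ⟨by norm_num⟩
  rw [← Matrix.det_fin_two]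
  exact (Matrix.GeneralLinearGroup.det g).ne_zero

theorem liftMat_one : liftMat 1 = 1 := by
  have h : liftQuad 1 0 0 1 = ⟨1, 0, 0, 1⟩ := liftQuad_one
  rw [liftMat, Matrix.one_apply_eq, Matrix.one_apply_eq, Matrix.one_apply_ne (by decide),
    Matrix.one_apply_ne (by decide), h, Quad.toMatrix, Matrix.one_fin_two]

theorem liftMat_mul (g h : GL (Fin 2) (ZMod 3)) :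
    liftMat (g.val * h.val) = liftMat g.val * liftMat h.val := by
  rw [liftMat, liftMat, liftMat, ← Quad.toMatrix_times,
    liftQuad_times _ _ _ _ (det_val_ne_zero g) _ _ _ _ (det_val_ne_zero h)]
  simp [Matrix.mul_apply, Fin.sum_univ_two]

/-- The lift as a monoid homomorphism into matrices. -/
def liftHomMat : GL (Fin 2) (ZMod 3) →* Matrix (Fin 2) (Fin 2) (ℤ√(-2)) where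
  toFun g := liftMat g.val
  map_one' := liftMat_one
  map_mul' g h := liftMat_mul g h

/-- The octahedral lift `Ψ`. -/
def psiLift : GL (Fin 2) (ZMod 3) →* GL (Fin 2) (ℤ√(-2)) := liftHomMat.toHomUnits

theorem map_red_psiLift (g : GL (Fin 2) (ZMod 3)) :
    Matrix.GeneralLinearGroup.map red (psiLift g) = g := by
  obtain ⟨h00, h01, h10, h11⟩ := redVal_liftQuad _ _ _ _ (det_val_ne_zero g)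
  refine Units.ext ?_
  ext i j
  show red ((liftMat g.val) i j) = g.val i j
  rw [red_eq_redVal]
  fin_cases i <;> fin_cases j <;> simp [liftMat, Quad.toMatrix, h00, h01, h10, h11]

end FLTAgent.WeightOneWiring
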