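import Fermat.Agent.DeligneSerre.Separating
import Fermat.Agent.WeightOneWiring.Eisenstein
import Fermat.Agent.WeightOneWiring.IntegerLift
import Fermat.Agent.WeightOneWiring.Lift

/-!
# Weight two eigensystems modulo three from weight one

From a weight one system of nebentypus `χ₋₃` to a weight two eigensystem modulo `3` on `Γ₀(N)`:
`g ↦ g E₁(χ₋₃)`, then a coefficientwise descent from `ℤ[√-2]` to `ℤ`.
Main result: `exists_latticeRealized`.
-/

set_option autoImplicit false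

noncomputable section

open UpperHalfPlane CongruenceSubgroup EisensteinWeightOne FLT.ExplicitLift Filter
open scoped MatrixGroups ModularForm

namespace FLTAgent.WeightOneWiring

open FLTAgent.MFIntegral
open FLTAgent.DeligneSerre (T_mem_Gamma1)

variable {N : ℕ} {ι : ℤ√(-2) →+* ℂ} {b : ℕ → ℤ√(-2)} {f : CuspForm (Gamma1 N) 1}

theorem chiInt_mul_self {d : ℤ} (h : ¬ (3 : ℤ) ∣ d) : chiInt d * chiInt d = 1 := by
  have h1 : d % 3 = 1 ∨ d % 3 = 2 := by omega
  rcases h1 with h1 | h1 <;> rw [chiInt, h1] <;> decide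

theorem gamma0_le_three (hN : 3 ∣ N) {γ : SL(2, ℤ)} (hγ : γ ∈ Gamma0 N) : γ ∈ Gamma0 3 := by
  rw [Gamma0_mem, ZMod.intCast_zmod_eq_zero_iff_dvd] at hγ ⊢
  exact (Int.natCast_dvd_natCast.mpr hN).trans hγ

theorem not_three_dvd_diag {γ : SL(2, ℤ)} (hγ : γ ∈ Gamma0 3) : ¬ (3 : ℤ) ∣ γ 1 1 := by
  rintro ⟨t, ht⟩
  have hdet : γ 0 0 * γ 1 1 - γ 0 1 * γ 1 0 = 1 := (Matrix.det_fin_two γ.1).symm.trans γ.2
  rw [Gamma0_mem, ZMod.intCast_zmod_eq_zero_iff_dvd] at hγ
  obtain ⟨r, hr⟩ := hγ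
  rw [ht, hr] at hdet
  have h3 : (3 : ℤ) ∣ 1 :=
    ⟨γ 0 0 * t - γ 0 1 * r, by push_cast at hdet; linear_combination -hdet⟩
  norm_num at h3

variable [NeZero N]

/-- `g E₁(χ₋₃)` is a cusp form of weight two on `Γ₀(N)`. -/
theorem isCF_mul_eisChi (hf : IsWeightOneExpansion N ι b f) :
    IsCF 2 (Gamma0 N) ((⇑f : ℍ → ℂ) * eisChi) := by
  have hz := (isCF_of_cuspForm f).2
  have hb := eisChi_isMF.bdd
  have hzero : ∀ γ : SL(2, ℤ),
      IsZeroAtImInfty (((⇑f : ℍ → ℂ) * eisChi) ∣[(2 : ℤ)] γ) := by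
    intro γ
    rw [show (2 : ℤ) = 1 + 1 from rfl, ModularForm.mul_slash_SL2]
    have h := ((Asymptotics.isLittleO_one_iff ℝ).mpr (hz γ)).mul_isBigO (hb γ)
    simp only [one_mul] at h
    exact (Asymptotics.isLittleO_one_iff ℝ).mp h
  refine ⟨⟨fun γ hγ => ?_, (isCF_of_cuspForm f).1.holo.mul eisChi_isMF.holo,
    fun γ => (hzero γ).boundedAtFilter⟩, hzero⟩
  have h3 := gamma0_le_three hf.three_dvd hγ
  rw [show (2 : ℤ) = 1 + 1 from rfl, ModularForm.mul_slash_SL2, hf.nebentypus γ hγ,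
    eisChi_slash h3, smul_mul_smul_comm]
  have h1 : ((chiInt (γ 1 1) : ℂ) * (chiInt (γ 1 1) : ℂ)) = 1 := by
    exact_mod_cast chiInt_mul_self (not_three_dvd_diag h3)
  rw [h1, one_smul]

/-- The coefficients of `g E₁(χ₋₃)` before applying `ι`. -/
def bridgeCoeff (b : ℕ → ℤ√(-2)) (n : ℕ) : ℤ√(-2) := (bridgeProduct b).coeff n

theorem qCoeff_mul_eisChi (hf : IsWeightOneExpansion N ι b f) (n : ℕ) :
    ModularFormClass.qCoeff (isCF_mul_eisChi hf).toCF n = ι (bridgeCoeff b n) := by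
  have h1 : qE (⇑f : ℍ → ℂ) = PowerSeries.map ι (PowerSeries.mk b) := by
    ext m
    rw [PowerSeries.coeff_map, PowerSeries.coeff_mk, ← hf.qCoeff m]
    rfl
  have h2 : qE eisChi = PowerSeries.map ι (e1Chi3In (ℤ√(-2))) := by
    ext m
    rw [coeff_qE_eisChi, PowerSeries.coeff_map, e1Chi3In, PowerSeries.coeff_map, eq_intCast,
      map_intCast]
  rw [qCoeff_eq, IsCF.coe_toCF, qE_mul ((isCF_of_cuspForm f).1.mem_PB T_mem_Gamma1)
      (eisChi_isMF.mem_PB T_mem_Gamma1), h1, h2, ← map_mul, PowerSeries.coeff_map]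
  rfl

theorem map_e1Chi3In_eq_one : e1Chi3In (ZMod 3) = 1 := by
  ext n
  rw [e1Chi3In, PowerSeries.coeff_map, e1Chi3, PowerSeries.coeff_mk, PowerSeries.coeff_one]
  split_ifs with hn
  · simp
  · rw [eq_intCast, ZMod.intCast_zmod_eq_zero_iff_dvd]
    exact Dvd.dvd.mul_right (show ((3 : ℕ) : ℤ) ∣ 6 from ⟨2, rfl⟩) _

theorem coeff_bridgeProduct_int (a : ℕ → ℤ) (n : ℕ) :
    (((bridgeProduct a).coeff n : ℤ) : ZMod 3) = (a n : ZMod 3) := by
  show Int.castRingHom (ZMod 3) _ = _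
  rw [← PowerSeries.coeff_map, bridgeProduct, map_mul, e1Chi3In, ← RingHom.comp_apply,
    ← PowerSeries.map_comp, RingHom.eq_intCast' ((Int.castRingHom (ZMod 3)).comp
      (Int.castRingHom ℤ))]
  rw [show PowerSeries.map (Int.castRingHom (ZMod 3)) e1Chi3 = e1Chi3In (ZMod 3) from rfl,
    map_e1Chi3In_eq_one, mul_one, PowerSeries.coeff_map, PowerSeries.coeff_mk]
  rfl

theorem red_bridgeCoeff (b : ℕ → ℤ√(-2)) (n : ℕ) : red (bridgeCoeff b n) = red (b n) := by
  rw [bridgeCoeff, ← PowerSeries.coeff_map, bridgeProduct, map_mul, e1Chi3In,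
    ← RingHom.comp_apply, ← PowerSeries.map_comp,
    RingHom.eq_intCast' (red.comp (Int.castRingHom (ℤ√(-2))))]
  rw [show PowerSeries.map (Int.castRingHom (ZMod 3)) e1Chi3 = e1Chi3In (ZMod 3) from rfl,
    map_e1Chi3In_eq_one, mul_one, PowerSeries.coeff_map, PowerSeries.coeff_mk]

theorem iota_apply (ι : ℤ√(-2) →+* ℂ) (z : ℤ√(-2)) :
    ι z = (z.re : ℂ) + ι Zsqrtd.sqrtd * (z.im : ℂ) := by
  conv_lhs => rw [show z = ((z.re : ℤ) : ℤ√(-2)) + Zsqrtd.sqrtd * ((z.im : ℤ) : ℤ√(-2)) by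
    ext <;> simp]
  rw [map_add, map_mul, map_intCast, map_intCast]

theorem iota_sqrtd_sq (ι : ℤ√(-2) →+* ℂ) : ι Zsqrtd.sqrtd * ι Zsqrtd.sqrtd = -2 := by
  rw [← map_mul, Zsqrtd.dmuld, map_intCast]
  norm_num

theorem conj_iota_sqrtd (ι : ℤ√(-2) →+* ℂ) :
    (starRingEnd ℂ) (ι Zsqrtd.sqrtd) = -ι Zsqrtd.sqrtd := by
  have h := iota_sqrtd_sq ι
  set w := ι Zsqrtd.sqrtd
  have hre := congrArg Complex.re h
  have him := congrArg Complex.im h
  simp only [Complex.mul_re, Complex.mul_im, Complex.neg_re, Complex.neg_im] at hre him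
  norm_num at hre him
  have h0 : w.re = 0 := by
    rcases mul_eq_zero.mp (show w.re * w.im = 0 by linarith) with h | h
    · exact h
    · rw [h] at hre; nlinarith
  apply Complex.ext <;> simp [h0]

theorem iota_sqrtd_ne_zero (ι : ℤ√(-2) →+* ℂ) : ι Zsqrtd.sqrtd ≠ 0 := fun h => by
  have := iota_sqrtd_sq ι
  rw [h] at this
  norm_num at this

theorem iota_eq_zero (ι : ℤ√(-2) →+* ℂ) {z : ℤ√(-2)} (h : ι z = 0) : z = 0 := by
  rw [iota_apply] at h
  have hc : (starRingEnd ℂ) ((z.re : ℂ) + ι Zsqrtd.sqrtd * (z.im : ℂ)) = 0 := by rw [h, map_zero]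
  rw [map_add, map_mul, map_intCast, map_intCast, conj_iota_sqrtd] at hc
  have h1 : (z.re : ℂ) = 0 := by linear_combination (h + hc) / 2
  have h2 : ι Zsqrtd.sqrtd * (z.im : ℂ) = 0 := by linear_combination h - h1
  rcases mul_eq_zero.mp h2 with h2 | h2
  · exact absurd h2 (iota_sqrtd_ne_zero ι)
  · exact Zsqrtd.ext (by exact_mod_cast h1) (by exact_mod_cast h2)

theorem coeff_zero_eq_zero (hf : IsWeightOneExpansion N ι b f) : b 0 = 0 := by
  refine iota_eq_zero ι ?_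
  rw [← hf.qCoeff 0]
  exact (isCF_of_cuspForm f).coeff_zero T_mem_Gamma1

/-- `g E₁(χ₋₃)` descends to an integral form: coefficients `re - im`. -/
theorem exists_integral_form (hf : IsWeightOneExpansion N ι b f) :
    ∃ H : CuspForm (Gamma0 N) 2, ∀ n, ModularFormClass.qCoeff H n =
      (((bridgeCoeff b n).re - (bridgeCoeff b n).im : ℤ) : ℂ) := by
  set F := (isCF_mul_eisChi hf).toCF with hF
  obtain ⟨G, hG⟩ := cuspForm_conj (Complex.conjAe : ℂ ≃+* ℂ) F
  set w := ι Zsqrtd.sqrtd with hw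
  refine ⟨(1 / 2 : ℂ) • (F + G) - (1 / (2 * w)) • (F - G), fun n => ?_⟩
  have key : qCoeffCF ((1 / 2 : ℂ) • (F + G) - (1 / (2 * w)) • (F - G)) n
      = (((bridgeCoeff b n).re - (bridgeCoeff b n).im : ℤ) : ℂ) := by
    rw [map_sub, map_smul, map_smul, map_add, map_sub]
    simp only [Pi.sub_apply, Pi.smul_apply, Pi.add_apply, qCoeffCF_apply, smul_eq_mul]
    rw [hG, qCoeff_mul_eisChi hf, iota_apply, ← hw]
    show (1 / 2 : ℂ) * (_ + (starRingEnd ℂ) _) - 1 / (2 * w) * (_ - (starRingEnd ℂ) _) = _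
    rw [map_add, map_mul, map_intCast, map_intCast, hw, conj_iota_sqrtd]
    have := iota_sqrtd_ne_zero ι
    field_simp
    push_cast
    ring
  simpa using key

/-- Item (b): the mod `3` weight two realisation of a weight one system. -/
theorem exists_latticeRealized (hf : IsWeightOneSystem N ι b f) :
    ∃ a : ℕ → ℤ, FormalHecke.IsEigensystem (weightOneEuler ℤ N) a ∧
      CuspForm.IsLatticeRealized N a ∧ ∀ n, ((a n : ℤ) : ZMod 3) = red (b n) := by
  have he : ∀ ℓ, (Int.castRingHom (ZMod 3)) (weightOneEuler ℤ N ℓ) =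
      red (weightOneEuler (ℤ√(-2)) N ℓ) := by
    intro ℓ
    rw [weightOneEuler, weightOneEuler]
    split_ifs with h
    · simp
    · rw [map_intCast, map_intCast]
  have hc : FormalHecke.IsEigensystem (fun ℓ => (Int.castRingHom (ZMod 3)) (weightOneEuler ℤ N ℓ))
      (fun n => red (b n)) := by
    refine ⟨by simp [hf.eigensystem.1], fun ℓ hℓ n => ?_⟩
    have h := congrArg red (hf.eigensystem.2 ℓ hℓ n)
    rw [map_add, map_mul, map_mul, ← he] at h
    split_ifs with hd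
    · rw [if_pos hd] at h; exact h
    · rw [if_neg hd, map_zero] at h; exact h
  obtain ⟨a, ha, hab⟩ := exists_integral_lift (Int.castRingHom (ZMod 3))
    (ZMod.intCast_surjective) (weightOneEuler ℤ N) (fun n => red (b n))
    (by simp [coeff_zero_eq_zero hf.toIsWeightOneExpansion]) hc
  obtain ⟨H, hH⟩ := exists_integral_form hf.toIsWeightOneExpansion
  refine ⟨a, ha, ⟨H, fun n => ?_, _, fun n => (hH n).symm, fun n => ?_⟩, fun n => hab n⟩
  · rw [hH]; exact intCast_mem _ _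
  · refine (ZMod.intCast_zmod_eq_zero_iff_dvd _ 3).mp ?_
    rw [Int.cast_sub, coeff_bridgeProduct_int, ← eq_intCast (Int.castRingHom (ZMod 3)) (a n),
      hab n, ← red_bridgeCoeff b n, red_eq_redVal, redVal]
    push_cast
    ring

end FLTAgent.WeightOneWiring
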